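import Fermat.Prelude.Def_ModularCurve_X0ModL
import Fermat.Prelude.Def_ModularCurve_ModularUnit

/-!
# The modular unit `Δ(τ)/Δ(pτ)` and `1/j` as series over an arbitrary ring
-/

set_option autoImplicit false

noncomputable section

open HahnSeries ModularCurve

namespace FermatLib.Mazur.Classes

section Series

variable (R : Type*) [CommRing R]

/-- `∏ (1 - q ^ n) ^ 24`. -/
def etaUnitC : LaurentSeries R :=
  HahnSeries.ofPowerSeries ℤ R (dedekindEtaUnit.map (Int.castRingHom R))

/-- `∏ (1 - q ^ n) ^ (-24)`. -/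
def etaUnitInvC : LaurentSeries R :=
  HahnSeries.ofPowerSeries ℤ R (dedekindEtaUnitInv.map (Int.castRingHom R))

theorem etaUnitC_mul_inv : etaUnitC R * etaUnitInvC R = 1 := by
  rw [etaUnitC, etaUnitInvC, ← map_mul, ← map_mul, dedekindEtaUnit_mul_inv, map_one, map_one]

/-- The inverse of `jNum`. -/
def jNumInv : PowerSeries ℤ := jNum.invOfUnit 1

theorem jNum_mul_inv : jNum * jNumInv = 1 :=
  PowerSeries.mul_invOfUnit _ _ (by rw [constantCoeff_jNum]; rfl)

/-- `1/j`. -/
def jqInvC : LaurentSeries R :=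
  HahnSeries.single (1 : ℤ) 1 *
    HahnSeries.ofPowerSeries ℤ R (jNumInv.map (Int.castRingHom R))

theorem jqModC_mul_jqInvC : jqModC R * jqInvC R = 1 := by
  rw [jqModC, jqInvC, mul_mul_mul_comm, HahnSeries.single_mul_single, ← map_mul, ← map_mul,
    jNum_mul_inv, map_one, map_one, mul_one]
  norm_num

variable (p : ℕ) [NeZero p]

/-- `Δ(τ)/Δ(pτ)`. -/
def uModC : LaurentSeries R :=
  HahnSeries.single (1 - (p : ℤ)) 1 * (etaUnitC R * qExpand R p (etaUnitInvC R))

/-- `Δ(pτ)/Δ(τ)`. -/
def vModC : LaurentSeries R :=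
  HahnSeries.single ((p : ℤ) - 1) 1 * (etaUnitInvC R * qExpand R p (etaUnitC R))

theorem uModC_mul_vModC : uModC R p * vModC R p = 1 := by
  rw [uModC, vModC, mul_mul_mul_comm, HahnSeries.single_mul_single,
    mul_mul_mul_comm (etaUnitC R), etaUnitC_mul_inv, ← map_mul, mul_comm (etaUnitInvC R),
    etaUnitC_mul_inv, map_one]
  simp

variable {R}
variable {S : Type*} [CommRing S] (f : R →+* S)

theorem coeffMap_map_intCast (P : PowerSeries ℤ) :
    coeffMap f (HahnSeries.ofPowerSeries ℤ R (P.map (Int.castRingHom R))) =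
      HahnSeries.ofPowerSeries ℤ S (P.map (Int.castRingHom S)) := by
  rw [coeffMap_ofPowerSeries, ← RingHom.comp_apply (PowerSeries.map f),
    ← PowerSeries.map_comp, RingHom.ext_int (f.comp (Int.castRingHom R)) (Int.castRingHom S)]

theorem coeffMap_etaUnitC : coeffMap f (etaUnitC R) = etaUnitC S := coeffMap_map_intCast f _

theorem coeffMap_etaUnitInvC : coeffMap f (etaUnitInvC R) = etaUnitInvC S :=
  coeffMap_map_intCast f _

theorem coeffMap_jqInvC : coeffMap f (jqInvC R) = jqInvC S := by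
  rw [jqInvC, map_mul, coeffMap_single, map_one, coeffMap_map_intCast, jqInvC]

theorem coeffMap_uModC : coeffMap f (uModC R p) = uModC S p := by
  rw [uModC, map_mul, map_mul, coeffMap_single, map_one, coeffMap_qExpand, coeffMap_etaUnitC,
    coeffMap_etaUnitInvC, uModC]

theorem coeffMap_vModC : coeffMap f (vModC R p) = vModC S p := by
  rw [vModC, map_mul, map_mul, coeffMap_single, map_one, coeffMap_qExpand, coeffMap_etaUnitC,
    coeffMap_etaUnitInvC, vModC]

end Series

section Rat

theorem deltaSeries_eq : deltaSeries = HahnSeries.single (1 : ℤ) 1 * etaUnitC ℚ := rfl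

theorem uModC_rat (p : ℕ) [NeZero p] : uModC ℚ p = modularUnitSeries p := by
  refine mul_right_cancel₀ (deltaSeriesN_ne_zero p) ?_
  rw [modularUnitSeries_mul_deltaSeriesN, deltaSeriesN, deltaSeries_eq, map_mul, qExpand_single,
    uModC, mul_mul_mul_comm, HahnSeries.single_mul_single, mul_assoc (etaUnitC ℚ), ← map_mul,
    mul_comm (etaUnitInvC ℚ), etaUnitC_mul_inv, map_one, mul_one]
  simp

theorem jqModC_eq_coeffEmb (L : Type*) [Field L] [Algebra ℚ L] :
    jqModC L = coeffEmb L jq := by
  rw [← jqModC_rat, coeffEmb, coeffMap_jqModC]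

theorem uModC_eq_coeffEmb (L : Type*) [Field L] [Algebra ℚ L] (p : ℕ) [NeZero p] :
    uModC L p = coeffEmb L (modularUnitSeries p) := by
  rw [← uModC_rat, coeffEmb, coeffMap_uModC]

end Rat

section Order

variable (k : Type*) [Field k]

theorem order_eq_of_coeff {f : LaurentSeries k} {m : ℤ} (h : f.coeff m ≠ 0)
    (h' : ∀ i < m, f.coeff i = 0) : f.order = m := by
  refine le_antisymm (HahnSeries.order_le_of_coeff_ne_zero h) ?_
  by_contra hlt
  exact HahnSeries.coeff_order_eq_zero.not.mpr (HahnSeries.ne_zero_of_coeff_ne_zero h)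
    (h' _ (not_le.mp hlt))

theorem order_map_intCast {P : PowerSeries ℤ} (hP : PowerSeries.constantCoeff P = 1) :
    (HahnSeries.ofPowerSeries ℤ k (P.map (Int.castRingHom k))).order = 0 := by
  refine order_eq_of_coeff k ?_ fun i hi => ofPowerSeries_coeff_of_neg _ hi
  rw [show (0 : ℤ) = ((0 : ℕ) : ℤ) from rfl, HahnSeries.ofPowerSeries_apply_coeff,
    PowerSeries.coeff_map, PowerSeries.coeff_zero_eq_constantCoeff, hP, map_one]
  exact one_ne_zero

theorem order_qExpand (n : ℕ) [NeZero n] {f : LaurentSeries k} (hf : f ≠ 0) :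
    (qExpand k n f).order = n * f.order := by
  refine order_eq_of_coeff k ?_ fun i hi => ?_
  · rw [qExpand_coeff_mul]
    exact HahnSeries.coeff_order_eq_zero.not.mpr hf
  · by_cases hdvd : (n : ℤ) ∣ i
    · obtain ⟨j, rfl⟩ := hdvd
      rw [qExpand_coeff_mul]
      refine HahnSeries.coeff_eq_zero_of_lt_order ?_
      have hn : (0 : ℤ) ≤ n := Int.natCast_nonneg n
      exact lt_of_mul_lt_mul_left hi hn
    · exact qExpand_coeff_of_not_dvd n f hdvd

theorem order_jqModC : (jqModC k).order = -1 := by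
  refine order_eq_of_coeff k ?_ fun i hi => coeff_jqModC_of_lt k hi
  rw [coeff_jqModC_neg_one]
  exact one_ne_zero

theorem jqModC_ne_zero' : jqModC k ≠ 0 := jqModC_ne_zero_of_nontrivial k

variable (p : ℕ) [NeZero p]

theorem uModC_ne_zero : uModC k p ≠ 0 := left_ne_zero_of_mul_eq_one (uModC_mul_vModC k p)

theorem vModC_ne_zero : vModC k p ≠ 0 := right_ne_zero_of_mul_eq_one (uModC_mul_vModC k p)

theorem order_uModC : (uModC k p).order = 1 - p := by
  have h1 : etaUnitC k ≠ 0 := left_ne_zero_of_mul_eq_one (etaUnitC_mul_inv k)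
  have h2 : etaUnitInvC k ≠ 0 := right_ne_zero_of_mul_eq_one (etaUnitC_mul_inv k)
  have h3 : qExpand k p (etaUnitInvC k) ≠ 0 := (map_ne_zero _).mpr h2
  rw [uModC, HahnSeries.order_mul (HahnSeries.single_ne_zero one_ne_zero) (mul_ne_zero h1 h3),
    HahnSeries.order_mul h1 h3, HahnSeries.order_single one_ne_zero, order_qExpand k p h2,
    etaUnitC, etaUnitInvC, order_map_intCast k constantCoeff_dedekindEtaUnit,
    order_map_intCast k constantCoeff_dedekindEtaUnitInv]
  simp

end Order

end FermatLib.Mazur.Classes
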