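import Fermat.Agent.Mazur.Classes.CuspHecke
import Fermat.Agent.Modular.GenusBar
import Fermat.Agent.Curve.HurwitzGenus

/-!
# The order of the cuspidal class of `X₀(p)`
-/

set_option autoImplicit false
set_option linter.style.haveILetI false

noncomputable section

open ModularCurve AlgebraicCurve FermatLib.Modular FermatLib.Modular.Corr

namespace FermatLib.Mazur.Classes

local notation "Qbar" => AlgebraicClosure ℚ

variable (ι : Qbar →+* ℂ) (p : ℕ) [NeZero p]

theorem cuspClass_eq_zero_iff (k : ℤ) :
    k • cuspClass ι p = 0 ↔ Divisor.IsPrincipal (k • cuspDivisor ι p) := by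
  rw [cuspClass, Pic0.mk, ← QuotientAddGroup.mk_zsmul, QuotientAddGroup.eq_zero_iff,
    AddSubgroup.mem_addSubgroupOf, Divisor.mem_principal, AddSubgroupClass.coe_zsmul]

variable {p}

theorem nsmul_cuspClass (hp : p.Prime) : (p - 1) • cuspClass ι p = 0 := by
  rw [← natCast_zsmul, cuspClass_eq_zero_iff]
  refine ⟨(uB p hp)⁻¹, inv_ne_zero (uB_ne_zero p hp), fun v => ?_⟩
  rw [Finsupp.smul_apply, cuspDivisor, Finsupp.sub_apply, v.ord_inv, Nat.cast_sub hp.pos]
  have hne := cInf_ne_cZero ι p hp
  rcases eq_or_ne v (cInf ι p) with rfl | h1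
  · rw [Finsupp.single_eq_same, Finsupp.single_eq_of_ne hne, ord_uB_cInf ι p hp, smul_eq_mul]
    push_cast
    ring
  rcases eq_or_ne v (cZero ι p) with rfl | h2
  · rw [Finsupp.single_eq_same, Finsupp.single_eq_of_ne hne.symm, ord_uB_cZero ι p hp, smul_eq_mul]
    push_cast
    ring
  · rw [Finsupp.single_eq_of_ne h1, Finsupp.single_eq_of_ne h2, sub_zero, smul_zero,
      ord_uB_eq_zero p hp v (ord_j_nonneg ι p hp v h1 h2), neg_zero]

/-- A function with a single simple pole makes the genus zero. -/
theorem genusFF_eq_zero_of_simple_pole {K F : Type*} [Field K] [Field F] [Algebra K F]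
    [IsAlgClosed K] [Curve.IsFunctionField K F] {f : F} (c : Place K F) (hc : c.ord f = -1)
    (h : ∀ v, v ≠ c → 0 ≤ v.ord f) : genusFF K F = 0 := by
  have hf0 : f ≠ 0 := fun h0 => by simp [h0] at hc
  have htr : Transcendental K f := Curve.transcendental_of_ord_ne_zero (v := c) (by omega)
  set n := 2 * genusFF K F + 1 with hn
  set D : Divisor K F := Finsupp.single c (n : ℤ) with hD
  have hdeg : Divisor.degree D = n := by
    rw [hD, Divisor.degree_single, Curve.deg_eq_one, Nat.cast_one, mul_one]
  have hrr := Curve.finrank_riemannRochSpace_of_lt_degree (D := D) (by rw [hdeg]; omega)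
  have hmem : ∀ k : Fin (n + 1), f ^ (k : ℕ) ∈ riemannRochSpace D := fun k => by
    rw [mem_riemannRochSpace_iff]
    intro v
    refine Or.inr ?_
    rw [← zpow_natCast, v.ord_zpow, hD]
    rcases eq_or_ne v c with rfl | hv
    · rw [Finsupp.single_eq_same, hc]
      have := k.2
      omega
    · rw [Finsupp.single_eq_of_ne hv, neg_zero]
      exact mul_nonneg (Int.natCast_nonneg _) (h v hv)
  have hli : LinearIndependent K fun k : Fin (n + 1) =>
      (⟨f ^ (k : ℕ), hmem k⟩ : riemannRochSpace D) := by
    refine LinearIndependent.of_comp (riemannRochSpace D).subtype ?_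
    have h1 := (Polynomial.basisMonomials K).linearIndependent.map'
      (Polynomial.aeval f).toLinearMap
      (LinearMap.ker_eq_bot.mpr (transcendental_iff_injective.mp htr))
    have h2 := h1.comp _ Fin.val_injective (ι' := Fin (n + 1))
    have e : ((Polynomial.aeval f).toLinearMap ∘ Polynomial.basisMonomials K) ∘ Fin.val
        = fun k : Fin (n + 1) => f ^ (k : ℕ) := by
      funext k
      simp [Polynomial.aeval_monomial]
    rw [e] at h2
    exact h2
  haveI := Curve.finite_riemannRochSpace (K := K) (F := F) D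
  have hle := hli.fintype_card_le_finrank
  rw [Fintype.card_fin] at hle
  omega

theorem nuTwo_le_two (hp : p.Prime) : nuTwo p ≤ 2 := by
  haveI := Fact.mk hp
  classical
  rw [nuTwo, Nat.card_eq_fintype_card, Fintype.card_subtype]
  rcases Finset.eq_empty_or_nonempty
    (Finset.univ.filter fun x : ZMod p => x ^ 2 + 1 = 0) with h | ⟨a, ha⟩
  · simp [h]
  rw [Finset.mem_filter] at ha
  refine (Finset.card_le_card fun x hx => ?_).trans (Finset.card_le_two (a := a) (b := -a))
  rw [Finset.mem_filter] at hx
  have : (x - a) * (x + a) = 0 := by linear_combination hx.2 - ha.2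
  rcases mul_eq_zero.mp this with e | e
  · simp [sub_eq_zero.mp e]
  · simp [eq_neg_of_add_eq_zero_left e]

theorem nuThree_le_two (hp : p.Prime) : nuThree p ≤ 2 := by
  haveI := Fact.mk hp
  classical
  rw [nuThree, Nat.card_eq_fintype_card, Fintype.card_subtype]
  rcases Finset.eq_empty_or_nonempty
    (Finset.univ.filter fun x : ZMod p => x ^ 2 + x + 1 = 0) with h | ⟨a, ha⟩
  · simp [h]
  rw [Finset.mem_filter] at ha
  refine (Finset.card_le_card fun x hx => ?_).trans (Finset.card_le_two (a := a) (b := -1 - a))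
  rw [Finset.mem_filter] at hx
  have : (x - a) * (x - (-1 - a)) = 0 := by linear_combination hx.2 - ha.2
  rcases mul_eq_zero.mp this with e | e
  · simp [sub_eq_zero.mp e]
  · simp [sub_eq_zero.mp e]

omit [NeZero p] in
theorem genusFormula_pos (hp : p.Prime) (hp' : p ∉ ({2, 3, 5, 7, 13} : Finset ℕ)) :
    0 < genusFormula p := by
  have hψ : dedekindPsi p = p + 1 := by
    have := Corr.dedekindPsi_mul_prime 1 hp
    rwa [one_mul, if_neg (fun h => hp.ne_one (Nat.dvd_one.mp h)), dedekindPsi_one, mul_one] at this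
  have hc : cuspCount p = 2 := by
    rw [cuspCount, hp.sum_divisors]
    simp [Nat.div_self hp.pos]
  rw [genusFormula, hψ, hc]
  simp only [Finset.mem_insert, Finset.mem_singleton, not_or] at hp'
  have hp11 : p = 11 ∨ 17 ≤ p := by
    by_contra hcon
    rw [not_or, not_le] at hcon
    obtain ⟨h2, h3, h5, h7, h13⟩ := hp'
    have h2p := hp.two_le
    obtain ⟨h11, h17⟩ := hcon
    interval_cases p <;> first | omega | norm_num at hp
  rcases hp11 with rfl | h17
  · have e2 : nuTwo 11 = 0 := by rw [nuTwo, Nat.card_eq_fintype_card]; decide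
    have e3 : nuThree 11 = 0 := by rw [nuThree, Nat.card_eq_fintype_card]; decide
    rw [e2, e3]
    norm_num
  · have h2 : (nuTwo p : ℚ) ≤ 2 := by
      haveI : NeZero p := ⟨hp.ne_zero⟩
      exact_mod_cast nuTwo_le_two hp
    have h3 : (nuThree p : ℚ) ≤ 2 := by
      haveI : NeZero p := ⟨hp.ne_zero⟩
      exact_mod_cast nuThree_le_two hp
    have h17' : (17 : ℚ) ≤ p := by exact_mod_cast h17
    push_cast
    linarith

theorem cuspClass_ne_zero (hp : p.Prime) (hp' : p ∉ ({2, 3, 5, 7, 13} : Finset ℕ)) :
    cuspClass ι p ≠ 0 := by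
  intro h0
  obtain ⟨f, -, hdiv⟩ := (cuspClass_eq_zero_iff ι p 1).mp (by rw [h0, smul_zero])
  rw [one_smul, cuspDivisor] at hdiv
  have hne := cInf_ne_cZero ι p hp
  haveI := isFunctionFieldOne_fieldBar Qbar p
  have hg : genusFF Qbar (modularFunctionFieldOver Qbar p) = 0 := by
    refine genusFF_eq_zero_of_simple_pole (f := f) (cZero ι p) ?_ fun v hv => ?_
    · rw [← hdiv, Finsupp.sub_apply, Finsupp.single_eq_same, Finsupp.single_eq_of_ne hne.symm,
        zero_sub]
    · rw [← hdiv, Finsupp.sub_apply, Finsupp.single_eq_of_ne hv, sub_zero]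
      rcases eq_or_ne v (cInf ι p) with rfl | h1
      · rw [Finsupp.single_eq_same]; exact zero_le_one
      · rw [Finsupp.single_eq_of_ne h1]
  haveI : IsCurveOver Qbar (modularFunctionFieldOver Qbar p) :=
    isCurveOver_modularFunctionFieldOver p
  haveI : CharZero Qbar := algebraRat.charZero Qbar
  haveI := finiteDimensional_adjoin_jElem Qbar p
  haveI : Algebra.IsSeparable ↥(IntermediateField.adjoin Qbar {jElem Qbar p})
      ↥(modularFunctionFieldOver Qbar p) :=
    haveI : Algebra.IsAlgebraic ↥(IntermediateField.adjoin Qbar {jElem Qbar p})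
      ↥(modularFunctionFieldOver Qbar p) := Algebra.IsAlgebraic.of_finite _ _
    Algebra.IsAlgebraic.isSeparable_of_perfectField
  haveI : HasCanonicalDivisor (K := Qbar) (F := ↥(modularFunctionFieldOver Qbar p)) :=
    Curve.hasCanonicalDivisor_of_separating (transcendental_jElem Qbar p)
      IsCurveOver.deg_eq_one_of_isAlgClosed
  have h1 := genus_modularFunctionFieldOver Qbar ι p
  rw [Curve.genus_eq_genusFF, hg, Nat.cast_zero] at h1
  exact (genusFormula_pos hp hp').ne h1

end FermatLib.Mazur.Classes

end
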