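import Fermat.Agent.Mazur.Classes.CuspRelations

/-!
# The fibres over the two cusps of prime level
-/

set_option autoImplicit false

noncomputable section

open ModularCurve AlgebraicCurve FermatLib.Modular FermatLib.Modular.Corr

namespace FermatLib.Mazur.Classes

local notation "Qbar" => AlgebraicClosure ℚ

section General

variable {M M' : ℕ} [NeZero M] [NeZero M'] [HasPrincipalDivisors Qbar (fieldBar Qbar M')]
  (φ : fieldBar Qbar M →ₐ[Qbar] fieldBar Qbar M') (hφ : φ.toRingHom.IsIntegral)
  (hfin : FiniteAlong Qbar φ)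

include hfin in
theorem sum_ramification (v : Place Qbar (fieldBar Qbar M)) :
    ∑ W ∈ Place.fiberAlong φ hφ v, (W.ramificationIndexAlong φ : ℤ)
      = (finrankAlong Qbar φ : ℤ) := by
  have h := Divisor.degree_pullbackAlong φ hφ
    ((curveFacts Qbar).fundamentalIdentity M M' φ hφ hfin) (Finsupp.single v 1)
  simp only [Divisor.pullbackAlong_single, map_sum, Divisor.degree_single,
    (curveFacts Qbar).deg_eq_one, Nat.cast_one, mul_one, one_mul] at h
  exact h

include hfin in
/-- The pole orders of `φ f` over a pole `v` of `f`. -/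
theorem sum_ord_fibre (v : Place Qbar (fieldBar Qbar M)) (f : fieldBar Qbar M) :
    ∑ W ∈ Place.fiberAlong φ hφ v, W.ord (φ f)
      = v.ord f * (finrankAlong Qbar φ : ℤ) := by
  rw [← sum_ramification φ hφ hfin v, Finset.mul_sum]
  refine Finset.sum_congr rfl fun W hW => ?_
  rw [Place.ord_restrictAlong φ hφ W, Place.mem_fiberAlong.mp hW, mul_comm]

omit [HasPrincipalDivisors Qbar (fieldBar Qbar M')] in
theorem pushforward_single (W : Place Qbar (fieldBar Qbar M')) (n : ℤ) :
    Divisor.pushforwardAlong φ hφ (Finsupp.single W n)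
      = Finsupp.single (W.restrictAlong φ hφ) n := by
  have h := Divisor.degree_pushforwardAlong φ hφ (Finsupp.single W n)
  rw [Divisor.pushforwardAlong_single, Divisor.degree_single, Divisor.degree_single,
    (curveFacts Qbar).deg_eq_one, (curveFacts Qbar).deg_eq_one, Nat.cast_one, mul_one,
    mul_one] at h
  rw [Divisor.pushforwardAlong_single, h]

theorem correspondence_single (ψ : fieldBar Qbar M →ₐ[Qbar] fieldBar Qbar M')
    (hψ : ψ.toRingHom.IsIntegral) (v : Place Qbar (fieldBar Qbar M)) :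
    Divisor.correspondence φ ψ hφ hψ (Finsupp.single v 1)
      = ∑ W ∈ Place.fiberAlong φ hφ v,
          Finsupp.single (W.restrictAlong ψ hψ) (W.ramificationIndexAlong φ : ℤ) := by
  rw [Divisor.correspondence_apply, Divisor.pullbackAlong_single, map_sum]
  refine Finset.sum_congr rfl fun W _ => ?_
  rw [pushforward_single, one_mul]

include hfin in
theorem correspondence_single_of_constant (ψ : fieldBar Qbar M →ₐ[Qbar] fieldBar Qbar M')
    (hψ : ψ.toRingHom.IsIntegral) (v u : Place Qbar (fieldBar Qbar M))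
    (h : ∀ W : Place Qbar (fieldBar Qbar M'), W.restrictAlong φ hφ = v → W.restrictAlong ψ hψ = u) :
    Divisor.correspondence φ ψ hφ hψ (Finsupp.single v 1)
      = Finsupp.single u (finrankAlong Qbar φ : ℤ) := by
  rw [correspondence_single, ← sum_ramification φ hφ hfin v, Finsupp.single_finsetSum]
  exact Finset.sum_congr rfl fun W hW => by rw [h W (Place.mem_fiberAlong.mp hW)]

end General

section Cusp

set_option linter.unusedSectionVars false

variable (ι : Qbar →+* ℂ) (p : ℕ) [NeZero p] {M : ℕ} [NeZero M]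
  (φ : fieldBar Qbar p →ₐ[Qbar] fieldBar Qbar M) (hφ : φ.toRingHom.IsIntegral)
  (W : Place Qbar (fieldBar Qbar M))

theorem restrict_eq_cInf_iff (hp : p.Prime) :
    W.restrictAlong φ hφ = cInf ι p ↔ W.ord (φ (jB p Qbar)) < 0 ∧
      W.ord (φ (jd p p dvd_rfl)) = (p : ℤ) * W.ord (φ (jB p Qbar)) := by
  have hr : (0 : ℤ) < W.ramificationIndexAlong φ := by
    exact_mod_cast ramificationIndexAlong_pos' φ hφ W
  rw [Place.ord_restrictAlong φ hφ W, Place.ord_restrictAlong φ hφ W]
  refine ⟨fun h => ?_, fun ⟨h1, h2⟩ => ?_⟩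
  · rw [h, ord_cInf_j, ord_cInf_jd]
    exact ⟨by linarith, by ring⟩
  · rcases cusp_cases ι p hp (W.restrictAlong φ hφ) with ⟨h, -⟩ | h | h
    · nlinarith
    · exact h
    · rw [h, ord_cZero_j ι p hp, ord_cZero_jd ι p hp] at h2
      have : (2 : ℤ) ≤ p := by exact_mod_cast hp.two_le
      have : (W.ramificationIndexAlong φ : ℤ) * ((p : ℤ) * p - 1) = 0 := by linarith
      rcases mul_eq_zero.mp this with e | e
      · omega
      · nlinarith

theorem restrict_eq_cZero_iff (hp : p.Prime) :
    W.restrictAlong φ hφ = cZero ι p ↔ W.ord (φ (jB p Qbar)) < 0 ∧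
      W.ord (φ (jB p Qbar)) = (p : ℤ) * W.ord (φ (jd p p dvd_rfl)) := by
  have hr : (0 : ℤ) < W.ramificationIndexAlong φ := by
    exact_mod_cast ramificationIndexAlong_pos' φ hφ W
  rw [Place.ord_restrictAlong φ hφ W, Place.ord_restrictAlong φ hφ W]
  have hp2 : (2 : ℤ) ≤ p := by exact_mod_cast hp.two_le
  refine ⟨fun h => ?_, fun ⟨h1, h2⟩ => ?_⟩
  · rw [h, ord_cZero_j ι p hp, ord_cZero_jd ι p hp]
    exact ⟨by nlinarith, by ring⟩
  · rcases cusp_cases ι p hp (W.restrictAlong φ hφ) with ⟨h, -⟩ | h | h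
    · nlinarith
    · rw [h, ord_cInf_j, ord_cInf_jd] at h2
      have : (W.ramificationIndexAlong φ : ℤ) * ((p : ℤ) * p - 1) = 0 := by linarith
      rcases mul_eq_zero.mp this with e | e
      · omega
      · nlinarith
    · exact h

end Cusp

end FermatLib.Mazur.Classes
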