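import Fermat.Agent.Mazur.Classes.CuspFibres

/-!
# The Hecke correspondences on the cusps of `X₀(p)`
-/

set_option autoImplicit false
set_option linter.style.haveILetI false

noncomputable section

open ModularCurve AlgebraicCurve FermatLib.Modular FermatLib.Modular.Corr

attribute [local instance] FermatLib.Modular.Corr.neZero_mul'

namespace FermatLib.Mazur.Classes

/-- The algebra structure of a field of Laurent series, to shorten instance searches. -/
@[reducible] private def laurentFieldAlgebra {k : Type*} [Field k]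
    (E : IntermediateField k (LaurentSeries k)) : Algebra k E :=
  inferInstance

attribute [local instance 100000] laurentFieldAlgebra

local notation "Qbar" => AlgebraicClosure ℚ

theorem int_no_crossing {a b c d P L : ℤ} (hP : 2 ≤ P) (hL : 2 ≤ L) (hPL : P ≠ L) (ha : a < 0)
    (hb : b = P * a) (hc : c = P * d) (h1 : c = L * a ∨ a = L * c)
    (h2 : d = L * b ∨ b = L * d) : False := by
  have ha0 : a ≠ 0 := ha.ne
  have key : ∀ x : ℤ, a * x = 0 → x = 0 := fun x hx => (mul_eq_zero.mp hx).resolve_left ha0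
  have hPP : 4 ≤ P * P := by nlinarith
  rcases h1 with h1 | h1 <;> rcases h2 with h2 | h2
  · have := key (L * (1 - P * P)) (by linear_combination -h1 + hc + P * h2 + P * L * hb)
    rcases mul_eq_zero.mp this with e | e <;> omega
  · have := key ((L - P) * (L + P)) (by linear_combination (-L) * h1 + L * hc - P * h2 + P * hb)
    rcases mul_eq_zero.mp this with e | e <;> omega
  · have := key (1 - L * L * (P * P)) (by
      linear_combination h1 + L * hc + L * P * h2 + L * L * P * hb)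
    have hLL : 4 ≤ L * L := by nlinarith
    have : 4 ≤ L * L * (P * P) := by nlinarith
    omega
  · have := key (1 - P * P) (by linear_combination h1 + L * hc - P * h2 + P * hb)
    omega

/-- The sum over a fibre, split along a predicate. -/
theorem sum_split {α : Type*} (s : Finset α) (P : α → Prop) [DecidablePred P] (f g h : α → ℤ)
    (hg : ∀ x ∈ s, P x → f x = g x) (hh : ∀ x ∈ s, ¬ P x → f x = h x) :
    ∑ x ∈ s, f x = ∑ x ∈ s with P x, g x + ∑ x ∈ s with ¬ P x, h x := by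
  rw [← Finset.sum_filter_add_sum_filter_not s P f]
  congr 1 <;> refine Finset.sum_congr rfl fun x hx => ?_ <;> rw [Finset.mem_filter] at hx
  · exact hg x hx.1 hx.2
  · exact hh x hx.1 hx.2

theorem sum_le_of_mem {α : Type*} {s : Finset α} {f : α → ℤ} (h : ∀ x ∈ s, f x ≤ 0) {x : α}
    (hx : x ∈ s) : ∑ y ∈ s, f y ≤ f x := by
  classical
  rw [← Finset.add_sum_erase s f hx]
  have := Finset.sum_nonpos (f := f) fun y (hy : y ∈ s.erase x) => h y (Finset.mem_of_mem_erase hy)
  linarith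

theorem exists_inf_place (M : ℕ) [NeZero M] : ∃ W : Place Qbar (fieldBar Qbar M),
    ∀ (d : ℕ) [NeZero d] (h : d ∣ M), W.ord (jd M d h) = -(d : ℤ) := by
  obtain ⟨W, hW⟩ := exists_qPlace (fieldBar Qbar M) (z := jB M Qbar) (order_jqModC Qbar)
  refine ⟨W, fun d _ h => ?_⟩
  rw [hW, coe_jd, jBar, ← jqModC_eq_coeffEmb Qbar, order_qExpand _ d (jqModC_ne_zero' Qbar),
    order_jqModC]
  ring

variable (ι : Qbar →+* ℂ) (p : ℕ) [NeZero p]

/-- `(∞) - (0)`. -/
def cuspDivisor : Divisor Qbar (fieldBar Qbar p) :=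
  Finsupp.single (cInf ι p) 1 - Finsupp.single (cZero ι p) 1

theorem cuspDivisor_mem_degZero :
    cuspDivisor ι p ∈ Divisor.degZero (K := Qbar) (F := fieldBar Qbar p) := by
  rw [Divisor.mem_degZero, cuspDivisor, map_sub, Divisor.degree_single, Divisor.degree_single,
    (curveFacts Qbar).deg_eq_one, (curveFacts Qbar).deg_eq_one]
  ring

/-- The class of `(∞) - (0)`. -/
def cuspClass : JZero p := Pic0.mk ⟨cuspDivisor ι p, cuspDivisor_mem_degZero ι p⟩

section AwayFromP

variable {p} (l : ℕ) [NeZero l]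

theorem finrankAlong_alpha (hl : l.Prime) (hlp : ¬ l ∣ p) :
    finrankAlong Qbar (barIncl Qbar (dvd_mul_right p l)) = l + 1 := by
  have h := finrankAlong_barIncl_mul (levelFacts Qbar) (dvd_mul_right p l)
  rw [Corr.dedekindPsi_mul_prime p hl, if_neg hlp] at h
  exact Nat.eq_of_mul_eq_mul_right (dedekindPsi_pos' p) h

theorem correspondence_cusps (hp : p.Prime) (hl : l.Prime) (hlp : l ≠ p)
    [HasPrincipalDivisors Qbar (fieldBar Qbar (p * l))]
    (hβ : (barBeta Qbar l (dvd_refl (p * l))).toRingHom.IsIntegral)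
    (hα : (barIncl Qbar (dvd_mul_right p l)).toRingHom.IsIntegral) :
    Divisor.correspondence (barBeta Qbar l (dvd_refl (p * l))) (barIncl Qbar (dvd_mul_right p l))
      hβ hα (cuspDivisor ι p) = ((l : ℤ) + 1) • cuspDivisor ι p := by
  classical
  set α := barIncl Qbar (dvd_mul_right p l)
  set β := barBeta Qbar l (dvd_refl (p * l))
  let a := fun W : Place Qbar (fieldBar Qbar (p * l)) => W.ord (jd (p * l) 1 (one_dvd _))
  let b := fun W : Place Qbar (fieldBar Qbar (p * l)) => W.ord (jd (p * l) p (dvd_mul_right p l))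
  let c := fun W : Place Qbar (fieldBar Qbar (p * l)) => W.ord (jd (p * l) l (dvd_mul_left l p))
  let d := fun W : Place Qbar (fieldBar Qbar (p * l)) => W.ord (jd (p * l) (p * l) dvd_rfl)
  have hP : (2 : ℤ) ≤ p := by exact_mod_cast hp.two_le
  have hL : (2 : ℤ) ≤ l := by exact_mod_cast hl.two_le
  have hPL : (p : ℤ) ≠ l := by exact_mod_cast Ne.symm hlp
  have hndvd : ¬ l ∣ p := fun h => hlp ((Nat.prime_dvd_prime_iff_eq hl hp).mp h)
  have r1 := fun W => cuspRel hp (d := 1) (e := p) (mul_one p) (one_dvd _) (dvd_mul_right p l) W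
  have r2 := fun W => cuspRel hp (d := l) (e := p * l) rfl (dvd_mul_left l p) dvd_rfl W
  have r3 := fun W => cuspRel hl (d := 1) (e := l) (mul_one l) (one_dvd _) (dvd_mul_left l p) W
  have r4 := fun W => cuspRel hl (d := p) (e := p * l) (mul_comm l p) (dvd_mul_right p l) dvd_rfl W
  have hαj : ∀ W : Place Qbar (fieldBar Qbar (p * l)), W.ord (α (jB p Qbar)) = a W := fun W => by
    rw [← jd_one, barIncl_jd]
  have hαjp : ∀ W : Place Qbar (fieldBar Qbar (p * l)), W.ord (α (jd p p dvd_rfl)) = b W :=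
    fun W => by rw [barIncl_jd]
  have hβj : ∀ W : Place Qbar (fieldBar Qbar (p * l)), W.ord (β (jB p Qbar)) = c W := fun W => by
    rw [← jd_one, barBeta_jd l dvd_rfl 1 (one_dvd p) (mul_one l) (dvd_mul_left l p)]
  have hβjp : ∀ W : Place Qbar (fieldBar Qbar (p * l)), W.ord (β (jd p p dvd_rfl)) = d W :=
    fun W => by rw [barBeta_jd l dvd_rfl p dvd_rfl (mul_comm l p) dvd_rfl]
  -- no place lies over different cusps along the two maps
  have key : ∀ W : Place Qbar (fieldBar Qbar (p * l)),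
      (W.restrictAlong β hβ = cInf ι p ↔ W.restrictAlong α hα = cInf ι p) ∧
      (W.restrictAlong β hβ = cZero ι p ↔ W.restrictAlong α hα = cZero ι p) := by
    intro W
    rw [restrict_eq_cInf_iff ι p β hβ W hp, restrict_eq_cInf_iff ι p α hα W hp,
      restrict_eq_cZero_iff ι p β hβ W hp, restrict_eq_cZero_iff ι p α hα W hp, hαj, hαjp, hβj,
      hβjp]
    have h1 : (0 ≤ a W ∧ 0 ≤ b W) ∨ (a W < 0 ∧ b W = p * a W) ∨ (b W < 0 ∧ a W = p * b W) := r1 W
    have h2 : (0 ≤ c W ∧ 0 ≤ d W) ∨ (c W < 0 ∧ d W = p * c W) ∨ (d W < 0 ∧ c W = p * d W) := r2 W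
    have h3 : (0 ≤ a W ∧ 0 ≤ c W) ∨ (a W < 0 ∧ c W = l * a W) ∨ (c W < 0 ∧ a W = l * c W) := r3 W
    have h4 : (0 ≤ b W ∧ 0 ≤ d W) ∨ (b W < 0 ∧ d W = l * b W) ∨ (d W < 0 ∧ b W = l * d W) := r4 W
    have h13 : a W < 0 → (c W < 0 ∧ (c W = l * a W ∨ a W = l * c W)) := fun h => by
      rcases h3 with ⟨h', -⟩ | ⟨-, e⟩ | ⟨h', e⟩
      · omega
      · exact ⟨by nlinarith, Or.inl e⟩
      · exact ⟨h', Or.inr e⟩
    have h31 : c W < 0 → a W < 0 := fun h => by
      rcases h3 with ⟨-, h'⟩ | ⟨h', -⟩ | ⟨-, e⟩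
      · omega
      · exact h'
      · nlinarith
    have h24 : b W < 0 → (d W < 0 ∧ (d W = l * b W ∨ b W = l * d W)) := fun h => by
      rcases h4 with ⟨h', -⟩ | ⟨-, e⟩ | ⟨h', e⟩
      · omega
      · exact ⟨by nlinarith, Or.inl e⟩
      · exact ⟨h', Or.inr e⟩
    have hI : a W < 0 → b W = p * a W → d W = p * c W := fun ha hb => by
      obtain ⟨hc, e3⟩ := h13 ha
      rcases h2 with ⟨h', -⟩ | ⟨-, e⟩ | ⟨-, e⟩
      · omega
      · exact e
      · exact (int_no_crossing hP hL hPL ha hb e e3 (h24 (by nlinarith)).2).elim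
    have hO : a W < 0 → a W = p * b W → c W = p * d W := fun ha hb => by
      obtain ⟨hc, e3⟩ := h13 ha
      rcases h2 with ⟨h', -⟩ | ⟨-, e⟩ | ⟨-, e⟩
      · omega
      · exact (int_no_crossing hP hL hPL (show b W < 0 by nlinarith) hb e
          (h24 (by nlinarith)).2 e3).elim
      · exact e
    have hsplit : a W < 0 → b W = p * a W ∨ a W = p * b W := fun h => by
      rcases h1 with ⟨h', -⟩ | ⟨-, e⟩ | ⟨-, e⟩
      · omega
      · exact Or.inl e
      · exact Or.inr e
    refine ⟨⟨fun ⟨hc, e⟩ => ?_, fun ⟨ha, e⟩ => ⟨(h13 ha).1, hI ha e⟩⟩,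
      ⟨fun ⟨hc, e⟩ => ?_, fun ⟨ha, e⟩ => ⟨(h13 ha).1, hO ha e⟩⟩⟩
    · refine ⟨h31 hc, (hsplit (h31 hc)).resolve_right fun e' => ?_⟩
      have := hO (h31 hc) e'
      nlinarith [mul_le_mul_of_nonneg_left hP (show (0 : ℤ) ≤ p by omega)]
    · refine ⟨h31 hc, (hsplit (h31 hc)).resolve_left fun e' => ?_⟩
      have := hI (h31 hc) e'
      nlinarith [mul_le_mul_of_nonneg_left hP (show (0 : ℤ) ≤ p by omega)]
  have hfinβ := finiteAlong_barBeta (levelFacts Qbar) l (dvd_refl (p * l))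
  rw [cuspDivisor, map_sub,
    correspondence_single_of_constant β hβ hfinβ α hα _ _ fun W h => (key W).1.mp h,
    correspondence_single_of_constant β hβ hfinβ α hα _ _ fun W h => (key W).2.mp h]
  -- the degree of `β`
  suffices hn : (finrankAlong Qbar β : ℤ) = l + 1 by
    rw [hn, smul_sub, Finsupp.smul_single, Finsupp.smul_single, smul_eq_mul, mul_one]
  have hfinα := finiteAlong_barIncl (levelFacts Qbar) (dvd_mul_right p l)
  set F := Place.fiberAlong α hα (cInf ι p) with hF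
  have hmemF : ∀ W, W ∈ F ↔ a W < 0 ∧ b W = p * a W := fun W => by
    rw [hF, Place.mem_fiberAlong, restrict_eq_cInf_iff ι p α hα W hp, hαj, hαjp]
  have hFβ : Place.fiberAlong β hβ (cInf ι p) = F := Finset.ext fun W => by
    rw [hF, Place.mem_fiberAlong, Place.mem_fiberAlong]
    exact (key W).1
  have e1 := sum_ord_fibre α hα hfinα (cInf ι p) (jB p Qbar)
  have e2 := sum_ord_fibre β hβ hfinβ (cInf ι p) (jB p Qbar)
  have hdegα : (finrankAlong Qbar α : ℤ) = l + 1 := by
    exact_mod_cast finrankAlong_alpha l hl hndvd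
  simp only [hαj, ord_cInf_j, ← hF, hdegα] at e1
  simp only [hβj, hFβ, ord_cInf_j] at e2
  have hsplit3 : ∀ W, a W < 0 → c W = l * a W ∨ a W = l * c W := fun W h => by
    rcases (r3 W) with ⟨h', -⟩ | ⟨-, e⟩ | ⟨-, e⟩
    · exact absurd h (not_lt.mpr h')
    · exact Or.inl e
    · exact Or.inr e
  rw [sum_split F (fun W => c W = l * a W) a a (fun W => l * c W) (fun _ _ _ => rfl)
      (fun W hW h => ((hsplit3 W ((hmemF W).mp hW).1).resolve_left h)), ← Finset.mul_sum] at e1
  rw [sum_split F (fun W => c W = l * a W) c (fun W => l * a W) c (fun _ _ h => h)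
      (fun _ _ _ => rfl), ← Finset.mul_sum] at e2
  -- the level `l` map
  have hfinγ := finiteAlong_barIncl (levelFacts Qbar) (dvd_mul_left l p)
  have hγ := Corr.isIntegral_barIncl (levelFacts Qbar) (dvd_mul_left l p)
  set γ := barIncl Qbar (dvd_mul_left l p)
  set G := Place.fiberAlong γ hγ (cInf ι l) with hG
  have hγj : ∀ W : Place Qbar (fieldBar Qbar (p * l)), W.ord (γ (jB l Qbar)) = a W := fun W => by
    rw [← jd_one, barIncl_jd]
  have hγjl : ∀ W : Place Qbar (fieldBar Qbar (p * l)), W.ord (γ (jd l l dvd_rfl)) = c W :=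
    fun W => by rw [barIncl_jd]
  have hmemG : ∀ W, W ∈ G ↔ a W < 0 ∧ c W = l * a W := fun W => by
    rw [hG, Place.mem_fiberAlong, restrict_eq_cInf_iff ι l γ hγ W hl, hγj, hγjl]
  have hdeg : (finrankAlong Qbar γ : ℤ) = p + 1 := by
    have h := finrankAlong_barIncl_mul (levelFacts Qbar) (dvd_mul_left l p)
    rw [show dedekindPsi (p * l) = dedekindPsi (l * p) by rw [mul_comm],
      Corr.dedekindPsi_mul_prime l hp,
      if_neg fun h => hlp ((Nat.prime_dvd_prime_iff_eq hp hl).mp h).symm] at h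
    exact_mod_cast Nat.eq_of_mul_eq_mul_right (dedekindPsi_pos' l) h
  have e3 := sum_ord_fibre γ hγ hfinγ (cInf ι l) (jB l Qbar)
  simp only [hγj, ord_cInf_j, ← hG, hdeg] at e3
  have hsplit1 : ∀ W, a W < 0 → b W = p * a W ∨ a W = p * b W := fun W h => by
    rcases (r1 W) with ⟨h', -⟩ | ⟨-, e⟩ | ⟨-, e⟩
    · exact absurd h (not_lt.mpr h')
    · exact Or.inl e
    · exact Or.inr e
  rw [sum_split G (fun W => b W = p * a W) a a (fun W => p * b W) (fun _ _ _ => rfl)
      (fun W hW h => ((hsplit1 W ((hmemG W).mp hW).1).resolve_left h)), ← Finset.mul_sum] at e3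
  have hsame : (G.filter fun W => b W = p * a W) = F.filter fun W => c W = l * a W :=
    Finset.ext fun W => by
      rw [Finset.mem_filter, Finset.mem_filter, hmemF, hmemG]
      tauto
  rw [hsame] at e3
  -- the place at infinity
  obtain ⟨W₀, hW₀⟩ := exists_inf_place (p * l)
  have haW : a W₀ = -1 := by simpa using hW₀ 1 (one_dvd _)
  have hW₀mem : W₀ ∈ F.filter fun W => c W = l * a W := by
    have hbW : b W₀ = -(p : ℤ) := hW₀ p _
    have hcW : c W₀ = -(l : ℤ) := hW₀ l _
    rw [Finset.mem_filter, hmemF, haW, hbW, hcW]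
    exact ⟨⟨by norm_num, by ring⟩, by ring⟩
  set S := ∑ W ∈ F with c W = l * a W, a W
  set C2 := ∑ W ∈ F with ¬ c W = l * a W, c W
  set B3 := ∑ W ∈ G with ¬ b W = p * a W, b W
  have hS : S ≤ -1 := by
    refine le_trans (sum_le_of_mem (fun W hW =>
      ((hmemF W).mp (Finset.mem_filter.mp hW).1).1.le) hW₀mem) ?_
    rw [haW]
  have hC2 : C2 ≤ 0 := Finset.sum_nonpos fun W hW => by
    obtain ⟨h, h'⟩ := Finset.mem_filter.mp hW
    have e := (hsplit3 W ((hmemF W).mp h).1).resolve_left h'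
    nlinarith [((hmemF W).mp h).1]
  have hB3 : B3 ≤ 0 := Finset.sum_nonpos fun W hW => by
    obtain ⟨h, h'⟩ := Finset.mem_filter.mp hW
    have e := (hsplit1 W ((hmemG W).mp h).1).resolve_left h'
    nlinarith [((hmemG W).mp h).1]
  have hC2' : -1 ≤ C2 := by nlinarith
  have hB3' : -1 ≤ B3 := by nlinarith
  have : C2 = 0 ∨ C2 = -1 := by omega
  rcases this with h0 | h0
  · exfalso
    rw [h0] at e1
    have : B3 = 0 ∨ B3 = -1 := by omega
    rcases this with h | h <;> rw [h] at e3 <;> omega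
  · rw [h0] at e1 e2
    have : S = -1 := by linarith
    rw [this] at e2
    linarith

end AwayFromP

section AtP

variable {p}

theorem correspondence_cusps_self (hp : p.Prime)
    [HasPrincipalDivisors Qbar (fieldBar Qbar (p * p))]
    (hβ : (barBeta Qbar p (dvd_refl (p * p))).toRingHom.IsIntegral)
    (hα : (barIncl Qbar (dvd_mul_right p p)).toRingHom.IsIntegral) :
    Divisor.correspondence (barBeta Qbar p (dvd_refl (p * p))) (barIncl Qbar (dvd_mul_right p p))
      hβ hα (cuspDivisor ι p) = cuspDivisor ι p := by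
  classical
  set α := barIncl Qbar (dvd_mul_right p p)
  set β := barBeta Qbar p (dvd_refl (p * p))
  let a := fun W : Place Qbar (fieldBar Qbar (p * p)) => W.ord (jd (p * p) 1 (one_dvd _))
  let b := fun W : Place Qbar (fieldBar Qbar (p * p)) => W.ord (jd (p * p) p (dvd_mul_right p p))
  let d := fun W : Place Qbar (fieldBar Qbar (p * p)) => W.ord (jd (p * p) (p * p) dvd_rfl)
  have hP : (2 : ℤ) ≤ p := by exact_mod_cast hp.two_le
  have r1 := fun W => cuspRel hp (d := 1) (e := p) (mul_one p) (one_dvd _) (dvd_mul_right p p) W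
  have r2 := fun W => cuspRel hp (d := p) (e := p * p) rfl (dvd_mul_right p p) dvd_rfl W
  have hαj : ∀ W : Place Qbar (fieldBar Qbar (p * p)), W.ord (α (jB p Qbar)) = a W := fun W => by
    rw [← jd_one, barIncl_jd]
  have hαjp : ∀ W : Place Qbar (fieldBar Qbar (p * p)), W.ord (α (jd p p dvd_rfl)) = b W :=
    fun W => by rw [barIncl_jd]
  have hβj : ∀ W : Place Qbar (fieldBar Qbar (p * p)), W.ord (β (jB p Qbar)) = b W := fun W => by
    rw [← jd_one, barBeta_jd p dvd_rfl 1 (one_dvd p) (mul_one p) (dvd_mul_right p p)]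
  have hβjp : ∀ W : Place Qbar (fieldBar Qbar (p * p)), W.ord (β (jd p p dvd_rfl)) = d W :=
    fun W => by rw [barBeta_jd p dvd_rfl p dvd_rfl rfl dvd_rfl]
  have hab : ∀ W, a W < 0 → b W < 0 ∧ (b W = p * a W ∨ a W = p * b W) := fun W h => by
    rcases r1 W with ⟨h', -⟩ | ⟨-, e⟩ | ⟨h', e⟩
    · exact absurd h (not_lt.mpr h')
    · exact ⟨by show W.ord _ < 0; rw [e]; nlinarith, Or.inl e⟩
    · exact ⟨h', Or.inr e⟩
  have hba : ∀ W, b W < 0 → a W < 0 := fun W h => by
    rcases r1 W with ⟨-, h'⟩ | ⟨h', -⟩ | ⟨h', e⟩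
    · exact absurd h (not_lt.mpr h')
    · exact h'
    · show W.ord _ < 0
      rw [e]; nlinarith
  have hbd : ∀ W, b W < 0 → d W < 0 ∧ (d W = p * b W ∨ b W = p * d W) := fun W h => by
    rcases r2 W with ⟨h', -⟩ | ⟨-, e⟩ | ⟨h', e⟩
    · exact absurd h (not_lt.mpr h')
    · exact ⟨by show W.ord _ < 0; rw [e]; nlinarith, Or.inl e⟩
    · exact ⟨h', Or.inr e⟩
  set Fi := Place.fiberAlong α hα (cInf ι p) with hFi
  set Fz := Place.fiberAlong α hα (cZero ι p) with hFz
  set Gi := Place.fiberAlong β hβ (cInf ι p) with hGi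
  set Gz := Place.fiberAlong β hβ (cZero ι p) with hGz
  have mFi : ∀ W, W ∈ Fi ↔ a W < 0 ∧ b W = p * a W := fun W => by
    rw [hFi, Place.mem_fiberAlong, restrict_eq_cInf_iff ι p α hα W hp, hαj, hαjp]
  have mFz : ∀ W, W ∈ Fz ↔ a W < 0 ∧ a W = p * b W := fun W => by
    rw [hFz, Place.mem_fiberAlong, restrict_eq_cZero_iff ι p α hα W hp, hαj, hαjp]
  have mGi : ∀ W, W ∈ Gi ↔ b W < 0 ∧ d W = p * b W := fun W => by
    rw [hGi, Place.mem_fiberAlong, restrict_eq_cInf_iff ι p β hβ W hp, hβj, hβjp]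
  have mGz : ∀ W, W ∈ Gz ↔ b W < 0 ∧ b W = p * d W := fun W => by
    rw [hGz, Place.mem_fiberAlong, restrict_eq_cZero_iff ι p β hβ W hp, hβj, hβjp]
  have hdeg : (finrankAlong Qbar α : ℤ) = p := by
    have h := finrankAlong_barIncl_mul (levelFacts Qbar) (dvd_mul_right p p)
    rw [Corr.dedekindPsi_mul_prime p hp, if_pos dvd_rfl] at h
    exact_mod_cast Nat.eq_of_mul_eq_mul_right (dedekindPsi_pos' p) h
  have hfinα := finiteAlong_barIncl (levelFacts Qbar) (dvd_mul_right p p)
  have hfinβ := finiteAlong_barBeta (levelFacts Qbar) p (dvd_refl (p * p))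
  have e1 := sum_ord_fibre α hα hfinα (cInf ι p) (jB p Qbar)
  have e2 := sum_ord_fibre α hα hfinα (cZero ι p) (jd p p dvd_rfl)
  have e3 := sum_ord_fibre β hβ hfinβ (cInf ι p) (jB p Qbar)
  have e4 := sum_ord_fibre β hβ hfinβ (cZero ι p) (jd p p dvd_rfl)
  simp only [hαj, ord_cInf_j, ← hFi, hdeg] at e1
  simp only [hαjp, ord_cZero_jd ι p hp, ← hFz, hdeg] at e2
  simp only [hβj, ord_cInf_j, ← hGi] at e3
  simp only [hβjp, ord_cZero_jd ι p hp, ← hGz] at e4
  -- split each fibre according to the other map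
  rw [sum_split Fi (fun W => d W = p * b W) a a d (fun _ _ _ => rfl) (fun W hW h => by
    obtain ⟨ha, e⟩ := (mFi W).mp hW
    have e' := ((hbd W (hab W ha).1).2).resolve_left h
    rw [e] at e'
    exact mul_left_cancel₀ (by omega) e')] at e1
  rw [sum_split Fz (fun W => d W = p * b W) b b (fun W => p * d W) (fun _ _ _ => rfl)
    (fun W hW h => ((hbd W (hab W ((mFz W).mp hW).1).1).2).resolve_left h), ← Finset.mul_sum] at e2
  rw [sum_split Gi (fun W => b W = p * a W) b (fun W => p * a W) b (fun _ _ h => h)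
    (fun _ _ _ => rfl), ← Finset.mul_sum] at e3
  rw [sum_split Gz (fun W => b W = p * a W) d a d (fun W hW h => by
    have e := ((mGz W).mp hW).2
    rw [h] at e
    exact (mul_left_cancel₀ (by omega) e).symm) (fun _ _ _ => rfl)] at e4
  have s1 : (Gi.filter fun W => b W = p * a W) = Fi.filter fun W => d W = p * b W :=
    Finset.ext fun W => by
      rw [Finset.mem_filter, Finset.mem_filter, mFi, mGi]
      exact ⟨fun ⟨⟨h, h'⟩, h''⟩ => ⟨⟨hba W h, h''⟩, h'⟩,
        fun ⟨⟨h, h'⟩, h''⟩ => ⟨⟨(hab W h).1, h''⟩, h'⟩⟩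
  have s2 : (Gz.filter fun W => b W = p * a W) = Fi.filter fun W => ¬ d W = p * b W :=
    Finset.ext fun W => by
      rw [Finset.mem_filter, Finset.mem_filter, mFi, mGz]
      refine ⟨fun ⟨⟨h, h'⟩, h''⟩ => ⟨⟨hba W h, h''⟩, fun e => ?_⟩, fun ⟨⟨h, h'⟩, h''⟩ =>
        ⟨⟨(hab W h).1, ((hbd W (hab W h).1).2).resolve_left h''⟩, h'⟩⟩
      have := (hbd W h).1
      nlinarith [mul_le_mul_of_nonneg_left hP (show (0 : ℤ) ≤ p by omega)]
  have s3 : (Gi.filter fun W => ¬ b W = p * a W) = Fz.filter fun W => d W = p * b W :=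
    Finset.ext fun W => by
      rw [Finset.mem_filter, Finset.mem_filter, mFz, mGi]
      refine ⟨fun ⟨⟨h, h'⟩, h''⟩ => ⟨⟨hba W h, ((hab W (hba W h)).2).resolve_left h''⟩, h'⟩,
        fun ⟨⟨h, h'⟩, h''⟩ => ⟨⟨(hab W h).1, h''⟩, fun e => ?_⟩⟩
      nlinarith [mul_le_mul_of_nonneg_left hP (show (0 : ℤ) ≤ p by omega)]
  have s4 : (Gz.filter fun W => ¬ b W = p * a W) = Fz.filter fun W => ¬ d W = p * b W :=
    Finset.ext fun W => by
      rw [Finset.mem_filter, Finset.mem_filter, mFz, mGz]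
      refine ⟨fun ⟨⟨h, h'⟩, h''⟩ => ⟨⟨hba W h, ((hab W (hba W h)).2).resolve_left h''⟩,
        fun e => ?_⟩, fun ⟨⟨h, h'⟩, h''⟩ => ⟨⟨(hab W h).1,
          ((hbd W (hab W h).1).2).resolve_left h''⟩, fun e => ?_⟩⟩
      · have := (hbd W h).1
        nlinarith [mul_le_mul_of_nonneg_left hP (show (0 : ℤ) ≤ p by omega)]
      · nlinarith [mul_le_mul_of_nonneg_left hP (show (0 : ℤ) ≤ p by omega)]
  rw [s1, s3] at e3
  rw [s2, s4] at e4
  set A1 := ∑ W ∈ Fi with d W = p * b W, a W
  set A2 := ∑ W ∈ Fi with ¬ d W = p * b W, a W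
  set B3 := ∑ W ∈ Fz with d W = p * b W, b W
  set D4 := ∑ W ∈ Fz with ¬ d W = p * b W, d W
  set D2 := ∑ W ∈ Fi with ¬ d W = p * b W, d W
  have hAD : A2 = D2 := Finset.sum_congr rfl fun W hW => by
    obtain ⟨h, h'⟩ := Finset.mem_filter.mp hW
    obtain ⟨ha, e⟩ := (mFi W).mp h
    have e' := ((hbd W (hab W ha).1).2).resolve_left h'
    rw [e] at e'
    exact mul_left_cancel₀ (by omega) e'
  obtain ⟨W₀, hW₀⟩ := exists_inf_place (p * p)
  have haW : a W₀ = -1 := by simpa using hW₀ 1 (one_dvd _)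
  have hW₀mem : W₀ ∈ Fi.filter fun W => d W = p * b W := by
    have hbW : b W₀ = -(p : ℤ) := hW₀ p _
    have hdW : d W₀ = -((p * p : ℕ) : ℤ) := hW₀ (p * p) _
    rw [Finset.mem_filter, mFi, haW, hbW, hdW]
    push_cast
    exact ⟨⟨by norm_num, by ring⟩, by ring⟩
  have hA1 : A1 ≤ -1 := by
    refine le_trans (sum_le_of_mem (fun W hW =>
      ((mFi W).mp (Finset.mem_filter.mp hW).1).1.le) hW₀mem) ?_
    rw [haW]
  have hA2 : A2 ≤ 0 := Finset.sum_nonpos fun W hW =>
    ((mFi W).mp (Finset.mem_filter.mp hW).1).1.le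
  have hB3 : B3 ≤ 0 := Finset.sum_nonpos fun W hW =>
    (hab W ((mFz W).mp (Finset.mem_filter.mp hW).1).1).1.le
  have hD4 : D4 ≤ 0 := Finset.sum_nonpos fun W hW =>
    (hbd W (hab W ((mFz W).mp (Finset.mem_filter.mp hW).1).1).1).1.le
  have hD4' : D4 = -1 := by
    have hlo : -1 ≤ D4 := by nlinarith
    rcases (show D4 = 0 ∨ D4 = -1 by omega) with h | h
    · rw [h] at e2 e4; exfalso; nlinarith
    · exact h
  rw [hD4'] at e2 e4
  have hA1' : A1 = -1 := by
    have : -1 ≤ A1 := by nlinarith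
    omega
  rw [hA1'] at e1 e3
  have hn : (finrankAlong Qbar β : ℤ) = p := by linarith
  -- the two images
  have hU1 : Divisor.correspondence β α hβ hα (Finsupp.single (cInf ι p) 1)
      = Finsupp.single (cInf ι p) (p : ℤ) := by
    rw [← hn]
    refine correspondence_single_of_constant β hβ hfinβ α hα _ _ fun W hW => ?_
    obtain ⟨hb', hd'⟩ := (mGi W).mp (Place.mem_fiberAlong.mpr hW)
    rw [restrict_eq_cInf_iff ι p α hα W hp, hαj, hαjp]
    refine ⟨hba W hb', ((hab W (hba W hb')).2).resolve_right fun e => ?_⟩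
    have hW3 : W ∈ Fz.filter fun W => d W = p * b W :=
      Finset.mem_filter.mpr ⟨(mFz W).mpr ⟨hba W hb', e⟩, hd'⟩
    have h3 : B3 ≤ b W := sum_le_of_mem (fun W hW =>
      (hab W ((mFz W).mp (Finset.mem_filter.mp hW).1).1).1.le) hW3
    linarith
  have hU2 : Divisor.correspondence β α hβ hα (Finsupp.single (cZero ι p) 1)
      = Finsupp.single (cInf ι p) ((p : ℤ) - 1) + Finsupp.single (cZero ι p) 1 := by
    rw [correspondence_single, ← hGz,
      ← Finset.sum_filter_add_sum_filter_not Gz (fun W => b W = p * a W), s2, s4]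
    have hram : ∀ W ∈ Gz, (W.ramificationIndexAlong β : ℤ) = -d W := fun W hW => by
      have h := Place.ord_restrictAlong β hβ W (jd p p dvd_rfl)
      rw [hβjp, Place.mem_fiberAlong.mp hW, ord_cZero_jd ι p hp] at h
      linarith
    have h2 : ∀ W ∈ Fi.filter (fun W => ¬ d W = p * b W),
        Finsupp.single (W.restrictAlong α hα) (W.ramificationIndexAlong β : ℤ)
          = Finsupp.single (cInf ι p) (-d W) := fun W hW => by
      have hW' := hW
      rw [← s2] at hW'
      rw [Place.mem_fiberAlong.mp (Finset.mem_filter.mp hW).1,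
        hram W (Finset.mem_filter.mp hW').1]
    have h4 : ∀ W ∈ Fz.filter (fun W => ¬ d W = p * b W),
        Finsupp.single (W.restrictAlong α hα) (W.ramificationIndexAlong β : ℤ)
          = Finsupp.single (cZero ι p) (-d W) := fun W hW => by
      have hW' := hW
      rw [← s4] at hW'
      rw [Place.mem_fiberAlong.mp (Finset.mem_filter.mp hW).1,
        hram W (Finset.mem_filter.mp hW').1]
    rw [Finset.sum_congr rfl h2, Finset.sum_congr rfl h4, ← Finsupp.single_finsetSum,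
      ← Finsupp.single_finsetSum, Finset.sum_neg_distrib, Finset.sum_neg_distrib]
    congr 2
    · show -D2 = _
      linarith
    · show -D4 = _
      linarith
  rw [cuspDivisor, map_sub, hU1, hU2, Finsupp.single_sub]
  abel

end AtP

variable {p}

theorem hecke_cuspClass (hp : p.Prime) (ℓ : Nat.Primes) :
    (letI := heckeModuleBar p; heckeGen ℓ • cuspClass ι p)
      = eisensteinSystem p ℓ • cuspClass ι p := by
  haveI : NeZero (ℓ : ℕ) := ⟨ℓ.2.ne_zero⟩
  haveI := (curveFacts Qbar).hasPrincipalDivisors (p * (ℓ : ℕ))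
  rw [heckeModuleBar_heckeGen_smul (heckeOperatorsCommuteBar p), heckeOperatorBar_apply]
  obtain ⟨E, hE, hmk⟩ := heckeOperatorAlong_mk (levelFacts Qbar) (curveFacts Qbar) p (ℓ : ℕ)
    ⟨cuspDivisor ι p, cuspDivisor_mem_degZero ι p⟩
  show heckeOperatorAlong Qbar p (ℓ : ℕ) (Pic0.mk _) = eisensteinSystem p ℓ • Pic0.mk _
  rw [hmk, Pic0.mk, Pic0.mk, ← QuotientAddGroup.mk_zsmul]
  congr 1
  refine Subtype.ext ?_
  rw [hE, AddSubgroupClass.coe_zsmul]
  by_cases h : (ℓ : ℕ) = p
  · rw [eisensteinSystem_of_dvd (dvd_of_eq h), one_zsmul]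
    have key : ∀ (l : ℕ) [NeZero l] [HasPrincipalDivisors Qbar (fieldBar Qbar (p * l))], l = p →
        ∀ (hβ : (barBeta Qbar l (dvd_refl (p * l))).toRingHom.IsIntegral)
          (hα : (barIncl Qbar (dvd_mul_right p l)).toRingHom.IsIntegral),
          Divisor.correspondence (barBeta Qbar l (dvd_refl (p * l)))
            (barIncl Qbar (dvd_mul_right p l)) hβ hα (cuspDivisor ι p) = cuspDivisor ι p := by
      intro l _ _ hl hβ hα
      subst hl
      exact correspondence_cusps_self ι hp hβ hα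
    exact key (ℓ : ℕ) h _ _
  · rw [eisensteinSystem_of_not_dvd fun hd => h ((Nat.prime_dvd_prime_iff_eq ℓ.2 hp).mp hd),
      add_comm]
    exact correspondence_cusps ι (ℓ : ℕ) hp ℓ.2 h _ _

end FermatLib.Mazur.Classes
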