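import Fermat.Agent.Modular.JScale
import Fermat.Agent.Modular.FieldCx
import Fermat.Agent.Modular.PlacePoints
import Fermat.Agent.Mazur.Classes.UnitSeries

/-!
# `Δ(τ)/Δ(pτ)` as a weakly holomorphic modular function on `Γ₀(p)`
-/

set_option autoImplicit false

noncomputable section

open UpperHalfPlane hiding I
open Filter CongruenceSubgroup Asymptotics ModularCurve FermatLib.Modular
open scoped MatrixGroups ModularForm Manifold Topology Real

namespace FermatLib.Mazur.Classes

local notation "Δ" => ModularForm.discriminant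

/-- `Δ(τ)/Δ(pτ)`. -/
def unitFun (p : ℕ) : ℍ → ℂ := fun τ => Δ τ / Δ (ModularForm.heckeDiagMatrix p • τ)

theorem discriminant_smul (γ : SL(2, ℤ)) (τ : ℍ) :
    Δ (γ • τ) = UpperHalfPlane.denom γ τ ^ (12 : ℤ) * Δ τ := by
  have h := slash_SL_apply_eq (slash_SL_eq_self CuspForm.discriminant γ) τ
  rwa [CuspForm.coe_discriminant] at h

theorem unitFun_ne_zero (p : ℕ) (τ : ℍ) : unitFun p τ ≠ 0 :=
  div_ne_zero (ModularForm.discriminant_ne_zero _) (ModularForm.discriminant_ne_zero _)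

theorem mdifferentiable_unitFun (p : ℕ) : MDiff (unitFun p) := by
  have hΔ : MDiff (Δ : ℍ → ℂ) := (mem_qMero.mp discriminant_mem_qMero).2.1
  exact hΔ.div (hΔ.comp (UpperHalfPlane.mdifferentiable_smul
    (ModularForm.det_heckeDiagMatrix_pos p))) fun τ => ModularForm.discriminant_ne_zero _

variable (p : ℕ) [NeZero p]

theorem unitFun_smul_Gamma0 {γ : SL(2, ℤ)} (hγ : γ ∈ Gamma0 p) (τ : ℍ) :
    unitFun p (γ • τ) = unitFun p τ := by
  obtain ⟨C', hC⟩ := Gamma0_mem_iff_dvd.mp hγ
  have hdet := γ.2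
  rw [Matrix.det_fin_two] at hdet
  let δ : SL(2, ℤ) := ⟨!![γ 0 0, (p : ℤ) * γ 0 1; C', γ 1 1], by
    rw [Matrix.det_fin_two_of]; linear_combination hdet + γ 0 1 * hC⟩
  have hCC : ((γ 1 0 : ℤ) : ℂ) = (p : ℂ) * (C' : ℂ) := by exact_mod_cast hC
  have hd : ModularForm.heckeDiagMatrix p • γ • τ = δ • ModularForm.heckeDiagMatrix p • τ := by
    apply UpperHalfPlane.ext
    rw [ModularForm.coe_heckeDiagMatrix_smul (NeZero.ne p),
      UpperHalfPlane.coe_specialLinearGroup_apply, UpperHalfPlane.coe_specialLinearGroup_apply,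
      ModularForm.coe_heckeDiagMatrix_smul (NeZero.ne p)]
    simp only [algebraMap_int_eq, eq_intCast, δ, Matrix.of_apply, Matrix.cons_val',
      Matrix.cons_val_zero, Matrix.cons_val_one, Matrix.cons_val_fin_one, Complex.ofReal_intCast]
    push_cast
    rw [hCC]
    ring
  have hden : UpperHalfPlane.denom δ (ModularForm.heckeDiagMatrix p • τ : ℍ)
      = UpperHalfPlane.denom γ τ := by
    rw [ModularGroup.denom_apply, ModularGroup.denom_apply,
      ModularForm.coe_heckeDiagMatrix_smul (NeZero.ne p)]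
    simp [δ, hCC]
    ring
  rw [unitFun, unitFun, hd, discriminant_smul, discriminant_smul, hden,
    mul_div_mul_left _ _ (zpow_ne_zero 12 (UpperHalfPlane.denom_ne_zero γ τ))]

theorem isBoundedAtImInfty_discriminant_div {a b e : ℝ} (ha : 0 < a) (he : 0 < e) {k : ℕ}
    (hk : a / e ≤ k) :
    IsBoundedAtImInfty
      (fun τ => Δ τ ^ k / Δ (ModularForm.upperTriangularGL a b e (mul_pos ha he).ne' • τ)) := by
  set g := ModularForm.upperTriangularGL a b e (mul_pos ha he).ne'
  have h2 : ((Δ : ℍ → ℂ) ^ k) =O[atImInfty] fun τ => Δ (g • τ) := by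
    refine ((FermatLib.Modular.isBigO_discriminant_exp.pow k).trans ?_).trans
      (ModularForm.exp_isBigO_discriminant.comp_tendsto (tendsto_upperTriangularGL_smul ha he))
    refine IsBigO.of_bound 1 (Eventually.of_forall fun τ => ?_)
    simp only [Function.comp_apply, one_mul]
    rw [Real.norm_of_nonneg (pow_nonneg (Real.exp_pos _).le _),
      Real.norm_of_nonneg (Real.exp_pos _).le, ← Real.exp_nat_mul, im_upperTriangularGL_smul ha he]
    refine Real.exp_le_exp.mpr ?_
    nlinarith [mul_le_mul_of_nonneg_right hk τ.im_pos.le, Real.pi_pos]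
  exact (div_isBoundedUnder_of_isBigO h2).isBigO_one ℝ

/-- `U (S τ) = p ^ 12 Δ τ / Δ (τ / p)`. -/
theorem unitFun_S_smul (τ : ℍ) {w : ℍ} (hw : (w : ℂ) = (τ : ℂ) / p) :
    unitFun p (ModularGroup.S • τ) = (p : ℂ) ^ (12 : ℕ) * Δ τ / Δ w := by
  have hp : (p : ℂ) ≠ 0 := Nat.cast_ne_zero.mpr (NeZero.ne p)
  have hτ : (τ : ℂ) ≠ 0 := τ.ne_zero
  have hd : ModularForm.heckeDiagMatrix p • ModularGroup.S • τ = ModularGroup.S • w := by
    apply UpperHalfPlane.ext
    rw [ModularForm.coe_heckeDiagMatrix_smul (NeZero.ne p), modular_S_smul, modular_S_smul]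
    simp only [hw]
    field_simp
  rw [unitFun, hd, discriminant_smul, discriminant_smul, ModularGroup.denom_S,
    ModularGroup.denom_S, hw]
  have hΔ := ModularForm.discriminant_ne_zero w
  field_simp

theorem exists_isBounded_unitFun_smul (hp : p.Prime) (γ : SL(2, ℤ)) :
    ∃ m : ℕ, IsBoundedAtImInfty ((fun τ => unitFun p (γ • τ)) * Δ ^ m) := by
  have hp0 : (0 : ℝ) < p := by exact_mod_cast hp.pos
  by_cases hc : (p : ℤ) ∣ γ 1 0
  · refine ⟨p - 1, ?_⟩
    have h := isBoundedAtImInfty_discriminant_div (b := 0) hp0 one_pos (k := p) (by simp)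
    convert h using 1
    funext τ
    have hM : ModularForm.upperTriangularGL (p : ℝ) 0 1 (mul_pos hp0 one_pos).ne' • τ
        = ModularForm.heckeDiagMatrix p • τ := by
      apply UpperHalfPlane.ext
      rw [coe_upperTriangularGL_smul hp0 one_pos,
        ModularForm.coe_heckeDiagMatrix_smul (NeZero.ne p)]
      simp
    rw [Pi.mul_apply, Pi.pow_apply, unitFun_smul_Gamma0 p (Gamma0_mem_iff_dvd.mpr hc), unitFun, hM,
      div_mul_eq_mul_div, ← pow_succ', Nat.sub_add_cancel hp.one_le]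
  · have hcu : IsUnit ((γ 1 0 : ℤ) : ZMod p) := by
      have := Fact.mk hp
      exact Ne.isUnit fun h => hc ((ZMod.intCast_zmod_eq_zero_iff_dvd _ _).mp h)
    obtain ⟨j, hj⟩ : ∃ j : ℤ, (p : ℤ) ∣ γ 1 1 - j * γ 1 0 := by
      obtain ⟨u, hu⟩ := hcu
      refine ⟨(((u⁻¹ : (ZMod p)ˣ) : ZMod p) * ((γ 1 1 : ℤ) : ZMod p)).val, ?_⟩
      rw [← ZMod.intCast_zmod_eq_zero_iff_dvd]
      push_cast
      rw [ZMod.natCast_zmod_val, ← hu, mul_comm _ (u : ZMod p), ← mul_assoc, Units.mul_inv,
        one_mul, sub_self]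
    set γ₀ : SL(2, ℤ) := γ * (ModularGroup.S * ModularGroup.T ^ j)⁻¹ with hγ₀
    have hmem : γ₀ ∈ Gamma0 p := by
      rw [Gamma0_mem_iff_dvd]
      have : γ₀ 1 0 = -(γ 1 1 - j * γ 1 0) := by
        rw [hγ₀, Matrix.SpecialLinearGroup.coe_mul, Matrix.SpecialLinearGroup.coe_inv,
          Matrix.SpecialLinearGroup.coe_mul, ModularGroup.coe_S, ModularGroup.coe_T_zpow,
          Matrix.adjugate_fin_two, Matrix.mul_apply, Fin.sum_univ_two]
        simp
        ring
      rw [this]
      exact dvd_neg.mpr hj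
    refine ⟨0, ?_⟩
    have h := isBoundedAtImInfty_discriminant_div (a := 1) (b := (j : ℝ)) one_pos hp0 (k := 1) (by
      rw [Nat.cast_one, div_le_one hp0]; exact_mod_cast hp.one_le)
    have h' : IsBoundedAtImInfty _ := (const_boundedAtFilter atImInfty ((p : ℂ) ^ (12 : ℕ))).mul h
    refine cast (congrArg IsBoundedAtImInfty (funext fun τ => ?_)).symm h'
    have hw : ((ModularForm.upperTriangularGL 1 (j : ℝ) (p : ℝ) (mul_pos one_pos hp0).ne' • τ : ℍ) : ℂ)
        = ((ModularGroup.T ^ j • τ : ℍ) : ℂ) / p := by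
      rw [coe_upperTriangularGL_smul one_pos hp0, UpperHalfPlane.modular_T_zpow_smul,
        UpperHalfPlane.coe_vadd]
      push_cast
      ring
    have hΔT : Δ (ModularGroup.T ^ j • τ) = Δ τ := by
      rw [discriminant_smul, ModularGroup.denom_apply]
      simp [ModularGroup.coe_T_zpow]
    have he : γ • τ = γ₀ • ModularGroup.S • ModularGroup.T ^ j • τ := by
      rw [← mul_smul, ← mul_smul, hγ₀, mul_assoc, inv_mul_cancel_right]
    simp only [Pi.mul_apply, Function.const_apply, pow_zero, Pi.one_apply, mul_one, pow_one]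
    rw [he, unitFun_smul_Gamma0 p hmem, unitFun_S_smul p _ hw, hΔT, mul_div_assoc]

theorem unitFun_mem_weakMod (hp : p.Prime) : unitFun p ∈ weakMod (Gamma0 p) :=
  mem_weakMod.mpr ⟨mdifferentiable_unitFun p, fun _ hγ τ => unitFun_smul_Gamma0 p hγ τ,
    exists_isBounded_unitFun_smul p hp⟩

end FermatLib.Mazur.Classes
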