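import Fermat.Agent.Mazur.Classes.Reduces
import Fermat.Agent.Modular.LaurentInstances

/-!
# Where the points above a non-integral `j` reduce

`c` and `c'` are the two cusps; the discriminating function is the modular unit `u = Δ(τ)/Δ(pτ)`.
-/

set_option autoImplicit false
set_option synthInstance.maxHeartbeats 400000

noncomputable section

open HahnSeries ModularCurve AlgebraicCurve

namespace FermatLib.Mazur.Classes

open scoped FermatLib.LaurentInstances

local notation "Qbar" => AlgebraicClosure ℚ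

section Elements

variable (K : Type*) [Field K] (p : ℕ) [NeZero p]

/-- `j` in the function field over `K`. -/
def jFF : modularFunctionFieldFullC K p := ⟨jqModC K, jqModC_mem_full K p⟩

variable (L : Type*) [Field L] [Algebra ℚ L]

theorem jqModC_mem_fieldBar : jqModC L ∈ laurentBaseChange L (modularFunctionFieldFull p) := by
  rw [jqModC_eq_coeffEmb]
  exact coeffEmb_mem_laurentBaseChange L ((modularFunctionField_le_full p) (jq_mem p))

/-- `j` in `L(X₀(p))`. -/
def jB : laurentBaseChange L (modularFunctionFieldFull p) := ⟨jqModC L, jqModC_mem_fieldBar p L⟩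

theorem jB_ne_zero : jB p L ≠ 0 := fun h => jqModC_ne_zero' L (congrArg Subtype.val h)

theorem coe_jB_inv : (((jB p L)⁻¹ : laurentBaseChange L (modularFunctionFieldFull p)) :
    LaurentSeries L) = jqInvC L :=
  inv_eq_of_mul_eq_one_right (jqModC_mul_jqInvC L)

end Elements

/-- What is used about the cusps `c = ∞`, `c' = 0` and the unit `u = Δ(τ)/Δ(pτ)`. -/
structure IsCuspData (p : ℕ) [NeZero p] (c c' : Place Qbar (modularFunctionFieldBar p))
    (u : modularFunctionFieldBar p) : Prop where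
  coe_u : (u : LaurentSeries Qbar) = uModC Qbar p
  ord_j_c : c.ord (jB p Qbar) = -1
  ord_j_c' : c'.ord (jB p Qbar) = -(p : ℤ)
  ord_j_nonneg : ∀ P, P ≠ c → P ≠ c' → 0 ≤ P.ord (jB p Qbar)
  ord_u_c : c.ord u = 1 - (p : ℤ)
  ord_u_c' : c'.ord u = (p : ℤ) - 1
  ord_u_zero : ∀ P, P ≠ c → P ≠ c' → P.ord u = 0

namespace IsCuspData

variable {p : ℕ} [NeZero p]

variable {c c' : Place Qbar (modularFunctionFieldBar p)} {u : (modularFunctionFieldBar p)} (hd : IsCuspData p c c' u)
include hd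

theorem u_ne_zero : u ≠ 0 := fun h => uModC_ne_zero Qbar p (by rw [← hd.coe_u, h]; rfl)

theorem coe_u_inv : ((u⁻¹ : (modularFunctionFieldBar p)) : LaurentSeries Qbar) = vModC Qbar p := by
  show (u : LaurentSeries Qbar)⁻¹ = _
  rw [hd.coe_u]
  exact inv_eq_of_mul_eq_one_right (uModC_mul_vModC Qbar p)

variable (hp : 2 ≤ p)
include hp

theorem c_ne_c' : c ≠ c' := fun h => by
  have h1 := hd.ord_u_c
  rw [h, hd.ord_u_c'] at h1
  omega

variable {A : ValuationSubring Qbar} [FermatLib.Curve.IsFunctionFieldOne Qbar (modularFunctionFieldBar p)]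

omit hd hp in
theorem exists_qPlace_reduced :
    ∃ q : Place (IsLocalRing.ResidueField A) (modularFunctionFieldFullC (IsLocalRing.ResidueField A) p), ∀ x : (modularFunctionFieldFullC (IsLocalRing.ResidueField A) p), q.ord x = (x : LaurentSeries (IsLocalRing.ResidueField A)).order :=
  exists_qPlace _ (z := jFF (IsLocalRing.ResidueField A) p) (order_jqModC (IsLocalRing.ResidueField A))

section

variable {r : Place Qbar (modularFunctionFieldBar p) → Place (IsLocalRing.ResidueField A) (modularFunctionFieldFullC (IsLocalRing.ResidueField A) p)} (hr : IsPlaceReductionModL A p r)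
  (hgen : PrincipalGeneratedByIntegral A (IsLocalRing.residue A) p)
include hr hgen

theorem uModC_mem_fullC : uModC (IsLocalRing.ResidueField A) p ∈ modularFunctionFieldFullC (IsLocalRing.ResidueField A) p := by
  have h : Reduces A (u : LaurentSeries Qbar) (uModC (IsLocalRing.ResidueField A) p) := hd.coe_u.symm ▸ Reduces.uMod p
  exact mem_of_reduces hgen h (uModC_ne_zero (IsLocalRing.ResidueField A) p)

theorem ord_uModC_reduced (Q : Place (IsLocalRing.ResidueField A) (modularFunctionFieldFullC (IsLocalRing.ResidueField A) p)) (hu : uModC (IsLocalRing.ResidueField A) p ∈ modularFunctionFieldFullC (IsLocalRing.ResidueField A) p)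
    {D : Divisor Qbar (modularFunctionFieldBar p)} (hD : ∀ P, D P = P.ord u) :
    Q.ord (⟨uModC (IsLocalRing.ResidueField A) p, hu⟩ : (modularFunctionFieldFullC (IsLocalRing.ResidueField A) p)) = Finsupp.mapDomain r D Q :=
  (mapDomain_eq_ord hr (f := u) (g := ⟨uModC (IsLocalRing.ResidueField A) p, hu⟩) (hd.coe_u.symm ▸ Reduces.uMod p)
    (fun h => uModC_ne_zero (IsLocalRing.ResidueField A) p (congrArg Subtype.val h)) hD Q).symm

theorem r_c_ne_r_c' : r c ≠ r c' ∧ ∀ q : Place (IsLocalRing.ResidueField A) (modularFunctionFieldFullC (IsLocalRing.ResidueField A) p),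
    (∀ x : (modularFunctionFieldFullC (IsLocalRing.ResidueField A) p), q.ord x = (x : LaurentSeries (IsLocalRing.ResidueField A)).order) → r c = q := by
  classical
  have hu := hd.uModC_mem_fullC hp hr hgen
  obtain ⟨D, hD, -⟩ := HasPrincipalDivisors.exists_divisor (K := Qbar) u hd.u_ne_zero
  obtain ⟨q, hq⟩ := exists_qPlace_reduced (A := A) (p := p)
  have hDc : D c = 1 - (p : ℤ) := (hD c).trans hd.ord_u_c
  have hDc' : D c' = (p : ℤ) - 1 := (hD c').trans hd.ord_u_c'
  have hD0 : ∀ P, P ≠ c → P ≠ c' → D P = 0 := fun P h h' => (hD P).trans (hd.ord_u_zero P h h')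
  have hDeq : D = Finsupp.single c (1 - (p : ℤ)) + Finsupp.single c' ((p : ℤ) - 1) := by
    ext P
    rw [Finsupp.add_apply, Finsupp.single_apply, Finsupp.single_apply]
    by_cases h : c = P
    · subst h
      simp [hDc, (hd.c_ne_c' hp).symm]
    · by_cases h' : c' = P
      · subst h'
        simp [hDc', hd.c_ne_c' hp]
      · simp [h, h', hD0 P (Ne.symm h) (Ne.symm h')]
  have key : ∀ q' : Place (IsLocalRing.ResidueField A) (modularFunctionFieldFullC (IsLocalRing.ResidueField A) p), (∀ x : (modularFunctionFieldFullC (IsLocalRing.ResidueField A) p), q'.ord x = (x : LaurentSeries (IsLocalRing.ResidueField A)).order) →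
      r c = q' ∧ r c' ≠ q' := by
    intro q' hq'
    have h := hd.ord_uModC_reduced hp hr hgen q' hu hD
    rw [hq', order_uModC, hDeq, Finsupp.mapDomain_add, Finsupp.mapDomain_single,
      Finsupp.mapDomain_single, Finsupp.add_apply, Finsupp.single_apply,
      Finsupp.single_apply] at h
    split_ifs at h with h1 h2 <;> first | exact ⟨h1, h2⟩ | omega
  obtain ⟨h1, h2⟩ := key q hq
  exact ⟨fun h => h2 (h ▸ h1), fun q' hq' => (key q' hq').1⟩

theorem ord_jFF_r_c : (r c).ord (jFF (IsLocalRing.ResidueField A) p) = -1 := by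
  obtain ⟨q, hq⟩ := exists_qPlace_reduced (A := A) (p := p)
  rw [(hd.r_c_ne_r_c' hp hr hgen).2 q hq, hq]
  exact order_jqModC (IsLocalRing.ResidueField A)

theorem jFF_ne_zero : jFF (IsLocalRing.ResidueField A) p ≠ 0 := fun h => jqModC_ne_zero' (IsLocalRing.ResidueField A) (congrArg Subtype.val h)

/-- No point with integral `j` reduces to `∞`. -/
theorem ne_r_c_of_pos {P : Place Qbar (modularFunctionFieldBar p)}
    (hP : 0 < P.ord (jB p Qbar)) : r P ≠ r c := by
  intro hPc
  obtain ⟨D, hD, -⟩ := HasPrincipalDivisors.exists_divisor (K := Qbar) _ (jB_ne_zero p Qbar)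
  have hne := (hd.r_c_ne_r_c' hp hr hgen).1
  have h := mapDomain_eq_ord hr (f := jB p Qbar) (g := jFF (IsLocalRing.ResidueField A) p) Reduces.jq
    (hd.jFF_ne_zero hp hr hgen) hD (r c)
  rw [hd.ord_jFF_r_c hp hr hgen] at h
  have hE : ∀ Q, r Q = r c → 0 ≤ (D + Finsupp.single c 1 : Divisor Qbar (modularFunctionFieldBar p)) Q := by
    intro Q hQ
    rw [Finsupp.add_apply, hD]
    rcases eq_or_ne Q c with rfl | hQc
    · rw [hd.ord_j_c, Finsupp.single_eq_same]; norm_num
    · rw [Finsupp.single_eq_of_ne hQc, add_zero]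
      exact hd.ord_j_nonneg Q hQc fun h' => hne (h' ▸ hQ).symm
  have h2 := le_mapDomain_apply hE hPc
  rw [Finsupp.mapDomain_add, Finsupp.mapDomain_single, Finsupp.add_apply, Finsupp.add_apply, h,
    Finsupp.single_eq_same, hD] at h2
  have hPc' : P ≠ c := fun h' => by rw [h', hd.ord_j_c] at hP; omega
  rw [Finsupp.single_eq_of_ne hPc'] at h2
  omega

section Fibre

variable {j₀ : Qbar} (hj₀ : j₀ ∉ A)
include hj₀

omit hd hp hr hgen in
theorem j₀_ne_zero : j₀ ≠ 0 := fun h => hj₀ (h ▸ A.zero_mem)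

omit hd hp hr hgen in
theorem inv_j₀_mem : j₀⁻¹ ∈ A := (A.mem_or_inv_mem j₀).resolve_left hj₀

omit hd hp hr hgen in
theorem residue_inv_j₀ : IsLocalRing.residue A ⟨j₀⁻¹, inv_j₀_mem hj₀⟩ = 0 := by
  rw [IsLocalRing.residue_eq_zero_iff, IsLocalRing.mem_maximalIdeal, mem_nonunits_iff]
  intro h
  obtain ⟨b, hb⟩ := isUnit_iff_exists_inv.mp h
  have hb' : j₀⁻¹ * (b : Qbar) = 1 := congrArg Subtype.val hb
  have hb2 : (b : Qbar) = j₀ := by rw [eq_inv_of_mul_eq_one_right hb', inv_inv]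
  exact hj₀ (hb2 ▸ b.2)

/-- The divisor of `1/j - 1/j₀` and its image. -/
theorem fibre_image {E : Divisor Qbar (modularFunctionFieldBar p)}
    (hE : ∀ P, E P = P.ord ((jB p Qbar)⁻¹ - algebraMap Qbar (modularFunctionFieldBar p) j₀⁻¹)) (Q : Place (IsLocalRing.ResidueField A) (modularFunctionFieldFullC (IsLocalRing.ResidueField A) p)) :
    Finsupp.mapDomain r E Q = -Q.ord (jFF (IsLocalRing.ResidueField A) p) := by
  have hj := hd.jFF_ne_zero hp hr hgen
  have hred : Reduces A (((jB p Qbar)⁻¹ - algebraMap Qbar (modularFunctionFieldBar p) j₀⁻¹ : (modularFunctionFieldBar p)) : LaurentSeries Qbar)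
      (((jFF (IsLocalRing.ResidueField A) p)⁻¹ : (modularFunctionFieldFullC (IsLocalRing.ResidueField A) p)) : LaurentSeries (IsLocalRing.ResidueField A)) := by
    show Reduces A ((((jB p Qbar)⁻¹ : (modularFunctionFieldBar p)) : LaurentSeries Qbar)
      - algebraMap Qbar (LaurentSeries Qbar) j₀⁻¹) _
    have hinv : (((jFF (IsLocalRing.ResidueField A) p)⁻¹ : (modularFunctionFieldFullC (IsLocalRing.ResidueField A) p)) : LaurentSeries (IsLocalRing.ResidueField A)) = jqInvC (IsLocalRing.ResidueField A) :=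
      inv_eq_of_mul_eq_one_right (jqModC_mul_jqInvC (IsLocalRing.ResidueField A))
    have h := (Reduces.jqInv (A := A)).sub (Reduces.const ⟨j₀⁻¹, inv_j₀_mem hj₀⟩)
    rw [residue_inv_j₀ hj₀, map_zero, sub_zero] at h
    rw [coe_jB_inv, hinv]
    exact h
  rw [mapDomain_eq_ord hr hred (inv_ne_zero hj) hE Q, Place.ord_inv]

omit hr hgen in
theorem ord_sub_inv (P : Place Qbar (modularFunctionFieldBar p)) :
    (0 < P.ord ((jB p Qbar)⁻¹ - algebraMap Qbar (modularFunctionFieldBar p) j₀⁻¹) → P ≠ c ∧ P ≠ c') ∧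
      (P.ord ((jB p Qbar)⁻¹ - algebraMap Qbar (modularFunctionFieldBar p) j₀⁻¹) < 0 → 0 < P.ord (jB p Qbar)) := by
  have hj0 : j₀⁻¹ ≠ 0 := inv_ne_zero (j₀_ne_zero hj₀)
  refine ⟨fun h => ⟨?_, ?_⟩, fun h => ?_⟩
  · rintro rfl
    rw [ord_sub_algebraMap_of_pos _ (by rw [Place.ord_inv, hd.ord_j_c]; norm_num) hj0] at h
    omega
  · rintro rfl
    rw [ord_sub_algebraMap_of_pos _ (by rw [Place.ord_inv, hd.ord_j_c']; omega) hj0] at h
    omega
  · by_contra hle
    have := ord_sub_algebraMap_nonneg P (x := (jB p Qbar)⁻¹)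
      (by rw [Place.ord_inv]; omega) j₀⁻¹
    omega

/-- A point over a non-integral `j` reduces to one of the cusps. -/
theorem r_eq_cusp {x : Place Qbar (modularFunctionFieldBar p)}
    (hx : 0 < x.ord ((jB p Qbar)⁻¹ - algebraMap Qbar (modularFunctionFieldBar p) j₀⁻¹)) : r x = r c ∨ r x = r c' := by
  by_contra! hcon
  obtain ⟨hx1, hx2⟩ := hcon
  obtain ⟨E, hE, -⟩ := HasPrincipalDivisors.exists_divisor (K := Qbar)
    ((jB p Qbar)⁻¹ - algebraMap Qbar (modularFunctionFieldBar p) j₀⁻¹) (fun h => by rw [h, Place.ord_zero] at hx; omega)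
  obtain ⟨D, hD, -⟩ := HasPrincipalDivisors.exists_divisor (K := Qbar) _ (jB_ne_zero p Qbar)
  have hsum : ∀ Q, r Q = r x → 0 ≤ (E + D : Divisor Qbar (modularFunctionFieldBar p)) Q := by
    intro Q hQ
    rw [Finsupp.add_apply, hE, hD]
    have hQc : Q ≠ c := fun h => hx1 (h ▸ hQ).symm
    have hQc' : Q ≠ c' := fun h => hx2 (h ▸ hQ).symm
    have hjQ := hd.ord_j_nonneg Q hQc hQc'
    by_contra hlt
    push Not at hlt
    have hneg : Q.ord ((jB p Qbar)⁻¹ - algebraMap Qbar (modularFunctionFieldBar p) j₀⁻¹) < 0 := by omega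
    have hpos := (hd.ord_sub_inv hp hj₀ Q).2 hneg
    rw [ord_sub_algebraMap_of_neg Q (by rw [Place.ord_inv]; omega), Place.ord_inv] at hlt
    omega
  have h := le_mapDomain_apply hsum (a := x) rfl
  rw [Finsupp.mapDomain_add, Finsupp.add_apply, Finsupp.add_apply,
    hd.fibre_image hp hr hgen hj₀ hE,
    mapDomain_eq_ord hr (f := jB p Qbar) (g := jFF (IsLocalRing.ResidueField A) p) Reduces.jq (hd.jFF_ne_zero hp hr hgen)
      hD, hE, hD] at h
  have hxc := (hd.ord_sub_inv hp hj₀ x).1 hx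
  have := hd.ord_j_nonneg x hxc.1 hxc.2
  omega

/-- At most one point of a fibre reduces to `∞`. -/
theorem eq_of_r_eq_c {x x' : Place Qbar (modularFunctionFieldBar p)}
    (hx : 0 < x.ord ((jB p Qbar)⁻¹ - algebraMap Qbar (modularFunctionFieldBar p) j₀⁻¹))
    (hx' : 0 < x'.ord ((jB p Qbar)⁻¹ - algebraMap Qbar (modularFunctionFieldBar p) j₀⁻¹))
    (h : r x = r c) (h' : r x' = r c) : x = x' := by
  by_contra hne
  obtain ⟨E, hE, -⟩ := HasPrincipalDivisors.exists_divisor (K := Qbar)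
    ((jB p Qbar)⁻¹ - algebraMap Qbar (modularFunctionFieldBar p) j₀⁻¹) (fun h => by rw [h, Place.ord_zero] at hx; omega)
  have hnn : ∀ Q, r Q = r c → 0 ≤ E Q := by
    intro Q hQ
    rw [hE]
    by_contra hlt
    exact hd.ne_r_c_of_pos hp hr hgen ((hd.ord_sub_inv hp hj₀ Q).2 (not_le.mp hlt)) hQ
  have h2 := add_le_mapDomain_apply hnn hne h h'
  rw [hd.fibre_image hp hr hgen hj₀ hE, hd.ord_jFF_r_c hp hr hgen, hE, hE] at h2
  omega

/-- A point where `u` has non-integral value reduces to `∞`. -/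
theorem r_eq_c {x : Place Qbar (modularFunctionFieldBar p)}
    (hx : 0 < x.ord ((jB p Qbar)⁻¹ - algebraMap Qbar (modularFunctionFieldBar p) j₀⁻¹)) {β : Qbar} (hβ : β ∉ A)
    (hxu : 0 < x.ord (u - algebraMap Qbar (modularFunctionFieldBar p) β)) : r x = r c := by
  refine (hd.r_eq_cusp hp hr hgen hj₀ hx).resolve_right fun hxc => ?_
  obtain ⟨hne, -⟩ := hd.r_c_ne_r_c' hp hr hgen
  have hu := hd.uModC_mem_fullC hp hr hgen
  have hu0 := hd.u_ne_zero
  have hg : u⁻¹ - algebraMap Qbar (modularFunctionFieldBar p) β⁻¹ =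
      -(u⁻¹ * algebraMap Qbar (modularFunctionFieldBar p) β⁻¹) * (u - algebraMap Qbar (modularFunctionFieldBar p) β) := by
    have hβ0 : β ≠ 0 := fun h => hβ (h ▸ A.zero_mem)
    have : algebraMap Qbar (modularFunctionFieldBar p) β⁻¹ * algebraMap Qbar (modularFunctionFieldBar p) β = 1 := by
      rw [← map_mul, inv_mul_cancel₀ hβ0, map_one]
    linear_combination (-u⁻¹) * this + algebraMap Qbar (modularFunctionFieldBar p) β⁻¹ * (inv_mul_cancel₀ hu0)
  have hxg : 0 < x.ord (u⁻¹ - algebraMap Qbar (modularFunctionFieldBar p) β⁻¹) := by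
    have hxc' := (hd.ord_sub_inv hp hj₀ x).1 hx
    have hβ0 : algebraMap Qbar (modularFunctionFieldBar p) β⁻¹ ≠ 0 :=
      (map_ne_zero _).mpr (inv_ne_zero fun h => hβ (h ▸ A.zero_mem))
    have hne' : u - algebraMap Qbar (modularFunctionFieldBar p) β ≠ 0 := fun h => by rw [h, Place.ord_zero] at hxu; omega
    rw [hg, neg_mul, FermatLib.Curve.ord_neg, x.ord_mul (mul_ne_zero (inv_ne_zero hu0) hβ0) hne',
      x.ord_mul (inv_ne_zero hu0) hβ0, Place.ord_inv, hd.ord_u_zero x hxc'.1 hxc'.2,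
      FermatLib.Curve.ord_algebraMap]
    simpa using hxu
  obtain ⟨E, hE, -⟩ := HasPrincipalDivisors.exists_divisor (K := Qbar)
    (u⁻¹ - algebraMap Qbar (modularFunctionFieldBar p) β⁻¹) (fun h => by rw [h, Place.ord_zero] at hxg; omega)
  obtain ⟨D, hD, -⟩ := HasPrincipalDivisors.exists_divisor (K := Qbar) u hu0
  have hv : (((⟨uModC (IsLocalRing.ResidueField A) p, hu⟩ : (modularFunctionFieldFullC (IsLocalRing.ResidueField A) p)))⁻¹ : (modularFunctionFieldFullC (IsLocalRing.ResidueField A) p)) ≠ 0 :=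
    inv_ne_zero fun h => uModC_ne_zero (IsLocalRing.ResidueField A) p (congrArg Subtype.val h)
  have hred : Reduces A ((u⁻¹ - algebraMap Qbar (modularFunctionFieldBar p) β⁻¹ : (modularFunctionFieldBar p)) : LaurentSeries Qbar)
      (((⟨uModC (IsLocalRing.ResidueField A) p, hu⟩ : (modularFunctionFieldFullC (IsLocalRing.ResidueField A) p))⁻¹ : (modularFunctionFieldFullC (IsLocalRing.ResidueField A) p)) : LaurentSeries (IsLocalRing.ResidueField A)) := by
    show Reduces A (((u⁻¹ : (modularFunctionFieldBar p)) : LaurentSeries Qbar)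
      - algebraMap Qbar (LaurentSeries Qbar) β⁻¹) (uModC (IsLocalRing.ResidueField A) p)⁻¹
    have h := (Reduces.vMod (A := A) p).sub (Reduces.const ⟨β⁻¹, inv_j₀_mem hβ⟩)
    rw [residue_inv_j₀ hβ, map_zero, sub_zero] at h
    rw [hd.coe_u_inv, inv_eq_of_mul_eq_one_right (uModC_mul_vModC (IsLocalRing.ResidueField A) p)]
    exact h
  have hm := mapDomain_eq_ord hr hred hv hE (r c')
  rw [Place.ord_inv, hd.ord_uModC_reduced hp hr hgen _ hu hD] at hm
  have hsum : ∀ Q, r Q = r c' → 0 ≤ (E + D : Divisor Qbar (modularFunctionFieldBar p)) Q := by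
    intro Q hQ
    rw [Finsupp.add_apply, hE, hD]
    have hQc : Q ≠ c := fun h => hne (h ▸ hQ)
    rcases eq_or_ne Q c' with rfl | hQc'
    · have hp1 : Q.ord u⁻¹ < 0 := by rw [Place.ord_inv, hd.ord_u_c']; omega
      rw [ord_sub_algebraMap_of_neg Q hp1, Place.ord_inv]
      omega
    · have h0 := hd.ord_u_zero Q hQc hQc'
      have := ord_sub_algebraMap_nonneg Q (x := u⁻¹) (by rw [Place.ord_inv]; omega) β⁻¹
      omega
  have h2 := le_mapDomain_apply hsum hxc
  rw [Finsupp.mapDomain_add, Finsupp.add_apply, Finsupp.add_apply, hm, hE, hD] at h2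
  have hxc' := (hd.ord_sub_inv hp hj₀ x).1 hx
  rw [hd.ord_u_zero x hxc'.1 hxc'.2] at h2
  omega

/-- A point where `u / j ^ (p - 1)` has value of positive valuation reduces to `0`. -/
theorem r_eq_c' {x : Place Qbar (modularFunctionFieldBar p)}
    (hx : 0 < x.ord ((jB p Qbar)⁻¹ - algebraMap Qbar (modularFunctionFieldBar p) j₀⁻¹)) {β : Qbar}
    (hβ : β * j₀⁻¹ ^ (p - 1) ∈ A.nonunits)
    (hxu : 0 < x.ord (u * (jB p Qbar)⁻¹ ^ (p - 1) - algebraMap Qbar (modularFunctionFieldBar p) (β * j₀⁻¹ ^ (p - 1)))) :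
    r x = r c' := by
  refine (hd.r_eq_cusp hp hr hgen hj₀ hx).resolve_left fun hxc => ?_
  obtain ⟨hne, hq⟩ := hd.r_c_ne_r_c' hp hr hgen
  have hu := hd.uModC_mem_fullC hp hr hgen
  set g : (modularFunctionFieldFullC (IsLocalRing.ResidueField A) p) := ⟨uModC (IsLocalRing.ResidueField A) p, hu⟩ * (jFF (IsLocalRing.ResidueField A) p)⁻¹ ^ (p - 1) with hgdef
  have hj := hd.jFF_ne_zero hp hr hgen
  have hub : (⟨uModC (IsLocalRing.ResidueField A) p, hu⟩ : (modularFunctionFieldFullC (IsLocalRing.ResidueField A) p)) ≠ 0 := fun h => uModC_ne_zero (IsLocalRing.ResidueField A) p (congrArg Subtype.val h)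
  have hg0 : g ≠ 0 := mul_ne_zero hub (pow_ne_zero _ (inv_ne_zero hj))
  obtain ⟨hmem, hres⟩ : ∃ hmem : β * j₀⁻¹ ^ (p - 1) ∈ A,
      IsLocalRing.residue A ⟨β * j₀⁻¹ ^ (p - 1), hmem⟩ = 0 := by
    obtain ⟨hmem, h⟩ := ValuationSubring.mem_nonunits_iff_exists_mem_maximalIdeal.mp hβ
    exact ⟨hmem, (IsLocalRing.residue_eq_zero_iff _).mpr h⟩
  have hred : Reduces A ((u * (jB p Qbar)⁻¹ ^ (p - 1)
      - algebraMap Qbar (modularFunctionFieldBar p) (β * j₀⁻¹ ^ (p - 1)) : (modularFunctionFieldBar p)) : LaurentSeries Qbar)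
      (g : LaurentSeries (IsLocalRing.ResidueField A)) := by
    show Reduces A ((u : LaurentSeries Qbar) * (((jB p Qbar)⁻¹ : (modularFunctionFieldBar p)) : LaurentSeries Qbar) ^ (p - 1)
      - algebraMap Qbar (LaurentSeries Qbar) (β * j₀⁻¹ ^ (p - 1)))
      (uModC (IsLocalRing.ResidueField A) p * ((jqModC (IsLocalRing.ResidueField A))⁻¹) ^ (p - 1))
    have h := ((Reduces.uMod (A := A) p).mul ((Reduces.jqInv (A := A)).pow (p - 1))).sub
      (Reduces.const ⟨β * j₀⁻¹ ^ (p - 1), hmem⟩)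
    rw [hres, map_zero, sub_zero] at h
    rw [hd.coe_u, coe_jB_inv, inv_eq_of_mul_eq_one_right (jqModC_mul_jqInvC (IsLocalRing.ResidueField A))]
    exact h
  obtain ⟨E, hE, -⟩ := HasPrincipalDivisors.exists_divisor (K := Qbar)
    (u * (jB p Qbar)⁻¹ ^ (p - 1) - algebraMap Qbar (modularFunctionFieldBar p) (β * j₀⁻¹ ^ (p - 1)))
    (fun h => by rw [h, Place.ord_zero] at hxu; omega)
  have hm := mapDomain_eq_ord hr hred hg0 hE (r c)
  have hp1 : ((p - 1 : ℕ) : ℤ) = (p : ℤ) - 1 := by omega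
  have hgord : (r c).ord g = 0 := by
    obtain ⟨q, hqo⟩ := exists_qPlace_reduced (A := A) (p := p)
    rw [hgdef, Place.ord_mul _ hub (pow_ne_zero _ (inv_ne_zero hj)), FermatLib.Curve.ord_pow,
      Place.ord_inv, hd.ord_jFF_r_c hp hr hgen, hq q hqo, hqo]
    show (uModC (IsLocalRing.ResidueField A) p).order + _ = _
    rw [order_uModC, hp1]
    ring
  have hu0 := hd.u_ne_zero
  have hordprod : ∀ Q : Place Qbar (modularFunctionFieldBar p), Q.ord (u * (jB p Qbar)⁻¹ ^ (p - 1)) =
      Q.ord u - ((p : ℤ) - 1) * Q.ord (jB p Qbar) := fun Q => by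
    rw [Q.ord_mul hu0 (pow_ne_zero _ (inv_ne_zero (jB_ne_zero p Qbar))),
      FermatLib.Curve.ord_pow, Place.ord_inv, hp1]
    ring
  have hnn : ∀ Q, r Q = r c → 0 ≤ E Q := by
    intro Q hQ
    rw [hE]
    refine ord_sub_algebraMap_nonneg Q ?_ _
    rw [hordprod]
    rcases eq_or_ne Q c with rfl | hQc
    · rw [hd.ord_u_c, hd.ord_j_c]; linarith
    have hQc' : Q ≠ c' := fun h => hne (h ▸ hQ).symm
    rw [hd.ord_u_zero Q hQc hQc']
    have hle : Q.ord (jB p Qbar) ≤ 0 := not_lt.mp fun h => hd.ne_r_c_of_pos hp hr hgen h hQ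
    have hp' : (0 : ℤ) ≤ (p : ℤ) - 1 := by omega
    nlinarith
  have h2 := le_mapDomain_apply hnn hxc
  rw [hm, hgord, hE] at h2
  omega

end Fibre

end

end IsCuspData

end FermatLib.Mazur.Classes
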