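import Fermat.Agent.Modular.PlaceCusps
import Fermat.Agent.Mazur.Classes.ModularUnitFun
import Fermat.Agent.Mazur.Classes.Reduction

/-!
# The two cusps of `X₀(p)` and the modular unit as a function
-/

set_option autoImplicit false

noncomputable section

open UpperHalfPlane hiding I
open CongruenceSubgroup ModularCurve AlgebraicCurve FermatLib.Modular
open scoped MatrixGroups

namespace FermatLib.Mazur.Classes

local notation "Qbar" => AlgebraicClosure ℚ
local notation "Δ" => ModularForm.discriminant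

theorem exists_embedding_Qbar : Nonempty (Qbar →+* ℂ) := by
  have : Algebra.IsAlgebraic ℚ Qbar := AlgebraicClosure.isAlgebraic ℚ
  exact ⟨(IsAlgClosed.lift : Qbar →ₐ[ℚ] ℂ).toRingHom⟩

theorem jB_eq_jElem (N : ℕ) [NeZero N] : jB N Qbar = jElem Qbar N :=
  Subtype.ext (jqModC_eq_coeffEmb Qbar)

variable (ι : Qbar →+* ℂ) (p : ℕ) [NeZero p]

theorem coeffMap_uModC_eq_qExpWeak (hp : p.Prime) :
    coeffMap ι (uModC Qbar p) = qExpWeak p ⟨unitFun p, unitFun_mem_weakMod p hp⟩ := by
  rw [coeffMap_uModC, qExpWeak_apply, uModC_eq_coeffEmb]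
  have hU : unitFun p ∈ qMero := weakMod_Gamma0_le_qMero p (unitFun_mem_weakMod p hp)
  have hΔd := comp_diag_mem_qMero discriminant_mem_qMero p
  have hfun : (unitFun p * fun τ => Δ (ModularForm.heckeDiagMatrix p • τ)) = (Δ : ℍ → ℂ) :=
    funext fun τ => div_mul_cancel₀ _ (ModularForm.discriminant_ne_zero _)
  have h := congrArg qExpL hfun
  rw [qExpL_mul hU hΔd, qExpL_comp_diag discriminant_mem_qMero] at h
  have hD : qExpL (Δ : ℍ → ℂ) = coeffEmb ℂ deltaSeries := by
    rw [qExpL_of_bounded discriminant_mem_qMero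
      ModularForm.discriminant_isZeroAtImInfty.isBoundedAtImInfty, ← qExpDelta_eq, qExpDelta]
  rw [hD, ← coeffEmb_qExpand, ← deltaSeriesN] at h
  refine mul_right_cancel₀ ((map_ne_zero (coeffEmb ℂ)).mpr (deltaSeriesN_ne_zero p)) ?_
  rw [← map_mul, modularUnitSeries_mul_deltaSeriesN, h]

theorem uModC_mem_fieldBar (hp : p.Prime) : uModC Qbar p ∈ modularFunctionFieldBar p := by
  obtain ⟨ι⟩ := exists_embedding_Qbar
  refine mem_modularFunctionFieldBar_of_coeffMap_mem ι p ?_
  rw [coeffMap_uModC_eq_qExpWeak ι p hp]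
  exact qExpL_mem_modularFunctionFieldCx p (unitFun_mem_weakMod p hp)

/-- `Δ(τ)/Δ(pτ)` in `ℚ̄(X₀(p))`. -/
def uB (hp : p.Prime) : modularFunctionFieldBar p := ⟨uModC Qbar p, uModC_mem_fieldBar p hp⟩

theorem coe_uB (hp : p.Prime) : (uB p hp : LaurentSeries Qbar) = uModC Qbar p := rfl

theorem uB_ne_zero (hp : p.Prime) : uB p hp ≠ 0 := fun h =>
  uModC_ne_zero Qbar p (congrArg Subtype.val h)

/-- The cusp `∞`. -/
def cInf : Place Qbar (modularFunctionFieldBar p) := cuspPlace ι p 1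

/-- The cusp `0`. -/
def cZero : Place Qbar (modularFunctionFieldBar p) := cuspPlace ι p ModularGroup.S

theorem ord_cInf {x : modularFunctionFieldBar p} (hx : x ≠ 0) :
    (cInf ι p).ord x = (x : LaurentSeries Qbar).order := ord_cuspPlace_one ι p x hx

theorem ord_cInf_j : (cInf ι p).ord (jB p Qbar) = -1 := by
  rw [ord_cInf ι p (jB_ne_zero p Qbar)]
  exact order_jqModC Qbar

theorem cuspWidth_S (hp : p.Prime) : cuspWidth p ModularGroup.S = p := by
  refine ((Nat.dvd_prime hp).mp (cuspWidth_dvd p _)).resolve_left fun h => ?_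
  have h1 := (T_zpow_smul_gamma0Coset_eq_iff (N := p)).mp (T_cuspWidth_smul p ModularGroup.S)
  rw [h] at h1
  simp [ModularGroup.S] at h1
  exact hp.ne_one (Nat.dvd_one.mp (by exact_mod_cast h1))

theorem ord_cZero_j (hp : p.Prime) : (cZero ι p).ord (jB p Qbar) = -(p : ℤ) := by
  rw [jB_eq_jElem, cZero, ord_jElem_cuspPlace, cuspWidth_S p hp]

theorem eq_cusp_of_ord_j_neg (hp : p.Prime) (P : Place Qbar (modularFunctionFieldBar p))
    (hP : P.ord (jB p Qbar) < 0) : P = cInf ι p ∨ P = cZero ι p := by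
  rw [jB_eq_jElem] at hP
  obtain ⟨g, rfl⟩ := exists_cuspPlace_eq ι p P hP
  have hres : ∀ h : SL(2, ℤ), cuspRes p h = 0 := fun h => by
    have h1 : (cuspDiv p h).gcd (p / cuspDiv p h) = 1 := by
      rcases (Nat.dvd_prime hp).mp (cuspDiv_dvd p h) with e | e <;> rw [e]
      · simp
      · simp [Nat.div_self hp.pos]
    have : Subsingleton (ZMod ((cuspDiv p h).gcd (p / cuspDiv p h))) := by
      rw [h1]; exact inferInstanceAs (Subsingleton (Fin 1))
    rw [cuspRes, Subsingleton.elim ((_ : ℤ) : ZMod ((cuspDiv p h).gcd (p / cuspDiv p h))) 0,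
      ZMod.val_zero]
  rcases (Nat.dvd_prime hp).mp (cuspDiv_dvd p g) with e | e
  · refine Or.inr ((cuspPlace_eq_iff ι p _ _).mpr (cuspOrbitMk_eq_of_invariants ?_ ?_))
    · rw [e]; simp [cuspDiv, ModularGroup.S]
    · rw [hres, hres]
  · refine Or.inl ((cuspPlace_eq_iff ι p _ _).mpr (cuspOrbitMk_eq_of_invariants ?_ ?_))
    · rw [e]; simp [cuspDiv]
    · rw [hres, hres]

theorem ord_j_nonneg (hp : p.Prime) (P : Place Qbar (modularFunctionFieldBar p))
    (h : P ≠ cInf ι p) (h' : P ≠ cZero ι p) : 0 ≤ P.ord (jB p Qbar) :=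
  not_lt.mp fun hlt => (eq_cusp_of_ord_j_neg ι p hp P hlt).elim h h'

theorem ord_uB_cInf (hp : p.Prime) : (cInf ι p).ord (uB p hp) = 1 - (p : ℤ) := by
  rw [ord_cInf ι p (uB_ne_zero p hp), coe_uB, order_uModC]

theorem ord_uB_eq_zero (hp : p.Prime) (P : Place Qbar (modularFunctionFieldBar p))
    (hP : 0 ≤ P.ord (jB p Qbar)) : P.ord (uB p hp) = 0 := by
  obtain ⟨ι⟩ := exists_embedding_Qbar
  rw [jB_eq_jElem] at hP
  obtain ⟨τ, hτ, rfl⟩ := exists_ptPlace_eq ι p P hP
  have h := meromorphicOrderAt_ptPlace ι p τ hτ (uB_ne_zero p hp)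
    ⟨unitFun p, unitFun_mem_weakMod p hp⟩ (coeffMap_uModC_eq_qExpWeak ι p hp)
  have hd := UpperHalfPlane.mdifferentiable_iff.mp (mdifferentiable_unitFun p)
  have ha : AnalyticAt ℂ (unitFun p ∘ ofComplex) (τ : ℂ) :=
    hd.analyticAt (UpperHalfPlane.isOpen_upperHalfPlaneSet.mem_nhds τ.im_pos)
  have h0 : meromorphicOrderAt (unitFun p ∘ ofComplex) (τ : ℂ) = 0 := by
    rw [ha.meromorphicOrderAt_eq, ha.analyticOrderAt_eq_zero.mpr
      (by simpa [ofComplex_apply] using unitFun_ne_zero p τ)]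
    rfl
  rw [h0] at h
  have h' := WithTop.coe_inj.mp h
  rcases mul_eq_zero.mp h'.symm with e | e
  · have := ptIndex_pos p τ
    omega
  · exact e

theorem cInf_ne_cZero (hp : p.Prime) : cInf ι p ≠ cZero ι p := fun h => by
  have h1 := ord_cInf_j ι p
  rw [h, ord_cZero_j ι p hp] at h1
  have := hp.two_le
  omega

theorem ord_uB_cZero (hp : p.Prime) : (cZero ι p).ord (uB p hp) = (p : ℤ) - 1 := by
  have := isFunctionFieldOne_modularFunctionFieldOver (L := Qbar) p
  have := hasPrincipalDivisors_modularFunctionFieldOver (L := Qbar) p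
  obtain ⟨D, hD, hdeg⟩ := HasPrincipalDivisors.exists_divisor (K := Qbar) _ (uB_ne_zero p hp)
  have hne := cInf_ne_cZero ι p hp
  have hDeq : D = Finsupp.single (cInf ι p) (D (cInf ι p))
      + Finsupp.single (cZero ι p) (D (cZero ι p)) := by
    ext P
    rw [Finsupp.add_apply]
    rcases eq_or_ne P (cInf ι p) with rfl | h
    · rw [Finsupp.single_eq_same, Finsupp.single_eq_of_ne hne, add_zero]
    rcases eq_or_ne P (cZero ι p) with rfl | h'
    · rw [Finsupp.single_eq_same, Finsupp.single_eq_of_ne hne.symm, zero_add]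
    rw [Finsupp.single_eq_of_ne h, Finsupp.single_eq_of_ne h', hD,
      ord_uB_eq_zero p hp P (ord_j_nonneg ι p hp P h h'), add_zero]
  rw [hDeq, map_add, Divisor.degree_single, Divisor.degree_single,
    FermatLib.Curve.deg_eq_one, FermatLib.Curve.deg_eq_one, hD, hD, ord_uB_cInf ι p hp] at hdeg
  push_cast at hdeg
  linarith

/-- The cusps and the modular unit satisfy what the reduction argument needs. -/
theorem isCuspData (hp : p.Prime) : IsCuspData p (cInf ι p) (cZero ι p) (uB p hp) where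
  coe_u := rfl
  ord_j_c := ord_cInf_j ι p
  ord_j_c' := ord_cZero_j ι p hp
  ord_j_nonneg := ord_j_nonneg ι p hp
  ord_u_c := ord_uB_cInf ι p hp
  ord_u_c' := ord_uB_cZero ι p hp
  ord_u_zero P h h' := ord_uB_eq_zero p hp P (ord_j_nonneg ι p hp P h h')

end FermatLib.Mazur.Classes
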