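import Fermat.Agent.Modular.CorrFacts
import Fermat.Agent.Mazur.Classes.CuspPlaces

/-!
# Orders of `j (d τ)` at the places over `∞` and over a cusp of prime level
-/

set_option autoImplicit false

noncomputable section

open UpperHalfPlane hiding I
open CongruenceSubgroup ModularCurve AlgebraicCurve FermatLib.Modular FermatLib.Modular.Corr
open scoped MatrixGroups

namespace FermatLib.Mazur.Classes

local notation "Qbar" => AlgebraicClosure ℚ

/-- `j (d τ)` in the function field of level `M`. -/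
def jd (M d : ℕ) [NeZero d] (h : d ∣ M) : fieldBar Qbar M :=
  ⟨qExpand Qbar d (jBar Qbar), qExpand_jBar_mem_fieldBar h⟩

theorem coe_jd (M d : ℕ) [NeZero d] (h : d ∣ M) :
    (jd M d h : LaurentSeries Qbar) = qExpand Qbar d (jBar Qbar) := rfl

theorem jd_ne_zero (M d : ℕ) [NeZero d] (h : d ∣ M) : jd M d h ≠ 0 := fun h0 =>
  transcendental_qExpand_jBar (L := Qbar) d
    (by rw [show qExpand Qbar d (jBar Qbar) = 0 from congrArg Subtype.val h0]; exact isAlgebraic_zero)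

theorem jd_one (M : ℕ) [NeZero M] : jd M 1 (one_dvd M) = jB M Qbar := by
  rw [jB_eq_jElem]
  exact Subtype.ext (qExpand_one_apply (jBar Qbar))

theorem barIncl_jd {M M' : ℕ} [NeZero M] [NeZero M'] (hM : M ∣ M') (d : ℕ) [NeZero d] (h : d ∣ M) :
    barIncl Qbar hM (jd M d h) = jd M' d (h.trans hM) :=
  Subtype.ext (coe_barIncl hM _)

theorem barBeta_jd {M M' : ℕ} [NeZero M] [NeZero M'] (l : ℕ) [NeZero l] (hM : M * l ∣ M')
    (d : ℕ) [NeZero d] (h : d ∣ M) {e : ℕ} [NeZero e] (hde : l * d = e) (h' : e ∣ M') :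
    barBeta Qbar l hM (jd M d h) = jd M' e h' :=
  Subtype.ext (by
    rw [coe_barBeta, coe_jd, coe_jd, qExpand_qExpand]
    exact qExpand_congr hde _)

theorem ramificationIndexAlong_pos' {M M' : ℕ} (φ : fieldBar Qbar M →ₐ[Qbar] fieldBar Qbar M')
    (hφ : φ.toRingHom.IsIntegral) (W : Place Qbar (fieldBar Qbar M')) :
    0 < W.ramificationIndexAlong φ := by
  let := algebraAlong φ
  have := isScalarTower_along φ
  have := isIntegral_along φ hφ
  exact Place.ramificationIndex_pos W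

section Prime

variable (ι : Qbar →+* ℂ) (q : ℕ) [NeZero q]

theorem ord_cInf_jd : (cInf ι q).ord (jd q q dvd_rfl) = -(q : ℤ) := by
  rw [ord_cInf ι q (jd_ne_zero q q dvd_rfl), coe_jd, jBar, ← jqModC_eq_coeffEmb Qbar,
    order_qExpand _ q (jqModC_ne_zero' Qbar), order_jqModC]
  ring

theorem coeffMap_jd_eq_qExpWeak :
    coeffMap ι (jd q q dvd_rfl : LaurentSeries Qbar) =
      qExpWeak q ⟨jScaleFun q, jScaleFun_mem_weakMod dvd_rfl⟩ := by
  rw [qExpWeak_apply, qExpL_jScaleFun, coe_jd, jBar, ← Corr.coeffEmb_qExpand,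
    coeffMap_coeffEmb_of_ringHom]

theorem ord_cZero_jd (hq : q.Prime) : (cZero ι q).ord (jd q q dvd_rfl) = -1 := by
  rw [cZero, ← order_cuspEval ι q ModularGroup.S (jd_ne_zero q q dvd_rfl)]
  have hG := jScaleFun_mem_weakMod (N := q) (dvd_refl q)
  have he : baseToCx ι q (jd q q dvd_rfl) =
      ⟨qExpWeak q ⟨jScaleFun q, hG⟩, qExpL_mem_modularFunctionFieldCx q hG⟩ :=
    Subtype.ext (coeffMap_jd_eq_qExpWeak ι q)
  have hfun : cuspFun q ModularGroup.S (jScaleFun q) = jFun := by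
    funext τ
    rw [cuspFun, cuspWidth_S q hq, jScaleFun_apply, ← jFun_smul ModularGroup.S τ]
    congr 1
    apply UpperHalfPlane.ext
    have hq0 : (q : ℂ) ≠ 0 := Nat.cast_ne_zero.mpr hq.ne_zero
    have hτ : (τ : ℂ) ≠ 0 := τ.ne_zero
    have hSinv : ((ModularGroup.S⁻¹ : SL(2, ℤ)) : Matrix (Fin 2) (Fin 2) ℤ) = !![0, 1; -1, 0] := by
      rw [Matrix.SpecialLinearGroup.coe_inv, ModularGroup.coe_S, Matrix.adjugate_fin_two]
      simp
    rw [ModularForm.coe_heckeDiagMatrix_smul hq.ne_zero,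
      UpperHalfPlane.coe_specialLinearGroup_apply,
      ModularForm.coe_heckeDiagMatrix_smul hq.ne_zero,
      UpperHalfPlane.coe_specialLinearGroup_apply]
    simp [hSinv, ModularGroup.coe_S]
    field_simp
  rw [he]
  erw [cuspEval_qExpWeak]
  rw [hfun, qExpL_jFun, ← jqModC_eq_coeffEmb, order_jqModC]

theorem ord_jd_nonneg (P : Place Qbar (fieldBar Qbar q))
    (hP : 0 ≤ P.ord (jB q Qbar)) : 0 ≤ P.ord (jd q q dvd_rfl) := by
  obtain ⟨ι⟩ := exists_embedding_Qbar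
  rw [jB_eq_jElem] at hP
  obtain ⟨τ, hτ, rfl⟩ := exists_ptPlace_eq ι q P hP
  have h := meromorphicOrderAt_ptPlace ι q τ hτ (jd_ne_zero q q dvd_rfl)
    ⟨jScaleFun q, jScaleFun_mem_weakMod dvd_rfl⟩ (coeffMap_jd_eq_qExpWeak ι q)
  have hd := UpperHalfPlane.mdifferentiable_iff.mp (mdifferentiable_jScaleFun q)
  have ha : AnalyticAt ℂ (jScaleFun q ∘ ofComplex) (τ : ℂ) :=
    hd.analyticAt (UpperHalfPlane.isOpen_upperHalfPlaneSet.mem_nhds τ.im_pos)
  have h0 := ha.meromorphicOrderAt_nonneg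
  rw [h] at h0
  have h' : (0 : ℤ) ≤ (ptIndex q τ : ℤ) * (ptPlace ι q τ hτ).ord (jd q q dvd_rfl) := by
    exact_mod_cast h0
  have := ptIndex_pos q τ
  by_contra hlt
  push Not at hlt
  nlinarith [hlt, this]

theorem cusp_cases (hq : q.Prime) (P : Place Qbar (fieldBar Qbar q)) :
    (0 ≤ P.ord (jB q Qbar) ∧ 0 ≤ P.ord (jd q q dvd_rfl)) ∨ P = cInf ι q ∨ P = cZero ι q := by
  rcases le_or_gt 0 (P.ord (jB q Qbar)) with h | h
  · exact Or.inl ⟨h, ord_jd_nonneg q P h⟩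
  · exact Or.inr (eq_cusp_of_ord_j_neg ι q hq P h)

end Prime

/-- For `q` prime and `q d ∣ M`, the pole orders of `j (d τ)` and `j (q d τ)`. -/
theorem cuspRel {M : ℕ} [NeZero M] {q : ℕ} (hq : q.Prime) {d e : ℕ} [NeZero d] [NeZero e]
    (hde : q * d = e) (hd : d ∣ M) (he : e ∣ M) (W : Place Qbar (fieldBar Qbar M)) :
    (0 ≤ W.ord (jd M d hd) ∧ 0 ≤ W.ord (jd M e he)) ∨
      (W.ord (jd M d hd) < 0 ∧ W.ord (jd M e he) = q * W.ord (jd M d hd)) ∨
      (W.ord (jd M e he) < 0 ∧ W.ord (jd M d hd) = q * W.ord (jd M e he)) := by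
  have : NeZero q := ⟨hq.ne_zero⟩
  obtain ⟨ι⟩ := exists_embedding_Qbar
  have hqd : q * d ∣ M := hde ▸ he
  have hφ := Corr.isIntegral_barBeta (levelFacts Qbar) (M := q) (M' := M) d hqd
  set φ := barBeta Qbar d hqd with hφdef
  set v := W.restrictAlong φ hφ with hv
  have hr := ramificationIndexAlong_pos' φ hφ W
  have h1 : W.ord (jd M d hd) = (W.ramificationIndexAlong φ : ℤ) * v.ord (jB q Qbar) := by
    rw [hv, ← Place.ord_restrictAlong φ hφ W, hφdef, ← jd_one,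
      barBeta_jd d hqd 1 (one_dvd q) (mul_one d) hd]
  have h2 : W.ord (jd M e he) = (W.ramificationIndexAlong φ : ℤ) * v.ord (jd q q dvd_rfl) := by
    rw [hv, ← Place.ord_restrictAlong φ hφ W, hφdef,
      barBeta_jd d hqd q dvd_rfl ((mul_comm d q).trans hde) he]
  have hr' : (0 : ℤ) < W.ramificationIndexAlong φ := by exact_mod_cast hr
  rcases cusp_cases ι q hq v with ⟨hA, hB⟩ | hA | hA
  · exact Or.inl ⟨h1 ▸ mul_nonneg hr'.le hA, h2 ▸ mul_nonneg hr'.le hB⟩
  · rw [hA, ord_cInf_j] at h1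
    rw [hA, ord_cInf_jd] at h2
    exact Or.inr (Or.inl ⟨by rw [h1]; linarith, by rw [h1, h2]; ring⟩)
  · rw [hA, ord_cZero_j ι q hq] at h1
    rw [hA, ord_cZero_jd ι q hq] at h2
    exact Or.inr (Or.inr ⟨by rw [h2]; linarith, by rw [h1, h2]; ring⟩)

end FermatLib.Mazur.Classes
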