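import Fermat.Agent.Mazur.Classes.CuspHecke

/-!
# The Galois action on the cusps and on the points of `X₀(p)`
-/

set_option autoImplicit false

noncomputable section

open ModularCurve AlgebraicCurve FermatLib.Modular FermatLib.Modular.Corr

namespace FermatLib.Mazur.Classes

local notation "Qbar" => AlgebraicClosure ℚ
local notation "Γℚ" => (AlgebraicClosure ℚ ≃ₐ[ℚ] AlgebraicClosure ℚ)

set_option linter.unusedSectionVars false

variable {p : ℕ} [NeZero p]

/-- A function with rational `q`-expansion is Galois fixed. -/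
theorem galois_smul_eq_of_rat (σ : Γℚ) {x : fieldBar Qbar p} {y : LaurentSeries ℚ}
    (h : (x : LaurentSeries Qbar) = coeffEmb Qbar y) :
    arithmeticGalois (modularFunctionFieldFull p) σ • x = x := by
  refine Subtype.ext ?_
  rw [coe_arithmeticGalois_smul, h, coeffEmb, coeffMap_coeffMap]
  exact coeffMap_congr (Subsingleton.elim _ _) y

theorem galois_smul_jB (σ : Γℚ) :
    arithmeticGalois (modularFunctionFieldFull p) σ • jB p Qbar = jB p Qbar :=
  galois_smul_eq_of_rat σ (jqModC_eq_coeffEmb Qbar)

theorem galois_smul_jB_inv (σ : Γℚ) :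
    arithmeticGalois (modularFunctionFieldFull p) σ • (jB p Qbar)⁻¹ = (jB p Qbar)⁻¹ := by
  rw [SemilinearAut.smul_def, map_inv₀, ← SemilinearAut.smul_def, galois_smul_jB]

theorem galois_smul_uB (hp : p.Prime) (σ : Γℚ) :
    arithmeticGalois (modularFunctionFieldFull p) σ • uB p hp = uB p hp :=
  galois_smul_eq_of_rat σ (uModC_eq_coeffEmb Qbar p)

theorem ord_galois_smul (σ : Γℚ) (P : Place Qbar (fieldBar Qbar p)) {f : fieldBar Qbar p}
    (hf : arithmeticGalois (modularFunctionFieldFull p) σ • f = f) :
    (arithmeticGalois (modularFunctionFieldFull p) σ • P).ord f = P.ord f := by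
  conv_lhs => rw [← hf]
  exact SemilinearAut.ord_smul _ P f

theorem ord_galois_smul_sub (σ : Γℚ) (P : Place Qbar (fieldBar Qbar p)) {f : fieldBar Qbar p}
    (hf : arithmeticGalois (modularFunctionFieldFull p) σ • f = f) {β : Qbar} (hβ : σ β = β) :
    (arithmeticGalois (modularFunctionFieldFull p) σ • P).ord (f - algebraMap Qbar _ β)
      = P.ord (f - algebraMap Qbar _ β) := by
  refine ord_galois_smul σ P ?_
  rw [SemilinearAut.smul_def, map_sub, ← SemilinearAut.smul_def, ← SemilinearAut.smul_def, hf,
    SemilinearAut.smul_def, toRingAut_arithmeticGalois, arithmeticRingAut_algebraMap, hβ]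

variable (ι : Qbar →+* ℂ)

theorem galois_smul_cInf (hp : p.Prime) (σ : Γℚ) :
    arithmeticGalois (modularFunctionFieldFull p) σ • cInf ι p = cInf ι p := by
  have h := ord_galois_smul σ (cInf ι p) (galois_smul_jB σ)
  rw [ord_cInf_j] at h
  rcases eq_cusp_of_ord_j_neg ι p hp _ (h.trans_lt (by norm_num)) with e | e
  · exact e
  · rw [e, ord_cZero_j ι p hp] at h
    have := hp.two_le
    omega

theorem galois_smul_cZero (hp : p.Prime) (σ : Γℚ) :
    arithmeticGalois (modularFunctionFieldFull p) σ • cZero ι p = cZero ι p := by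
  have h := ord_galois_smul σ (cZero ι p) (galois_smul_jB σ)
  rw [ord_cZero_j ι p hp] at h
  have := hp.two_le
  rcases eq_cusp_of_ord_j_neg ι p hp _ (h.trans_lt (by omega)) with e | e
  · rw [e, ord_cInf_j] at h
    omega
  · exact e

theorem galois_smul_cuspClass (hp : p.Prime) (σ : Γℚ) :
    σ • cuspClass ι p = cuspClass ι p := by
  rw [galois_smul_pic0_def, cuspClass]
  refine congrArg Pic0.mk (Subtype.ext ?_)
  show arithmeticGalois (modularFunctionFieldFull p) σ • cuspDivisor ι p = cuspDivisor ι p
  rw [cuspDivisor, smul_sub, SemilinearAut.smul_single, SemilinearAut.smul_single,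
    galois_smul_cInf ι hp, galois_smul_cZero ι hp]

variable (p) in
/-- `(x) - (0)`. -/
def pointDivisor (x : Place Qbar (fieldBar Qbar p)) : Divisor Qbar (fieldBar Qbar p) :=
  Finsupp.single x 1 - Finsupp.single (cZero ι p) 1

theorem pointDivisor_mem_degZero (x : Place Qbar (fieldBar Qbar p)) :
    pointDivisor p ι x ∈ Divisor.degZero (K := Qbar) (F := fieldBar Qbar p) := by
  rw [Divisor.mem_degZero, pointDivisor, map_sub, Divisor.degree_single, Divisor.degree_single,
    (curveFacts Qbar).deg_eq_one, (curveFacts Qbar).deg_eq_one]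
  ring

variable (p) in
/-- The class of `(x) - (0)`. -/
def pointClass (x : Place Qbar (fieldBar Qbar p)) : JZero p :=
  Pic0.mk ⟨pointDivisor p ι x, pointDivisor_mem_degZero ι x⟩

theorem galois_smul_pointClass (hp : p.Prime) (σ : Γℚ) (x : Place Qbar (fieldBar Qbar p))
    (hx : arithmeticGalois (modularFunctionFieldFull p) σ • x = x) :
    σ • pointClass p ι x = pointClass p ι x := by
  rw [galois_smul_pic0_def, pointClass]
  refine congrArg Pic0.mk (Subtype.ext ?_)
  show arithmeticGalois (modularFunctionFieldFull p) σ • pointDivisor p ι x = pointDivisor p ι x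
  rw [pointDivisor, smul_sub, SemilinearAut.smul_single, SemilinearAut.smul_single, hx,
    galois_smul_cZero ι hp]

end FermatLib.Mazur.Classes
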