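import Fermat.Agent.Mazur.Uniformization.Addition

/-! The discriminants of two lattices related by a cyclic isogeny of odd prime degree. -/

set_option autoImplicit false

noncomputable section

open Filter Topology FermatLib.Modular FermatLib.Mazur.Uniformization

namespace FermatLib.Mazur.Classes

/-- The discriminant `g₂³ - 27 g₃²` of a lattice. -/
def latticeDisc (L : PeriodPair) : ℂ := L.g₂ ^ 3 - 27 * L.g₃ ^ 2

variable (L : PeriodPair)

/-- Three pairwise incongruent points of exact order two modulo `L`. -/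
structure HalfTriple (u v w : ℂ) : Prop where
  two_u : u + u ∈ L.lattice
  two_v : v + v ∈ L.lattice
  two_w : w + w ∈ L.lattice
  hu : u ∉ L.lattice
  hv : v ∉ L.lattice
  hw : w ∉ L.lattice
  huv : u - v ∉ L.lattice
  huw : u - w ∉ L.lattice
  hvw : v - w ∉ L.lattice

theorem halfTriple_periods :
    HalfTriple L (L.ω₁ / 2) (L.ω₂ / 2) ((L.ω₁ + L.ω₂) / 2) := by
  have h1 := L.ω₁_mem_lattice
  have h2 := L.ω₂_mem_lattice
  have n1 := L.ω₁_div_two_notMem_lattice
  have n2 := L.ω₂_div_two_notMem_lattice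
  have n3 : (L.ω₁ + L.ω₂) / 2 ∉ L.lattice := by
    simpa [inv_mul_eq_div, add_div] using
      (L.mul_ω₁_add_mul_ω₂_mem_lattice (α := 1 / 2) (β := 1 / 2)).not.mpr (by norm_num)
  refine ⟨by rwa [add_halves], by rwa [add_halves], by rw [add_halves]; exact add_mem h1 h2,
    n1, n2, n3, ?_, ?_, ?_⟩
  · intro h
    refine n3 ?_
    have := add_mem h h2
    rwa [show L.ω₁ / 2 - L.ω₂ / 2 + L.ω₂ = (L.ω₁ + L.ω₂) / 2 by ring] at this
  · intro h
    refine n2 ?_
    rwa [show L.ω₁ / 2 - (L.ω₁ + L.ω₂) / 2 = -(L.ω₂ / 2) by ring, neg_mem_iff] at h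
  · intro h
    refine n1 ?_
    rwa [show L.ω₂ / 2 - (L.ω₁ + L.ω₂) / 2 = -(L.ω₁ / 2) by ring, neg_mem_iff] at h

theorem derivWeierstrassP_half {u : ℂ} (h : u + u ∈ L.lattice) :
    L.derivWeierstrassP u = 0 := by
  have h1 := L.derivWeierstrassP_add_coe (-u) ⟨_, h⟩
  rw [show -u + ((⟨_, h⟩ : L.lattice) : ℂ) = u by simp, L.derivWeierstrassP_neg] at h1
  exact CharZero.eq_neg_self_iff.mp h1

namespace HalfTriple

variable {L} {u v w : ℂ} (H : HalfTriple L u v w)
include H

theorem distinct : L.weierstrassP u ≠ L.weierstrassP v ∧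
    L.weierstrassP u ≠ L.weierstrassP w ∧ L.weierstrassP v ≠ L.weierstrassP w := by
  refine ⟨fun h => H.huv (sub_mem_lattice_of_eq L H.hu H.hv h ?_),
    fun h => H.huw (sub_mem_lattice_of_eq L H.hu H.hw h ?_),
    fun h => H.hvw (sub_mem_lattice_of_eq L H.hv H.hw h ?_)⟩ <;>
  simp [derivWeierstrassP_half L, H.two_u, H.two_v, H.two_w]

theorem symm_functions :
    L.weierstrassP u + L.weierstrassP v + L.weierstrassP w = 0 ∧
      L.g₂ = -4 * (L.weierstrassP u * L.weierstrassP v + L.weierstrassP u * L.weierstrassP w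
        + L.weierstrassP v * L.weierstrassP w) ∧
      L.g₃ = 4 * (L.weierstrassP u * L.weierstrassP v * L.weierstrassP w) := by
  obtain ⟨d1, d2, d3⟩ := H.distinct
  have eu := L.derivWeierstrassP_sq u H.hu
  have ev := L.derivWeierstrassP_sq v H.hv
  have ew := L.derivWeierstrassP_sq w H.hw
  rw [derivWeierstrassP_half L H.two_u] at eu
  rw [derivWeierstrassP_half L H.two_v] at ev
  rw [derivWeierstrassP_half L H.two_w] at ew
  set a := L.weierstrassP u
  set b := L.weierstrassP v
  set c := L.weierstrassP w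
  have k1 : 4 * (a ^ 2 + a * b + b ^ 2) = L.g₂ := by
    apply mul_left_cancel₀ (sub_ne_zero.mpr d1)
    linear_combination -eu + ev
  have k2 : 4 * (a ^ 2 + a * c + c ^ 2) = L.g₂ := by
    apply mul_left_cancel₀ (sub_ne_zero.mpr d2)
    linear_combination -eu + ew
  have hs : a + b + c = 0 := by
    apply mul_left_cancel₀ (sub_ne_zero.mpr d3)
    linear_combination (1 / 4 : ℂ) * k1 - (1 / 4 : ℂ) * k2
  refine ⟨hs, ?_, ?_⟩
  · linear_combination -k1 + (4 * (a + b)) * hs
  · have hg : L.g₂ = -4 * (a * b + a * c + b * c) := by linear_combination -k1 + (4 * (a + b)) * hs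
    linear_combination eu - a * hg + (4 * a ^ 2) * hs

theorem cubic_eq (X : ℂ) : 4 * X ^ 3 - L.g₂ * X - L.g₃ =
    4 * ((X - L.weierstrassP u) * (X - L.weierstrassP v) * (X - L.weierstrassP w)) := by
  obtain ⟨hs, h2, h3⟩ := H.symm_functions
  rw [h2, h3]
  linear_combination (4 * X ^ 2) * hs

theorem disc_eq : latticeDisc L = 16 * ((L.weierstrassP u - L.weierstrassP v) *
    (L.weierstrassP u - L.weierstrassP w) * (L.weierstrassP v - L.weierstrassP w)) ^ 2 := by
  obtain ⟨hs, h2, h3⟩ := H.symm_functions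
  have hc : L.weierstrassP w = -(L.weierstrassP u + L.weierstrassP v) := by linear_combination hs
  rw [latticeDisc, h2, h3, hc]
  ring

theorem disc_ne_zero : latticeDisc L ≠ 0 := by
  obtain ⟨d1, d2, d3⟩ := H.distinct
  rw [H.disc_eq]
  simp [sub_eq_zero, d1, d2, d3]

/-- The product of the three values of `℘''`. -/
theorem prod_second :
    (6 * L.weierstrassP u ^ 2 - L.g₂ / 2) * (6 * L.weierstrassP v ^ 2 - L.g₂ / 2) *
      (6 * L.weierstrassP w ^ 2 - L.g₂ / 2) = -latticeDisc L / 2 := by
  obtain ⟨hs, h2, h3⟩ := H.symm_functions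
  have hc : L.weierstrassP w = -(L.weierstrassP u + L.weierstrassP v) := by linear_combination hs
  rw [H.disc_eq, h2, hc]
  ring

end HalfTriple

/-- Translation of `℘'` by a point of order two. -/
theorem derivWeierstrassP_add_half {t u : ℂ} (h2 : u + u ∈ L.lattice) (hu : u ∉ L.lattice)
    (ht : t + t ∉ L.lattice) :
    L.derivWeierstrassP (t + u) * (L.weierstrassP t - L.weierstrassP u) ^ 2 =
      -(L.derivWeierstrassP t * ((6 * L.weierstrassP u ^ 2 - L.g₂ / 2) / 2)) ∧
      L.weierstrassP t ≠ L.weierstrassP u := by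
  have ht1 : t ∉ L.lattice := fun h => ht (add_mem h h)
  have htu : t + u ∉ L.lattice := fun h => ht (by
    have := sub_mem (add_mem h h) h2
    rwa [show t + u + (t + u) - (u + u) = t + t by ring] at this)
  have hne : L.weierstrassP t ≠ L.weierstrassP u := fun e => ht (by
    have := sub_mem_of_weierstrassP_eq L ht1 hu htu e
    have := add_mem (add_mem this this) h2
    rwa [show t - u + (t - u) + (u + u) = t + t by ring] at this)
  refine ⟨?_, hne⟩
  obtain ⟨h1, h2'⟩ := chord_relations L ht1 hu htu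
  have et := L.derivWeierstrassP_sq t ht1
  have eu := L.derivWeierstrassP_sq u hu
  rw [derivWeierstrassP_half L h2] at h1 h2' eu
  set d := L.weierstrassP t - L.weierstrassP u with hd
  have hX : (L.weierstrassP (t + u) - L.weierstrassP u) * d =
      (6 * L.weierstrassP u ^ 2 - L.g₂ / 2) / 2 := by
    apply mul_left_cancel₀ (show d ≠ 0 from sub_ne_zero.mpr hne)
    linear_combination h1 + (1 / 4 : ℂ) * et - (1 / 4 : ℂ) * eu
  linear_combination d * h2' - L.derivWeierstrassP t * hX

theorem HalfTriple.prod_shift {u v w t : ℂ} (H : HalfTriple L u v w) (ht : t + t ∉ L.lattice) :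
    L.derivWeierstrassP (t + u) * L.derivWeierstrassP (t + v) * L.derivWeierstrassP (t + w) *
      L.derivWeierstrassP t = latticeDisc L := by
  obtain ⟨a, na⟩ := derivWeierstrassP_add_half L H.two_u H.hu ht
  obtain ⟨b, nb⟩ := derivWeierstrassP_add_half L H.two_v H.hv ht
  obtain ⟨c, nc⟩ := derivWeierstrassP_add_half L H.two_w H.hw ht
  have et := (L.derivWeierstrassP_sq t fun h => ht (add_mem h h)).trans (H.cubic_eq _)
  have hprod := H.prod_second
  set y := L.derivWeierstrassP t
  set du := L.weierstrassP t - L.weierstrassP u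
  set dv := L.weierstrassP t - L.weierstrassP v
  set dw := L.weierstrassP t - L.weierstrassP w
  have key : L.derivWeierstrassP (t + u) * L.derivWeierstrassP (t + v) *
      L.derivWeierstrassP (t + w) * (du * dv * dw) ^ 2 = y ^ 3 * latticeDisc L / 16 := by
    calc _ = (L.derivWeierstrassP (t + u) * du ^ 2) * (L.derivWeierstrassP (t + v) * dv ^ 2) *
          (L.derivWeierstrassP (t + w) * dw ^ 2) := by ring
      _ = _ := by rw [a, b, c]; linear_combination (-y ^ 3 / 8) * hprod
  have hy : du * dv * dw = y ^ 2 / 4 := by linear_combination (-1 / 4 : ℂ) * et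
  have hy0 : y ≠ 0 := fun h => by
    rw [h] at hy
    simp [du, dv, dw, sub_eq_zero, na, nb, nc] at hy
  rw [hy] at key
  apply mul_left_cancel₀ (pow_ne_zero 3 hy0)
  linear_combination (16 : ℂ) * key

/-- `L'` is the lattice generated by `L` and a point `α` of exact odd prime order `p`. -/
structure IsCyclicExtension (L L' : PeriodPair) (α : ℂ) (p : ℕ) : Prop where
  prime : p.Prime
  ne_two : p ≠ 2
  mem_iff : ∀ z, z ∈ L'.lattice ↔ ∃ k < p, z + (k : ℂ) * α ∈ L.lattice
  mul_mem : (p : ℂ) * α ∈ L.lattice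
  notMem : ∀ k : ℕ, 0 < k → k < p → (k : ℂ) * α ∉ L.lattice

/-- The product of `℘'` over the translates of `z` by the nonzero multiples of `α`. -/
def translateProd (α : ℂ) (p : ℕ) (z : ℂ) : ℂ :=
  ∏ k ∈ Finset.Ico 1 p, L.derivWeierstrassP (z + (k : ℂ) * α)

namespace IsCyclicExtension

variable {L} {L' : PeriodPair} {α : ℂ} {p : ℕ} (C : IsCyclicExtension L L' α p)
include C

theorem odd : Odd p := C.prime.odd_of_ne_two C.ne_two

theorem le {z : ℂ} (hz : z ∈ L.lattice) : z ∈ L'.lattice :=
  (C.mem_iff z).2 ⟨0, C.prime.pos, by simpa using hz⟩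

theorem gen_mem : α ∈ L'.lattice := by
  refine (C.mem_iff α).2 ⟨p - 1, Nat.sub_lt C.prime.pos one_pos, ?_⟩
  rw [Nat.cast_sub C.prime.one_le, show α + ((p : ℂ) - (1 : ℕ)) * α = (p : ℂ) * α by push_cast; ring]
  exact C.mul_mem

theorem natMul_mem (k : ℕ) : (k : ℂ) * α ∈ L'.lattice := by
  rw [← nsmul_eq_mul]
  exact nsmul_mem C.gen_mem k

theorem mul_mem' {z : ℂ} (hz : z ∈ L'.lattice) : (p : ℂ) * z ∈ L.lattice := by
  obtain ⟨k, -, hk⟩ := (C.mem_iff z).1 hz
  have h1 : p • (z + (k : ℂ) * α) - k • ((p : ℂ) * α) ∈ L.lattice :=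
    sub_mem (nsmul_mem hk p) (nsmul_mem C.mul_mem k)
  rwa [nsmul_eq_mul, nsmul_eq_mul,
    show (p : ℂ) * (z + (k : ℂ) * α) - (k : ℂ) * ((p : ℂ) * α) = (p : ℂ) * z by ring] at h1

theorem mem_of_two {z : ℂ} (hz : z ∈ L'.lattice) (h2 : z + z ∈ L.lattice) : z ∈ L.lattice := by
  obtain ⟨m, hm⟩ := C.odd
  have h1 := sub_mem (C.mul_mem' hz) (nsmul_mem h2 m)
  rwa [nsmul_eq_mul, hm,
    show ((2 * m + 1 : ℕ) : ℂ) * z - (m : ℂ) * (z + z) = z by push_cast; ring] at h1

theorem halfTriple {u v w : ℂ} (H : HalfTriple L u v w) : HalfTriple L' u v w where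
  two_u := C.le H.two_u
  two_v := C.le H.two_v
  two_w := C.le H.two_w
  hu h := H.hu (C.mem_of_two h H.two_u)
  hv h := H.hv (C.mem_of_two h H.two_v)
  hw h := H.hw (C.mem_of_two h H.two_w)
  huv h := H.huv (C.mem_of_two h (by
    have := sub_mem H.two_u H.two_v
    rwa [show u + u - (v + v) = u - v + (u - v) by ring] at this))
  huw h := H.huw (C.mem_of_two h (by
    have := sub_mem H.two_u H.two_w
    rwa [show u + u - (w + w) = u - w + (u - w) by ring] at this))
  hvw h := H.hvw (C.mem_of_two h (by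
    have := sub_mem H.two_v H.two_w
    rwa [show v + v - (w + w) = v - w + (v - w) by ring] at this))

theorem add_natMul_notMem {z : ℂ} (hz : z ∉ L'.lattice) (k : ℕ) :
    z + (k : ℂ) * α ∉ L.lattice := fun h => hz (by
  simpa using sub_mem (C.le h) (C.natMul_mem k))

theorem two_natMul_notMem {k : ℕ} (h0 : 0 < k) (hk : k < p) :
    (k : ℂ) * α + (k : ℂ) * α ∉ L.lattice := fun h =>
  C.notMem k h0 hk (C.mem_of_two (C.natMul_mem k) h)

omit C in
theorem analyticAt_translateProd {z : ℂ}
    (hz : ∀ k ∈ Finset.Ico 1 p, z + (k : ℂ) * α ∉ L.lattice) :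
    AnalyticAt ℂ (translateProd L α p) z := by
  refine Finset.analyticAt_fun_prod _ fun k hk => ?_
  exact AnalyticAt.fun_comp (g := L.derivWeierstrassP) (f := fun z => z + (k : ℂ) * α)
    (L.analyticOnNhd_derivWeierstrassP _ (hz k hk)) (by fun_prop)

theorem translateProd_neg (z : ℂ) : translateProd L α p (-z) = translateProd L α p z := by
  have hp := C.prime.one_le
  have hcard : Even (Finset.Ico 1 p).card := by
    obtain ⟨m, hm⟩ := C.odd
    exact ⟨m, by simp; omega⟩
  calc translateProd L α p (-z)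
      = ∏ k ∈ Finset.Ico 1 p, -L.derivWeierstrassP (z + ((p - k : ℕ) : ℂ) * α) := by
        refine Finset.prod_congr rfl fun k hk => ?_
        rw [← L.derivWeierstrassP_neg,
          ← L.derivWeierstrassP_add_coe (-(z + ((p - k : ℕ) : ℂ) * α)) ⟨_, C.mul_mem⟩]
        congr 1
        rw [Nat.cast_sub (Finset.mem_Ico.mp hk).2.le]
        simp only
        ring
    _ = ∏ k ∈ Finset.Ico 1 p, L.derivWeierstrassP (z + ((p - k : ℕ) : ℂ) * α) := by
        rw [Finset.prod_neg, hcard.neg_one_pow, one_mul]
    _ = translateProd L α p z := by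
        refine Finset.prod_nbij' (fun k => p - k) (fun k => p - k) ?_ ?_ ?_ ?_ fun k hk => rfl <;>
          intro k hk <;> simp only [Finset.mem_Ico] at hk ⊢ <;> omega

/-- `℘'(z) · ∏ ℘'(z + kα)` is periodic modulo `L'`. -/
theorem periodic_mul {l : ℂ} (hl : l ∈ L'.lattice) :
    Function.Periodic (fun z => L.derivWeierstrassP z * translateProd L α p z) l := by
  have hfull : ∀ z, L.derivWeierstrassP z * translateProd L α p z =
      ∏ k ∈ Finset.range p, L.derivWeierstrassP (z + (k : ℂ) * α) := fun z => by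
    rw [Finset.range_eq_Ico, Finset.prod_eq_prod_Ico_succ_bot C.prime.pos]
    simp [translateProd]
  simp only [hfull]
  have hL : ∀ l ∈ L.lattice, Function.Periodic
      (fun z => ∏ k ∈ Finset.range p, L.derivWeierstrassP (z + (k : ℂ) * α)) l := fun l hl z =>
    Finset.prod_congr rfl fun k _ => by
      rw [add_right_comm]
      exact L.derivWeierstrassP_add_coe _ ⟨l, hl⟩
  have hα : Function.Periodic
      (fun z => ∏ k ∈ Finset.range p, L.derivWeierstrassP (z + (k : ℂ) * α)) α := fun z => by
    obtain ⟨m, hm⟩ : ∃ m, p = m + 1 := ⟨p - 1, by have := C.prime.pos; omega⟩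
    have e : L.derivWeierstrassP (z + ((m + 1 : ℕ) : ℂ) * α) = L.derivWeierstrassP z := by
      rw [← hm]
      exact L.derivWeierstrassP_add_coe z ⟨_, C.mul_mem⟩
    simp only [hm]
    rw [Finset.prod_range_succ, Finset.prod_range_succ']
    simp only [Nat.cast_zero, zero_mul, add_zero]
    rw [← e]
    simp only [Nat.cast_add, Nat.cast_one, add_mul, one_mul]
    congr 1
    · exact Finset.prod_congr rfl fun k _ => by ring_nf
    · ring_nf
  obtain ⟨k, -, hk⟩ := (C.mem_iff l).1 hl
  intro z
  have h1 := hL _ hk z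
  have h2 := (hα.nat_mul k) (z + l)
  simp only [← add_assoc] at h1 h2
  exact h2.symm.trans h1

end IsCyclicExtension

theorem jlatAux_neg (z : ℂ) : jlatAux L (-z) = jlatAux L z := by
  simp [jlatAux, L.weierstrassPExcept_neg]

theorem jlatAux'_neg (z : ℂ) : jlatAux' L (-z) = jlatAux' L z := by
  have h : deriv (fun x => jlatAux L (-x)) z = -deriv (jlatAux L) (-z) :=
    deriv_comp_neg _ _
  rw [show (fun x => jlatAux L (-x)) = jlatAux L from funext (jlatAux_neg L)] at h
  rw [jlatAux', jlatAux', jlatAux_neg, h]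
  ring

theorem deriv_eq_zero_of_even {F : ℂ → ℂ} (h : ∀ z, F (-z) = F z) : deriv F 0 = 0 := by
  have h1 : deriv (fun x => F (-x)) 0 = -deriv F (-0) := deriv_comp_neg _ _
  rw [show (fun x => F (-x)) = F from funext h, neg_zero] at h1
  exact CharZero.eq_neg_self_iff.mp h1

theorem exists_sq_mul_eq {F : ℂ → ℂ} (hF : AnalyticAt ℂ F 0) (h0 : F 0 = 0) (h1 : deriv F 0 = 0) :
    ∃ R : ℂ → ℂ, AnalyticAt ℂ R 0 ∧ (∀ z, F z = z ^ 2 * R z) ∧
      ((∀ z, F (-z) = F z) → ∀ z, R (-z) = R z) := by
  obtain ⟨q, hq⟩ := hF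
  have key : ∀ z, F z = z ^ 2 * dslope (dslope F 0) 0 z := fun z => by
    have e1 := sub_smul_dslope F 0 z
    have e2 := sub_smul_dslope (dslope F 0) 0 z
    simp only [sub_zero, smul_eq_mul, dslope_same, h0, h1] at e1 e2
    rw [← e1, ← e2]
    ring
  refine ⟨dslope (dslope F 0) 0,
    ⟨_, hq.has_fpower_series_dslope_fslope.has_fpower_series_dslope_fslope⟩, key,
    fun he z => ?_⟩
  rcases eq_or_ne z 0 with rfl | hz
  · simp
  · have := he z
    rw [key, key, neg_sq] at this
    exact mul_left_cancel₀ (pow_ne_zero 2 hz) this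

namespace IsCyclicExtension

variable {L} {L' : PeriodPair} {α : ℂ} {p : ℕ} (C : IsCyclicExtension L L' α p)
include C

theorem mul_translateProd_eq {z : ℂ} (hz : z ∉ L'.lattice) :
    L.derivWeierstrassP z * translateProd L α p z =
      translateProd L α p 0 * L'.derivWeierstrassP z := by
  set P := translateProd L α p 0
  set Q := translateProd L α p
  set f : ℂ → ℂ := fun z => L.derivWeierstrassP z * Q z - P * L'.derivWeierstrassP z with hfdef
  have hper : ∀ l ∈ L'.lattice, Function.Periodic f l := fun l hl z => by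
    simp only [hfdef]
    have h1 := C.periodic_mul hl z
    simp only at h1
    rw [h1, (L'.periodic_derivWeierstrassP ⟨l, hl⟩) z]
  have hodd : ∀ z, f (-z) = -f z := fun z => by
    simp only [hfdef, Q, L.derivWeierstrassP_neg, L'.derivWeierstrassP_neg, C.translateProd_neg]
    ring
  have hQ : AnalyticAt ℂ Q 0 := IsCyclicExtension.analyticAt_translateProd (α := α) (p := p) fun k hk => by
    simpa using C.notMem k (Finset.mem_Ico.mp hk).1 (Finset.mem_Ico.mp hk).2
  have hfan : ∀ z, z ∉ L'.lattice → AnalyticAt ℂ f z := fun z hz => by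
    have := L.analyticOnNhd_derivWeierstrassP z fun h => hz (C.le h)
    have := L'.analyticOnNhd_derivWeierstrassP z hz
    have := IsCyclicExtension.analyticAt_translateProd (α := α) (p := p) (z := z) fun k _ => C.add_natMul_notMem hz k
    show AnalyticAt ℂ (fun z => _) z
    fun_prop
  -- the cubic pole cancels
  set N : ℂ → ℂ := fun z => jlatAux' L z * Q z - P * jlatAux' L' z
  have hNeven : ∀ z, N (-z) = N z := fun z => by
    simp [N, Q, jlatAux'_neg, C.translateProd_neg]
  have hNan : AnalyticAt ℂ N 0 := by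
    have := analyticAt_jlatAux' L
    have := analyticAt_jlatAux' L'
    show AnalyticAt ℂ (fun z => _) 0
    fun_prop
  obtain ⟨M, hM, hNM, hMeven⟩ := exists_sq_mul_eq hNan
    (by simp [N, Q, P, jlatAux'_zero]; ring) (deriv_eq_zero_of_even hNeven)
  set r := M 0 with hr
  set S : ℂ → ℂ := fun z => M z ^ 2 - r ^ 2 * jlatAux L' z
  have hSan : AnalyticAt ℂ S 0 := by
    have := analyticAt_jlatAux L'
    show AnalyticAt ℂ (fun z => _) 0
    fun_prop
  have hS1 : HasDerivAt S 0 0 := by
    have hM' := hM.differentiableAt.hasDerivAt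
    rw [deriv_eq_zero_of_even (hMeven hNeven)] at hM'
    refine ((hM'.fun_pow 2).fun_sub ((hasDerivAt_jlatAux_zero L').const_mul (r ^ 2))).congr_deriv ?_
    simp
  obtain ⟨R, hR, hSR, -⟩ := exists_sq_mul_eq hSan (by simp [S, r, jlatAux_zero]) hS1.deriv
  set g : ℂ → ℂ := fun z => f z ^ 2 - r ^ 2 * L'.weierstrassP z
  classical
  set G : ℂ → ℂ := fun z => if z ∈ L'.lattice then R 0 else g z
  have hG0 : G =ᶠ[𝓝 0] R := by
    have hev := eventually_notMem_lattice L'
    rw [eventually_nhdsWithin_iff] at hev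
    filter_upwards [hev] with w hw
    rcases eq_or_ne w 0 with rfl | hw0
    · simp [G, zero_mem]
    · have hwL' := hw hw0
      have hwL : w ∉ L.lattice := fun h => hwL' (C.le h)
      have e1 := hNM w
      have e2 := hSR w
      simp only [N, S, jlatAux'_eq L hw0 hwL, jlatAux'_eq L' hw0 hwL', jlatAux_eq L' hw0] at e1 e2
      have e3 : w * f w = M w := by
        apply mul_left_cancel₀ (pow_ne_zero 2 hw0)
        simp only [hfdef]
        linear_combination e1
      show (if w ∈ L'.lattice then R 0 else g w) = R w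
      rw [if_neg hwL']
      apply mul_left_cancel₀ (pow_ne_zero 2 hw0)
      simp only [g]
      linear_combination e2 + (w * f w + M w) * e3
  have hGper : ∀ x l, l ∈ L'.lattice → G (x + l) = G x := fun x l hl => by
    simp only [G, g, add_mem_cancel_right hl, hper l hl x,
      (L'.periodic_weierstrassP ⟨l, hl⟩) x]
  have hGan : Differentiable ℂ G := fun x => by
    refine AnalyticAt.differentiableAt ?_
    by_cases hx : x ∈ L'.lattice
    · have h0 : AnalyticAt ℂ G (x + -x) := by
        rw [add_neg_cancel]; exact hR.congr hG0.symm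
      have h := AnalyticAt.fun_comp (g := G) (f := fun y => y + -x) h0 (by fun_prop)
      exact h.congr (Eventually.of_forall fun y => hGper y (-x) (neg_mem hx))
    · have h : AnalyticAt ℂ g x := by
        have := hfan x hx
        have := L'.analyticOnNhd_weierstrassP x hx
        show AnalyticAt ℂ (fun z => _) x
        fun_prop
      refine h.congr ?_
      filter_upwards [L'.isClosed_lattice.isOpen_compl.mem_nhds hx] with y hy
      exact (if_neg hy).symm
  have hconst : ∀ x, G x = G 0 := fun x =>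
    hGan.apply_eq_apply_of_bounded (IsZLattice.isCompact_range_of_periodic L'.lattice _
      hGan.continuous fun z w hw => hGper z w hw).isBounded x 0
  have hfsq : ∀ x, x ∉ L'.lattice → f x ^ 2 = r ^ 2 * L'.weierstrassP x + G 0 := fun x hx => by
    have := hconst x
    simp only [G, if_neg hx, g] at this ⊢
    linear_combination this
  -- evaluation at two half periods
  have H := halfTriple_periods L'
  have hzero : ∀ u, u + u ∈ L'.lattice → f u = 0 := fun u hu => by
    have h := hper _ hu (-u)
    rw [show -u + (u + u) = u by ring, hodd] at h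
    exact CharZero.eq_neg_self_iff.mp h
  have hA := hfsq _ H.hu
  have hB := hfsq _ H.hv
  rw [hzero _ H.two_u] at hA
  rw [hzero _ H.two_v] at hB
  have hr0 : r ^ 2 = 0 := by
    apply mul_left_cancel₀ (sub_ne_zero.mpr H.distinct.1)
    linear_combination hB - hA
  have hG00 : G 0 = 0 := by
    rw [hr0] at hA
    linear_combination -hA
  have := hfsq z hz
  rw [hr0, hG00] at this
  refine sub_eq_zero.mp (pow_eq_zero_iff (n := 2) two_ne_zero |>.mp ?_)
  simp only [hfdef] at this
  linear_combination this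

theorem second_at_half {u : ℂ} (h2 : u + u ∈ L.lattice) (hu : u ∉ L.lattice) :
    translateProd L α p 0 * (6 * L'.weierstrassP u ^ 2 - L'.g₂ / 2) =
      (6 * L.weierstrassP u ^ 2 - L.g₂ / 2) * translateProd L α p u := by
  have hu' : u ∉ L'.lattice := fun h => hu (C.mem_of_two h h2)
  have hQ := (IsCyclicExtension.analyticAt_translateProd (α := α) (p := p) fun k _ => C.add_natMul_notMem hu' k).differentiableAt
  have hd := (hasDerivAt_derivWeierstrassP L hu).fun_mul hQ.hasDerivAt
  have he : (fun z => L.derivWeierstrassP z * translateProd L α p z) =ᶠ[𝓝 u]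
      fun z => translateProd L α p 0 * L'.derivWeierstrassP z := by
    filter_upwards [L'.isClosed_lattice.isOpen_compl.mem_nhds hu'] with z hz
    exact C.mul_translateProd_eq hz
  have := ((hasDerivAt_derivWeierstrassP L' hu').const_mul (translateProd L α p 0)
    |>.congr_of_eventuallyEq he).unique hd
  rw [this, derivWeierstrassP_half L h2]
  ring

/-- The discriminants of two lattices related by a cyclic isogeny of odd prime degree. -/
theorem disc_mul_pow :
    latticeDisc L' * translateProd L α p 0 ^ 4 = latticeDisc L ^ p := by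
  have H := halfTriple_periods L
  set u := L.ω₁ / 2
  set v := L.ω₂ / 2
  set w := (L.ω₁ + L.ω₂) / 2
  have a := C.second_at_half H.two_u H.hu
  have b := C.second_at_half H.two_v H.hv
  have c := C.second_at_half H.two_w H.hw
  set P := translateProd L α p 0 with hP
  have hQ : translateProd L α p u * translateProd L α p v * translateProd L α p w * P =
      latticeDisc L ^ (p - 1) := by
    simp only [hP, translateProd, ← Finset.prod_mul_distrib]
    rw [Finset.prod_congr rfl (g := fun _ => latticeDisc L) fun k hk => ?_]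
    · simp
    · have := H.prod_shift L (C.two_natMul_notMem (Finset.mem_Ico.mp hk).1 (Finset.mem_Ico.mp hk).2)
      rw [add_comm u, add_comm v, add_comm w, zero_add]
      exact this
  have hL := H.prod_second
  have hL' := (C.halfTriple H).prod_second
  set a' := 6 * L'.weierstrassP u ^ 2 - L'.g₂ / 2
  set b' := 6 * L'.weierstrassP v ^ 2 - L'.g₂ / 2
  set c' := 6 * L'.weierstrassP w ^ 2 - L'.g₂ / 2
  set Qu := translateProd L α p u
  set Qv := translateProd L α p v
  set Qw := translateProd L α p w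
  obtain ⟨m, hm⟩ : ∃ m, p = m + 1 := ⟨p - 1, by have := C.prime.pos; omega⟩
  rw [show p - 1 = m by omega] at hQ
  rw [hm, pow_succ]
  have key : P * a' * (P * b') * (P * c') * P =
      (-latticeDisc L / 2) * (Qu * Qv * Qw * P) := by
    rw [a, b, c, ← hL]
    ring
  rw [hQ] at key
  linear_combination (-2 : ℂ) * key + (2 * P ^ 4) * hL'

end IsCyclicExtension

end FermatLib.Mazur.Classes
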