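import Mathlib.AlgebraicGeometry.EllipticCurve.Affine.Point

/-! The value of `2y + a₁ x + a₃` at a point of a Weierstrass curve. -/

set_option autoImplicit false

noncomputable section

open scoped WeierstrassCurve.Affine

namespace FermatLib.Mazur.Classes

/-- `2y + a₁ x + a₃` at an affine point, `0` at the origin. -/
def psi2 {F : Type*} [CommRing F] (W : WeierstrassCurve F) : W.toAffine.Point → F
  | .zero => 0
  | .some x y _ => 2 * y + W.a₁ * x + W.a₃

variable {R S F K : Type*} [CommRing R] [CommRing S] [Field F] [Field K] [DecidableEq F]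
  [DecidableEq K] [Algebra R S] [Algebra R F] [Algebra S F] [IsScalarTower R S F] [Algebra R K]
  [Algebra S K] [IsScalarTower R S K]

theorem psi2_map (W : WeierstrassCurve R) (f : F →ₐ[S] K) (P : (W⁄F).Point) :
    psi2 (W⁄K).toAffine (WeierstrassCurve.Affine.Point.map f P) = f (psi2 (W⁄F).toAffine P) := by
  have h : ∀ r : R, algebraMap R K r = f (algebraMap R F r) := fun r => by
    rw [IsScalarTower.algebraMap_apply R S K, IsScalarTower.algebraMap_apply R S F, f.commutes]
  rcases P with _ | ⟨x, y, hxy⟩
  · exact (map_zero f).symm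
  · show 2 * f y + algebraMap R K W.a₁ * f x + algebraMap R K W.a₃ =
      f (2 * y + algebraMap R F W.a₁ * x + algebraMap R F W.a₃)
    rw [h, h, map_add, map_add, map_mul, map_mul, map_ofNat]

end FermatLib.Mazur.Classes
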