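import Fermat.Agent.EC.RedBridge
import Fermat.Agent.EC.RedTorsion
import Fermat.Agent.Mazur.Classes.PsiValue
import Fermat.Prelude.Def_FLTPrelim_Ramification

/-!
# The value of `Δ(τ)/Δ(pτ)` at a point of multiplicative reduction

For `Q` of order `p` on an integer curve, `betaValue p W Q` is not integral at a multiplicative
place where `Q` meets the identity component, and is small against `j ^ (p - 1)` otherwise.
-/

set_option autoImplicit false

noncomputable section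

open WeierstrassCurve
open scoped WeierstrassCurve.Affine

namespace FermatLib.Mazur.Classes

open FermatLib.EC

local notation "Qbar" => AlgebraicClosure ℚ
local notation "Γℚ" => (AlgebraicClosure ℚ ≃ₐ[ℚ] AlgebraicClosure ℚ)

section Place

variable {L : Type*} [Field L] [DecidableEq L] {A : ValuationSubring L} {V : WeierstrassCurve L}

omit [DecidableEq L] in
/-- The value of `2y + a₁ x + a₃` at a point with singular reduction is small. -/
theorem res_psi2_of_not_inE0 (hV : IntegralAt A V) {P : V.toAffine.Point} (hP : ¬ InE0 A P) :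
    psi2 V P ∈ A ∧ res A (psi2 V P) = 0 := by
  rcases P with _ | ⟨x, y, h⟩
  · exact absurd trivial hP
  rw [inE0_some] at hP
  push Not at hP
  obtain ⟨hx, hP⟩ := hP
  have hy := hV.mem_y h.1 hx
  refine ⟨hV.mem_polynomialY hx hy, ?_⟩
  by_contra hne
  exact hP hx hy ((hV.nonsingular_red_iff h.1 hx).mpr
    (Or.inr ((res_ne_zero_iff (hV.mem_polynomialY hx hy)).mp hne)))

/-- At a torsion point of odd order prime to the residue characteristic with nonsingular
reduction, `2y + a₁ x + a₃` is a unit. -/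
theorem res_psi2_of_inE0 (hV : IntegralAt A V) {n : ℕ} (hn : res A (n : L) ≠ 0)
    {P : V.toAffine.Point} (hP : InE0 A P) (hP0 : P ≠ 0) (hnP : n • P = 0)
    (hneg : P ≠ -P) : psi2 V P ∈ A ∧ res A (psi2 V P) ≠ 0 := by
  rcases P with _ | ⟨x, y, h⟩
  · exact absurd rfl hP0
  have hx : x ∈ A := by
    by_contra hx
    exact hP0 (inE1_eq_zero_of_nsmul_eq_zero hV hn hx hnP)
  rw [inE0_some] at hP
  obtain ⟨-, hy, hns⟩ := hP.resolve_left (not_not.mpr hx)
  refine ⟨hV.mem_polynomialY hx hy, fun h0 => hneg ?_⟩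
  have hns' : (redCurve A V).toAffine.Nonsingular (res A x) (res A (V.toAffine.negY x y)) :=
    (hV.res_negY hx hy) ▸ (Affine.nonsingular_neg _ _).mpr hns
  rw [Affine.Point.neg_some]
  refine eq_of_redPt_eq hV hn (Or.inr ⟨hx, hy, hns⟩)
    (Or.inr ⟨hx, hV.mem_negY hx hy, hns'⟩) hnP
    (by rw [← Affine.Point.neg_some h, smul_neg, hnP, neg_zero]) ?_
  rw [redPt_some hx hns, redPt_some hx hns', Affine.Point.some.injEq]
  refine ⟨rfl, ?_⟩
  have e : psi2 V (Affine.Point.some x y h) = y - V.toAffine.negY x y := by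
    simp only [psi2, Affine.negY]
    ring
  rw [e, res_sub hy (hV.mem_negY hx hy), sub_eq_zero] at h0
  exact h0

end Place

variable (p : ℕ) (W : WeierstrassCurve ℤ)

/-- `p¹² (∏ (2y + a₁x + a₃)(kQ))⁴ / Δ^(p-1)`: the value of `Δ(τ)/Δ(pτ)` at the point `(W, Q)`. -/
def betaValue (Q : ((W.map (Int.castRingHom ℚ))⁄Qbar).Point) : Qbar :=
  (p : Qbar) ^ 12 *
      (∏ k ∈ Finset.Ico 1 p, psi2 ((W.map (Int.castRingHom ℚ))⁄Qbar).toAffine (k • Q)) ^ 4 /
    (W.Δ : Qbar) ^ (p - 1)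

variable {p W} {ℓ : ℕ} {A : ValuationSubring Qbar} {Q : ((W.map (Int.castRingHom ℚ))⁄Qbar).Point}

omit W Q in
theorem nsmul_ne_zero_of_lt {G : Type*} [AddMonoid G] {a : G} (ha : addOrderOf a = p) {k : ℕ}
    (h0 : 0 < k) (hk : k < p) : k • a ≠ 0 := fun h =>
  Nat.not_dvd_of_pos_of_lt h0 hk (ha ▸ addOrderOf_dvd_iff_nsmul_eq_zero.mpr h)

/-- `j` is not integral at a multiplicative place. -/
theorem jValue_notMem (hℓ : ℓ.Prime) (hℓΔ : (ℓ : ℤ) ∣ W.Δ) (hℓc₄ : ¬ (ℓ : ℤ) ∣ W.c₄)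
    (hΔ : W.Δ ≠ 0) (hA : A.LiesOverPrime ℓ) : (W.c₄ : Qbar) ^ 3 / (W.Δ : Qbar) ∉ A := by
  intro h
  have hc := (res_intCast_ne_zero_iff A hℓ hA W.c₄).mpr hℓc₄
  have hD : res A (W.Δ : Qbar) = 0 := by
    by_contra hne
    exact (res_intCast_ne_zero_iff A hℓ hA W.Δ).mp hne hℓΔ
  have hD0 : (W.Δ : Qbar) ≠ 0 := Int.cast_ne_zero.mpr hΔ
  have e : (W.c₄ : Qbar) ^ 3 = (W.c₄ : Qbar) ^ 3 / (W.Δ : Qbar) * (W.Δ : Qbar) :=
    (div_mul_cancel₀ _ hD0).symm
  have h1 := congrArg (res A) e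
  rw [res_mul h (intCast_mem_place _), hD, mul_zero, res_pow (intCast_mem_place _)] at h1
  exact pow_ne_zero 3 hc h1

/-- On the identity component the value is a unit divided by `Δ^(p-1)`. -/
theorem betaValue_notMem (hp : p.Prime) (hp2 : p ≠ 2) (hℓ : ℓ.Prime) (hℓp : ℓ ≠ p)
    (hℓΔ : (ℓ : ℤ) ∣ W.Δ) (hΔ : W.Δ ≠ 0) (hA : A.LiesOverPrime ℓ) (hQ : addOrderOf Q = p)
    (h : W.InZeroComponentAt A Q) : betaValue p W Q ∉ A := by
  classical
  have hV := integralAt_intCurve W A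
  have hp' : res A (p : Qbar) ≠ 0 :=
    res_natCast_ne_zero A hℓ hA fun hd => hℓp ((Nat.prime_dvd_prime_iff_eq hℓ hp).mp hd)
  have hQ0 := (inZeroComponentAt_iff W A Q).mp h
  have hmem : ∀ k ∈ Finset.Ico 1 p,
      psi2 ((W.map (Int.castRingHom ℚ))⁄Qbar).toAffine (k • Q) ∈ A ∧
        res A (psi2 ((W.map (Int.castRingHom ℚ))⁄Qbar).toAffine (k • Q)) ≠ 0 := by
    intro k hk
    obtain ⟨h0, hlt⟩ := Finset.mem_Ico.mp hk
    refine res_psi2_of_inE0 hV (n := p) hp' ((E0 hV).nsmul_mem hQ0 k)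
      (nsmul_ne_zero_of_lt hQ h0 hlt) ?_ ?_
    · rw [smul_comm, ← hQ, addOrderOf_nsmul_eq_zero, smul_zero]
    · intro he
      rw [eq_neg_iff_add_eq_zero, ← add_nsmul] at he
      have hdvd : p ∣ k + k := hQ ▸ addOrderOf_dvd_iff_nsmul_eq_zero.mpr he
      rw [← two_mul] at hdvd
      rcases hp.dvd_mul.mp hdvd with h2 | h2
      · exact hp2 ((Nat.prime_dvd_prime_iff_eq hp Nat.prime_two).mp h2)
      · exact Nat.not_dvd_of_pos_of_lt h0 hlt h2
  set P := ∏ k ∈ Finset.Ico 1 p, psi2 ((W.map (Int.castRingHom ℚ))⁄Qbar).toAffine (k • Q) with hP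
  have hPv : A.valuation P = 1 := by
    rw [hP, map_prod]
    exact Finset.prod_eq_one fun k hk => (res_ne_zero_iff (hmem k hk).1).mp (hmem k hk).2
  have hpv : A.valuation (p : Qbar) = 1 := (res_ne_zero_iff (natCast_mem_place p)).mp hp'
  have hDlt : A.valuation (W.Δ : Qbar) < 1 := by
    refine (res_eq_zero_iff (intCast_mem_place _)).mp ?_
    by_contra hne
    exact (res_intCast_ne_zero_iff A hℓ hA W.Δ).mp hne hℓΔ
  have hD0 : 0 < A.valuation (W.Δ : Qbar) := zero_lt_iff.mpr (by simpa using hΔ)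
  rw [mem_iff_valuation, betaValue, ← hP, map_div₀, map_mul, map_pow, map_pow, map_pow, hPv, hpv,
    one_pow, one_pow, one_mul, not_le, one_lt_div₀ (pow_pos hD0 _)]
  exact pow_lt_one₀ zero_le hDlt (by have := hp.two_le; omega)

/-- Off the identity component the value is small against `j ^ (p - 1)`. -/
theorem betaValue_mul_mem_nonunits (hp : p.Prime) (hℓ : ℓ.Prime)
    (hℓc₄ : ¬ (ℓ : ℤ) ∣ W.c₄) (hΔ : W.Δ ≠ 0) (hA : A.LiesOverPrime ℓ) (hQ : addOrderOf Q = p)
    (h : ¬ W.InZeroComponentAt A Q) :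
    betaValue p W Q * (((W.c₄ : Qbar) ^ 3 / (W.Δ : Qbar))⁻¹) ^ (p - 1) ∈ A.nonunits := by
  classical
  have hV := integralAt_intCurve W A
  have hQ0 : ¬ InE0 A Q := fun hq => h ((inZeroComponentAt_iff W A Q).mpr hq)
  have hmem : ∀ k ∈ Finset.Ico 1 p,
      psi2 ((W.map (Int.castRingHom ℚ))⁄Qbar).toAffine (k • Q) ∈ A ∧
        res A (psi2 ((W.map (Int.castRingHom ℚ))⁄Qbar).toAffine (k • Q)) = 0 := by
    intro k hk
    obtain ⟨h0, hlt⟩ := Finset.mem_Ico.mp hk
    refine res_psi2_of_not_inE0 hV fun hkQ => hQ0 ?_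
    have hco : p.Coprime k := hp.coprime_iff_not_dvd.mpr (Nat.not_dvd_of_pos_of_lt h0 hlt)
    obtain ⟨a, ha⟩ : ∃ a : ℤ, (p : ℤ) ∣ a * k - 1 := by
      refine ⟨Nat.gcdB p k, -Nat.gcdA p k, ?_⟩
      have hb := Nat.gcd_eq_gcd_ab p k
      rw [hco] at hb
      push_cast at hb
      linear_combination -hb
    have e : a • (k • Q) = Q := by
      rw [← natCast_zsmul, smul_smul, ← sub_eq_zero]
      obtain ⟨b, hb⟩ := ha
      rw [sub_eq_iff_eq_add] at hb
      have : ((a * k : ℤ) - 1) • Q = 0 := by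
        rw [show a * (k : ℤ) - 1 = b * p by linear_combination hb, mul_smul, natCast_zsmul,
          ← hQ, addOrderOf_nsmul_eq_zero, smul_zero]
      rwa [sub_zsmul, one_zsmul] at this
    rw [← e]
    exact (E0 hV).zsmul_mem hkQ a
  set P := ∏ k ∈ Finset.Ico 1 p, psi2 ((W.map (Int.castRingHom ℚ))⁄Qbar).toAffine (k • Q) with hP
  have hPv : A.valuation P < 1 := by
    rw [hP, Finset.prod_eq_prod_Ico_succ_bot hp.one_lt, map_mul]
    refine lt_of_le_of_lt (mul_le_of_le_one_right' ?_) ?_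
    swap
    · exact (res_eq_zero_iff (hmem 1 (Finset.mem_Ico.mpr ⟨le_rfl, hp.one_lt⟩)).1).mp
        (hmem 1 (Finset.mem_Ico.mpr ⟨le_rfl, hp.one_lt⟩)).2
    · rw [map_prod]
      exact Finset.prod_le_one (fun _ _ => zero_le) fun k hk => mem_iff_valuation.mp
        (hmem k (Finset.mem_Ico.mpr ⟨by have := (Finset.mem_Ico.mp hk).1; omega,
          (Finset.mem_Ico.mp hk).2⟩)).1
  have hcv : A.valuation (W.c₄ : Qbar) = 1 :=
    (res_ne_zero_iff (intCast_mem_place _)).mp ((res_intCast_ne_zero_iff A hℓ hA W.c₄).mpr hℓc₄)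
  have hD : (W.Δ : Qbar) ≠ 0 := Int.cast_ne_zero.mpr hΔ
  have e : betaValue p W Q * (((W.c₄ : Qbar) ^ 3 / (W.Δ : Qbar))⁻¹) ^ (p - 1) =
      (p : Qbar) ^ 12 * P ^ 4 / ((W.c₄ : Qbar) ^ 3) ^ (p - 1) := by
    rw [betaValue, ← hP, inv_div, div_pow]
    field_simp
  rw [ValuationSubring.mem_nonunits_iff, e, map_div₀, map_mul, map_pow, map_pow, map_pow, map_pow,
    hcv, one_pow, one_pow, div_one]
  exact lt_of_le_of_lt
    (mul_le_of_le_one_left' (pow_le_one₀ zero_le (mem_iff_valuation.mp (natCast_mem_place p))))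
    (pow_lt_one₀ zero_le hPv four_ne_zero)

/-- The value is fixed by the automorphisms fixing the point. -/
theorem betaValue_fixed (σ : Γℚ) (h : σ • Q = Q) :
    σ (betaValue p W Q) = betaValue p W Q := by
  classical
  have hk : ∀ k : ℕ, σ (psi2 ((W.map (Int.castRingHom ℚ))⁄Qbar).toAffine (k • Q)) =
      psi2 ((W.map (Int.castRingHom ℚ))⁄Qbar).toAffine (k • Q) := fun k => by
    have e : σ • (k • Q) = k • Q := by
      rw [Affine.Point.algEquiv_smul_def, map_nsmul, ← Affine.Point.algEquiv_smul_def, h]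
    conv_rhs => rw [← e, Affine.Point.algEquiv_smul_def, psi2_map]
    rfl
  simp only [betaValue, map_div₀, map_mul, map_pow, map_prod, map_natCast, map_intCast, hk]

end FermatLib.Mazur.Classes
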