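import Fermat.Agent.Mazur.Classes.ModuliPoint
import Fermat.Agent.Mazur.Classes.CuspPlaces
import Fermat.Agent.Modular.CorrFacts

/-!
# The place of `X₀(p)` attached to a curve with a point of order `p`
-/

set_option autoImplicit false

noncomputable section

open UpperHalfPlane hiding I
open CongruenceSubgroup ModularCurve AlgebraicCurve FermatLib.Modular
open scoped MatrixGroups WeierstrassCurve.Affine
open FermatLib.Curve (ordGE)

namespace FermatLib.Mazur.Classes

local notation "Qbar" => AlgebraicClosure ℚ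

variable {K F : Type*} [Field K] [Field F] [Algebra K F] (v : Place K F)

/-- `f` takes the value `a` at `v`. -/
def HasValue (f : F) (a : K) : Prop := f - algebraMap K F a ∈ ordGE v 1

variable {v}

theorem hasValue_of_ord_pos {f : F} {a : K} (h : 0 < v.ord (f - algebraMap K F a)) :
    HasValue v f a := FermatLib.Curve.mem_ordGE_of_le (by omega)

theorem HasValue.ord_pos {f : F} {a : K} (h : HasValue v f a) (h0 : f - algebraMap K F a ≠ 0) :
    0 < v.ord (f - algebraMap K F a) := FermatLib.Curve.le_ord_of_mem h h0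

theorem HasValue.ord_nonneg {f : F} {a : K} (h : HasValue v f a) : f ∈ ordGE v 0 := by
  have h1 : f - algebraMap K F a ∈ ordGE v 0 := FermatLib.Curve.ordGE_anti (by norm_num) h
  have h2 : algebraMap K F a ∈ ordGE v 0 :=
    FermatLib.Curve.mem_ordGE_of_le (FermatLib.Curve.ord_algebraMap v a).ge
  simpa using add_mem h1 h2

theorem HasValue.mul {f g : F} {a b : K} (hf : HasValue v f a) (hg : HasValue v g b) :
    HasValue v (f * g) (a * b) := by
  have h1 := FermatLib.Curve.mul_mem_ordGE hf hg.ord_nonneg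
  have h2 := FermatLib.Curve.mul_mem_ordGE
    (FermatLib.Curve.mem_ordGE_of_le (v := v) (n := 0) (f := algebraMap K F a)
      (FermatLib.Curve.ord_algebraMap v a).ge) hg
  have h := add_mem (show (f - algebraMap K F a) * g ∈ ordGE v 1 by simpa using h1)
    (show algebraMap K F a * (g - algebraMap K F b) ∈ ordGE v 1 by simpa using h2)
  show f * g - algebraMap K F (a * b) ∈ ordGE v 1
  convert h using 1
  rw [map_mul]
  ring

theorem HasValue.one : HasValue v (1 : F) (1 : K) := by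
  show (1 : F) - algebraMap K F 1 ∈ ordGE v 1
  rw [map_one, sub_self]
  exact zero_mem _

theorem HasValue.pow {f : F} {a : K} (hf : HasValue v f a) (n : ℕ) :
    HasValue v (f ^ n) (a ^ n) := by
  induction n with
  | zero => simpa using HasValue.one
  | succ n ih => simpa [pow_succ] using ih.mul hf

theorem HasValue.inv {f : F} {a : K} (hf : HasValue v f a) (ha : a ≠ 0) :
    HasValue v f⁻¹ a⁻¹ := by
  have ha' : algebraMap K F a ≠ 0 := (map_ne_zero _).mpr ha
  rcases eq_or_ne (f - algebraMap K F a) 0 with h | h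
  · show f⁻¹ - algebraMap K F a⁻¹ ∈ ordGE v 1
    rw [sub_eq_zero.mp h, map_inv₀, sub_self]
    exact zero_mem _
  have hpos := hf.ord_pos h
  have hf0 : f ≠ 0 := fun h0 => by
    rw [h0, zero_sub, FermatLib.Curve.ord_neg, FermatLib.Curve.ord_algebraMap] at hpos
    omega
  have hordf : v.ord f = 0 := by
    have := FermatLib.Curve.ord_add_eq_left v ha' (g := f - algebraMap K F a)
      (Or.inr (by rwa [FermatLib.Curve.ord_algebraMap]))
    rwa [add_sub_cancel, FermatLib.Curve.ord_algebraMap] at this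
  refine hasValue_of_ord_pos ?_
  have he : f⁻¹ - algebraMap K F a⁻¹ = -((f - algebraMap K F a) * (f * algebraMap K F a)⁻¹) := by
    rw [map_inv₀]
    field_simp
    ring
  rw [he, FermatLib.Curve.ord_neg, v.ord_mul h (inv_ne_zero (mul_ne_zero hf0 ha')), v.ord_inv,
    v.ord_mul hf0 ha', hordf, FermatLib.Curve.ord_algebraMap]
  omega

theorem analytic_meromorphicOrderAt_pos {g : ℂ → ℂ} {z : ℂ} (hg : AnalyticAt ℂ g z) (hz : g z = 0)
    {m : ℤ} (hm : meromorphicOrderAt g z = (m : WithTop ℤ)) : 0 < m := by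
  rw [hg.meromorphicOrderAt_eq] at hm
  have h0 : analyticOrderAt g z ≠ 0 := fun h => hg.analyticOrderAt_eq_zero.mp h hz
  cases hn : analyticOrderAt g z with
  | top => rw [hn] at hm; exact absurd hm.symm (WithTop.coe_ne_top)
  | coe n =>
      rw [hn] at hm h0
      have h : ((n : ℤ) : WithTop ℤ) = (m : WithTop ℤ) := hm
      have : (n : ℤ) = m := WithTop.coe_inj.mp h
      have : n ≠ 0 := fun h' => h0 (by rw [h']; rfl)
      omega

section

variable (ι : Qbar →+* ℂ) {p : ℕ} [NeZero p]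

/-- The value of `Δ(τ)/Δ(pτ)` at a point of the upper half plane, at the corresponding place. -/
theorem hasValue_uB_ptPlace (hp : p.Prime) (τ : ℍ) (hτ : jFun τ ∈ Set.range ι) {β : Qbar}
    (hβ : ι β = unitFun p τ) : HasValue (ptPlace ι p τ hτ) (uB p hp) β := by
  refine hasValue_of_ord_pos ?_
  have hne : uB p hp - algebraMap Qbar (modularFunctionFieldBar p) β ≠ 0 := fun h => by
    have h1 := ord_uB_cInf ι p hp
    rw [sub_eq_zero.mp h, FermatLib.Curve.ord_algebraMap] at h1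
    have := hp.two_le
    omega
  set G : weakMod (Gamma0 p) :=
    ⟨unitFun p, unitFun_mem_weakMod p hp⟩ - algebraMap ℂ (weakMod (Gamma0 p)) (ι β) with hG
  have hq : coeffMap ι ((uB p hp - algebraMap Qbar (modularFunctionFieldBar p) β :
      modularFunctionFieldBar p) : LaurentSeries Qbar) = qExpWeak p G := by
    rw [hG, map_sub, AlgHom.commutes]
    show coeffMap ι (uModC Qbar p - algebraMap Qbar (LaurentSeries Qbar) β) = _
    rw [map_sub, coeffMap_uModC_eq_qExpWeak ι p hp, algebraMap_laurentSeries_eq_single, coeffMap_single,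
      algebraMap_laurentSeries_eq_single]
  have h := meromorphicOrderAt_ptPlace ι p τ hτ hne G hq
  have hGfun : ((G : ℍ → ℂ)) = fun z => unitFun p z - ι β := rfl
  have hd := UpperHalfPlane.mdifferentiable_iff.mp
    ((mdifferentiable_unitFun p).sub (mdifferentiable_const (c := ι β)))
  have ha : AnalyticAt ℂ ((G : ℍ → ℂ) ∘ ofComplex) (τ : ℂ) := by
    rw [hGfun]
    exact hd.analyticAt (UpperHalfPlane.isOpen_upperHalfPlaneSet.mem_nhds τ.im_pos)
  have h0 : ((G : ℍ → ℂ) ∘ ofComplex) (τ : ℂ) = 0 := by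
    rw [hGfun, Function.comp_apply, ofComplex_apply, hβ, sub_self]
  have hm := analytic_meromorphicOrderAt_pos ha h0 h
  have := ptIndex_pos p τ
  by_contra hle
  push Not at hle
  nlinarith

omit [NeZero p] in
/-- The values of `j` and of `Δ(τ)/Δ(pτ)` at a point of `ℍ` over `(E, ⟨Q⟩)`. -/
theorem exists_moduli_values (hp : p.Prime) (hp2 : p ≠ 2) (E : WeierstrassCurve ℚ) (hΔ : E.Δ ≠ 0)
    (Q : (E⁄Qbar).Point) (hQ : addOrderOf Q = p) :
    ∃ τ : ℍ, ι ((E⁄Qbar).c₄ ^ 3 / (E⁄Qbar).Δ) = jFun τ ∧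
      ι ((p : Qbar) ^ 12 * (∏ k ∈ Finset.Ico 1 p, psi2 (E⁄Qbar).toAffine (k • Q)) ^ 4 /
        (E⁄Qbar).Δ ^ (p - 1)) = unitFun p τ := by
  classical
  let f : Qbar →ₐ[ℚ] ℂ := ι.toRatAlgHom

  have hΔι : ι (E⁄Qbar).Δ = (E⁄ℂ).Δ := by
    simp [WeierstrassCurve.baseChange, WeierstrassCurve.map_Δ]
  have hcι : ι (E⁄Qbar).c₄ = (E⁄ℂ).c₄ := by
    simp [WeierstrassCurve.baseChange, WeierstrassCurve.map_c₄]
  have hVΔ : (E⁄ℂ).Δ ≠ 0 := by
    simpa [WeierstrassCurve.baseChange, WeierstrassCurve.map_Δ] using hΔ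
  have hell : (E⁄ℂ).IsElliptic := ⟨isUnit_iff_ne_zero.mpr hVΔ⟩
  have hord : addOrderOf (WeierstrassCurve.Affine.Point.map (W' := E.toAffine) f Q) = p :=
    (addOrderOf_injective _ (WeierstrassCurve.Affine.Point.map_injective f) Q).trans hQ
  obtain ⟨τ, hj, hU⟩ := exists_moduli_point (E⁄ℂ) hp hp2 _ hord
  refine ⟨τ, ?_, ?_⟩
  · rw [hj, WeierstrassCurve.j, Units.val_inv_eq_inv_val, WeierstrassCurve.coe_Δ', map_div₀,
      map_pow, hΔι, hcι, div_eq_inv_mul]
  · have hprod : ι (∏ k ∈ Finset.Ico 1 p, psi2 (E⁄Qbar).toAffine (k • Q))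
        = ∏ k ∈ Finset.Ico 1 p,
            psi2 (E⁄ℂ).toAffine (k • WeierstrassCurve.Affine.Point.map (W' := E.toAffine) f Q) := by
      rw [map_prod]
      refine Finset.prod_congr rfl fun k _ => ?_
      rw [← map_nsmul]
      exact (psi2_map E f (k • Q)).symm
    rw [map_div₀, map_mul, map_pow, map_pow, map_pow, hprod, map_natCast, hΔι, unitFun,
      div_eq_div_iff (pow_ne_zero _ hVΔ) (ModularForm.discriminant_ne_zero _)]
    exact hU.symm

/-- The point of `X₀(p)` attached to `(W, ⟨Q⟩)`. -/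
theorem exists_moduli_place (hp : p.Prime) (hp2 : p ≠ 2) (W : WeierstrassCurve ℤ) (hΔ : W.Δ ≠ 0)
    (hc₄ : W.c₄ ≠ 0) (Q : ((W.map (Int.castRingHom ℚ))⁄Qbar).Point) (hQ : addOrderOf Q = p) :
    ∃ x : Place Qbar (modularFunctionFieldBar p),
      0 < x.ord ((jB p Qbar)⁻¹ - algebraMap Qbar _ ((W.c₄ : Qbar) ^ 3 / (W.Δ : Qbar))⁻¹) ∧
      0 < x.ord (uB p hp - algebraMap Qbar _
        ((p : Qbar) ^ 12 * (∏ k ∈ Finset.Ico 1 p,
          psi2 ((W.map (Int.castRingHom ℚ))⁄Qbar).toAffine (k • Q)) ^ 4 /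
            (W.Δ : Qbar) ^ (p - 1))) ∧
      0 < x.ord (uB p hp * (jB p Qbar)⁻¹ ^ (p - 1) - algebraMap Qbar _
        ((p : Qbar) ^ 12 * (∏ k ∈ Finset.Ico 1 p,
          psi2 ((W.map (Int.castRingHom ℚ))⁄Qbar).toAffine (k • Q)) ^ 4 /
            (W.Δ : Qbar) ^ (p - 1) * ((W.c₄ : Qbar) ^ 3 / (W.Δ : Qbar))⁻¹ ^ (p - 1))) := by
  obtain ⟨ι⟩ := exists_embedding_Qbar
  have hEΔ : (W.map (Int.castRingHom ℚ)).Δ ≠ 0 := by
    simpa [WeierstrassCurve.map_Δ] using hΔ
  obtain ⟨τ, hj', hβ'⟩ :=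
    exists_moduli_values ι hp hp2 (W.map (Int.castRingHom ℚ)) hEΔ Q hQ
  have hΔQ : ((W.map (Int.castRingHom ℚ))⁄Qbar).Δ = (W.Δ : Qbar) := by
    simp [WeierstrassCurve.baseChange, WeierstrassCurve.map_Δ]
  have hcQ : ((W.map (Int.castRingHom ℚ))⁄Qbar).c₄ = (W.c₄ : Qbar) := by
    simp [WeierstrassCurve.baseChange, WeierstrassCurve.map_c₄]
  rw [hΔQ, hcQ] at hj'
  rw [hΔQ] at hβ'
  generalize (p : Qbar) ^ 12 * (∏ k ∈ Finset.Ico 1 p,
    psi2 ((W.map (Int.castRingHom ℚ))⁄Qbar).toAffine (k • Q)) ^ 4 /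
      (W.Δ : Qbar) ^ (p - 1) = β at hβ' ⊢
  have hj0 : (W.c₄ : Qbar) ^ 3 / (W.Δ : Qbar) ≠ 0 :=
    div_ne_zero (pow_ne_zero _ (by exact_mod_cast hc₄)) (by exact_mod_cast hΔ)
  generalize (W.c₄ : Qbar) ^ 3 / (W.Δ : Qbar) = j₀ at hj' hj0 ⊢
  have hjr : jFun τ ∈ Set.range ι := ⟨j₀, hj'⟩
  set x := ptPlace ι p τ hjr with hx
  have hvj : HasValue x (jB p Qbar) j₀ := by
    refine hasValue_of_ord_pos ?_
    rw [jB_eq_jElem]
    exact ord_jElem_sub_ptPlace_pos ι p τ hjr j₀ hj'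
  have hvu : HasValue x (uB p hp) β := hasValue_uB_ptPlace ι hp τ hjr hβ'
  refine ⟨x, (hvj.inv hj0).ord_pos fun h => ?_, hvu.ord_pos fun h => ?_,
    (hvu.mul ((hvj.inv hj0).pow (p - 1))).ord_pos fun h => ?_⟩
  · have h1 := congrArg (cInf ι p).ord (sub_eq_zero.mp h)
    rw [Place.ord_inv, ord_cInf_j, FermatLib.Curve.ord_algebraMap] at h1
    omega
  · have h1 := congrArg (cInf ι p).ord (sub_eq_zero.mp h)
    rw [ord_uB_cInf ι p hp, FermatLib.Curve.ord_algebraMap] at h1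
    have := hp.two_le
    omega
  · have h1 := congrArg (cZero ι p).ord (sub_eq_zero.mp h)
    rw [Place.ord_mul _ (uB_ne_zero p hp) (pow_ne_zero _ (inv_ne_zero (jB_ne_zero p Qbar))),
      FermatLib.Curve.ord_pow, Place.ord_inv, ord_cZero_j ι p hp, ord_uB_cZero ι p hp,
      FermatLib.Curve.ord_algebraMap] at h1
    have h3 : (0 : ℤ) ≤ ((p - 1 : ℕ) : ℤ) * (p : ℤ) := by positivity
    have := hp.two_le
    nlinarith

end

end FermatLib.Mazur.Classes
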