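import Fermat.Agent.Mazur.Classes.UnitValue
import Fermat.Agent.Mazur.Classes.PsiValue
import Fermat.Agent.Mazur.Uniformization.Surjective
import Fermat.Agent.Descent.ChangeVarPoints
import Mathlib.AlgebraicGeometry.EllipticCurve.IsomOfJ

/-! The value of `Δ(τ)/Δ(pτ)` at the moduli point of a curve with a point of order `p`. -/

set_option autoImplicit false

noncomputable section

open UpperHalfPlane hiding I
open Complex FermatLib.Modular FermatLib.Mazur.Uniformization
open scoped MatrixGroups Real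

namespace FermatLib.Mazur.Classes

theorem psi2_toPoint (L : PeriodPair) (z : ℂ) :
    psi2 (latticeCurve L) (toPoint L z) = L.derivWeierstrassP z := by
  by_cases hz : z ∈ L.lattice
  · rw [toPoint_of_mem L hz]
    exact (L.derivWeierstrassP_coe ⟨z, hz⟩).symm
  · rw [toPoint_of_notMem L hz]
    simp only [psi2, latticeCurve]
    ring

theorem latticeCurve_Δ (L : PeriodPair) : (latticeCurve L).Δ = latticeDisc L := by
  simp only [WeierstrassCurve.Δ, WeierstrassCurve.b₂, WeierstrassCurve.b₄, WeierstrassCurve.b₆,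
    WeierstrassCurve.b₈, latticeCurve, latticeDisc]
  ring

/-- A change of variables transports the points and multiplies `2y + a₁ x + a₃` by `u³`. -/
theorem exists_pointHom {F : Type*} [Field F] [DecidableEq F] {W W' : WeierstrassCurve F}
    [W.IsElliptic] {D : WeierstrassCurve.VariableChange F} (h : D • W = W') :
    ∃ φ : W'.toAffine.Point →+ W.toAffine.Point, Function.Injective φ ∧ Function.Surjective φ ∧
      (∀ P, psi2 W (φ P) = (D.u : F) ^ 3 * psi2 W' P) ∧
      W.Δ = (D.u : F) ^ 12 * W'.Δ := by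
  subst h
  refine ⟨Descent.changeVarHom W D, Descent.changeVarHom_injective W D, ?_, ?_, ?_⟩
  · have hu : (D.u : F) ≠ 0 := D.u.ne_zero
    rintro (_ | ⟨x, y, h⟩)
    · exact ⟨0, map_zero _⟩
    set x₀ : F := (x - D.r) / (D.u : F) ^ 2 with hx₀
    set y₀ : F := (y - (D.u : F) ^ 2 * D.s * x₀ - D.t) / (D.u : F) ^ 3 with hy₀
    have hx : (D.u : F) ^ 2 * x₀ + D.r = x := by
      rw [hx₀, mul_div_cancel₀ _ (pow_ne_zero 2 hu)]; ring
    have hy : (D.u : F) ^ 3 * y₀ + (D.u : F) ^ 2 * D.s * x₀ + D.t = y := by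
      rw [hy₀, mul_div_cancel₀ _ (pow_ne_zero 3 hu)]; ring
    have he : (D • W).toAffine.Equation x₀ y₀ := by
      have h' := (WeierstrassCurve.Affine.equation_iff x y).mp h.1
      rw [← hx, ← hy] at h'
      rw [WeierstrassCurve.Affine.equation_iff]
      simp only [WeierstrassCurve.variableChange_a₁, WeierstrassCurve.variableChange_a₂,
        WeierstrassCurve.variableChange_a₃, WeierstrassCurve.variableChange_a₄,
        WeierstrassCurve.variableChange_a₆, Units.val_inv_eq_inv_val]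
      field_simp
      linear_combination h'
    refine ⟨.some x₀ y₀ ((D • W).toAffine.equation_iff_nonsingular.mp he), ?_⟩
    simp only [Descent.changeVarHom, AddMonoidHom.coe_mk, ZeroHom.coe_mk, Descent.changeVarFun, hx, hy]
  · rintro (_ | ⟨x, y, hxy⟩)
    · show (0 : F) = _ * (0 : F)
      rw [mul_zero]
    · have hu : (D.u : F) ≠ 0 := D.u.ne_zero
      simp only [Descent.changeVarHom, AddMonoidHom.coe_mk, ZeroHom.coe_mk, Descent.changeVarFun,
        psi2, WeierstrassCurve.variableChange_a₁,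
        WeierstrassCurve.variableChange_a₃, Units.val_inv_eq_inv_val]
      field_simp
      ring
  · rw [WeierstrassCurve.variableChange_Δ, ← mul_assoc, ← mul_pow, Units.mul_inv, one_pow, one_mul]

theorem G_congr {L L' : PeriodPair} (h : L.lattice = L'.lattice) : L.G = L'.G :=
  funext fun n => congrArg (fun S : Submodule ℤ ℂ => ∑' l : S, ((l : ℂ) ^ n)⁻¹) h

theorem latticeDisc_congr {L L' : PeriodPair} (h : L.lattice = L'.lattice) :
    latticeDisc L = latticeDisc L' := by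
  simp only [latticeDisc, PeriodPair.g₂, PeriodPair.g₃, G_congr h]

theorem derivWeierstrassP_congr {L L' : PeriodPair} (h : L.lattice = L'.lattice) (z : ℂ) :
    L.derivWeierstrassP z = L'.derivWeierstrassP z :=
  congrArg (fun S : Submodule ℤ ℂ => -∑' l : S, 2 / (z - (l : ℂ)) ^ 3) h

theorem derivWeierstrassP_periodPairOf (τ : ℍ) {c : ℂ} (hc : c ≠ 0) (z : ℂ) :
    (periodPairOf τ c hc).derivWeierstrassP (c * z) =
      (c ^ 3)⁻¹ * (periodPairOf τ 1 one_ne_zero).derivWeierstrassP z := by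
  unfold PeriodPair.derivWeierstrassP
  rw [← (periodPairOf τ c hc).latticeEquivProd.symm.toEquiv.tsum_eq,
    ← (periodPairOf τ 1 one_ne_zero).latticeEquivProd.symm.toEquiv.tsum_eq, mul_neg, ← tsum_mul_left]
  congr 1
  refine tsum_congr fun v => ?_
  simp only [LinearEquiv.coe_toEquiv, PeriodPair.latticeEquiv_symm_apply]
  simp only [periodPairOf, one_mul, mul_one]
  rw [show c * z - ((v.1 : ℂ) * (c * τ) + v.2 * c) = c * (z - ((v.1 : ℂ) * τ + v.2)) by ring,
    mul_pow, ← div_eq_inv_mul, div_div, mul_comm]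

theorem prod_derivWeierstrassP_congr {L : PeriodPair} {z w : ℂ} {p m m' : ℕ}
    (hmm : m * m' % p = 1) (hz : (p : ℂ) * z ∈ L.lattice) (hw : w - (m : ℂ) * z ∈ L.lattice) :
    ∏ k ∈ Finset.Ico 1 p, L.derivWeierstrassP ((k : ℂ) * w) =
      ∏ k ∈ Finset.Ico 1 p, L.derivWeierstrassP ((k : ℂ) * z) := by
  have hper : ∀ k : ℕ, L.derivWeierstrassP ((k : ℂ) * w) =
      L.derivWeierstrassP (((k * m % p : ℕ) : ℂ) * z) := by
    intro k
    have h1 : (k : ℂ) * (w - (m : ℂ) * z) + (((k * m / p : ℕ) : ℂ)) * ((p : ℂ) * z) ∈ L.lattice := by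
      refine add_mem ?_ ?_
      · rw [← nsmul_eq_mul]; exact nsmul_mem hw k
      · rw [← nsmul_eq_mul]; exact nsmul_mem hz _
    have e : (k : ℂ) * w = ((k * m % p : ℕ) : ℂ) * z + ((⟨_, h1⟩ : L.lattice) : ℂ) := by
      have h2 : ((k * m % p : ℕ) : ℂ) + (p : ℂ) * ((k * m / p : ℕ) : ℂ) = (k : ℂ) * m := by
        exact_mod_cast Nat.mod_add_div (k * m) p
      simp only
      linear_combination (-z) * h2
    rw [e, L.derivWeierstrassP_add_coe]
  simp only [hper]
  have hperm : ∀ a b : ℕ, a * b % p = 1 → ∀ k ∈ Finset.Ico 1 p,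
      k * a % p ∈ Finset.Ico 1 p ∧ k * a % p * b % p = k := by
    intro a b hab k hk
    obtain ⟨hk1, hk2⟩ := Finset.mem_Ico.mp hk
    have e : k * a % p * b % p = k := by
      rw [Nat.mod_mul_mod, mul_assoc, Nat.mul_mod, hab, mul_one, Nat.mod_mod, Nat.mod_eq_of_lt hk2]
    refine ⟨Finset.mem_Ico.mpr ⟨Nat.one_le_iff_ne_zero.mpr fun h0 => ?_, Nat.mod_lt _ (by omega)⟩, e⟩
    rw [h0, zero_mul, Nat.zero_mod] at e
    omega
  refine Finset.prod_nbij' (fun k => k * m % p) (fun k => k * m' % p) ?_ ?_ ?_ ?_ fun k hk => rfl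
  · exact fun k hk => (hperm m m' hmm k hk).1
  · exact fun k hk => (hperm m' m (by rwa [mul_comm]) k hk).1
  · exact fun k hk => (hperm m m' hmm k hk).2
  · exact fun k hk => (hperm m' m (by rwa [mul_comm]) k hk).2

/-- A point of order `p` of `ℂ/[τ₀, 1]` is `c/p` up to a multiple, for a basis `(cτ, c)`. -/
theorem exists_torsion_normal {p : ℕ} (hp : p.Prime) (τ₀ : ℍ) {z : ℂ}
    (hpz : (p : ℂ) * z ∈ (periodPairOf τ₀ 1 one_ne_zero).lattice)
    (hz : z ∉ (periodPairOf τ₀ 1 one_ne_zero).lattice) :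
    ∃ (τ : ℍ) (c : ℂ) (hc : c ≠ 0) (m m' : ℕ), m * m' % p = 1 ∧
      (periodPairOf τ c hc).lattice = (periodPairOf τ₀ 1 one_ne_zero).lattice ∧
      c / p - (m : ℂ) * z ∈ (periodPairOf τ₀ 1 one_ne_zero).lattice ∧
      jFun τ = jFun τ₀ := by
  have := Fact.mk hp
  obtain ⟨a, b, hab⟩ := (mem_lattice_periodPairOf one_ne_zero).mp hpz
  rw [one_mul] at hab
  have hpC : (p : ℂ) ≠ 0 := Nat.cast_ne_zero.mpr hp.ne_zero
  have hinv : ∀ e : ℤ, ¬ (p : ℤ) ∣ e →
      ∃ (m m' : ℕ) (t : ℤ), m * m' % p = 1 ∧ (m : ℤ) * e = 1 + p * t := by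
    intro e he
    have he' : (e : ZMod p) ≠ 0 := fun h => he ((ZMod.intCast_zmod_eq_zero_iff_dvd e p).mp h)
    have h1 : (((((e : ZMod p))⁻¹.val : ℕ) : ℤ) * e - 1 : ℤ) ≡ 0 [ZMOD p] := by
      rw [← ZMod.intCast_eq_intCast_iff]
      push_cast
      rw [ZMod.natCast_zmod_val, inv_mul_cancel₀ he', sub_self]
    obtain ⟨t, ht⟩ := Int.modEq_zero_iff_dvd.mp h1
    refine ⟨(e : ZMod p)⁻¹.val, (e : ZMod p).val, t, ?_, by linear_combination ht⟩
    rw [← ZMod.val_mul, inv_mul_cancel₀ he', ZMod.val_one]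
  by_cases ha : (p : ℤ) ∣ a
  · obtain ⟨a', rfl⟩ := ha
    have hb : ¬ (p : ℤ) ∣ b := by
      rintro ⟨b', rfl⟩
      refine hz ((mem_lattice_periodPairOf one_ne_zero).mpr ⟨a', b', ?_⟩)
      apply mul_left_cancel₀ hpC
      push_cast at hab
      linear_combination hab
    obtain ⟨m, m', t, hmm, hmt⟩ := hinv b hb
    refine ⟨τ₀, 1, one_ne_zero, m, m', hmm, rfl,
      (mem_lattice_periodPairOf one_ne_zero).mpr ⟨-((m : ℤ) * a'), -t, ?_⟩, rfl⟩
    have hmt' : (m : ℂ) * b = 1 + p * t := by exact_mod_cast hmt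
    apply mul_left_cancel₀ hpC
    push_cast at hab ⊢
    field_simp
    linear_combination -(m : ℂ) * hab + hmt'
  · obtain ⟨m, m', t, hmm, hmt⟩ := hinv a ha
    set c : ℂ := (τ₀ : ℂ) + ((m : ℤ) * b : ℤ) with hc
    have him : c.im = τ₀.im := by simp [hc]
    have hc0 : c ≠ 0 := fun h => τ₀.im_ne_zero (by rw [← him, h, Complex.zero_im])
    refine ⟨⟨-1 / c, ?_⟩, c, hc0, m, m', hmm, ?_, ?_, ?_⟩
    · rw [Complex.div_im]
      simp only [Complex.neg_im, Complex.one_im, Complex.neg_re, Complex.one_re, neg_zero, zero_mul,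
        zero_div, zero_sub, neg_mul, one_mul, neg_div, neg_neg]
      rw [him]
      exact div_pos τ₀.im_pos (Complex.normSq_pos.mpr hc0)
    · ext x
      rw [mem_lattice_periodPairOf, mem_lattice_periodPairOf]
      constructor
      · rintro ⟨i, j, rfl⟩
        refine ⟨j, j * ((m : ℤ) * b) - i, ?_⟩
        show 1 * ((j : ℂ) * τ₀ + ((j * ((m : ℤ) * b) - i : ℤ) : ℂ)) = c * (i * (-1 / c) + j)
        rw [mul_add c, show c * ((i : ℂ) * (-1 / c)) = -(i : ℂ) by field_simp, hc]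
        push_cast
        ring
      · rintro ⟨i, j, rfl⟩
        refine ⟨i * ((m : ℤ) * b) - j, i, ?_⟩
        show c * (((i * ((m : ℤ) * b) - j : ℤ) : ℂ) * (-1 / c) + i) = 1 * ((i : ℂ) * τ₀ + j)
        rw [mul_add c, show c * (((i * ((m : ℤ) * b) - j : ℤ) : ℂ) * (-1 / c)) =
          -((i * ((m : ℤ) * b) - j : ℤ) : ℂ) by field_simp, hc]
        push_cast
        ring
    · refine (mem_lattice_periodPairOf one_ne_zero).mpr ⟨-t, 0, ?_⟩
      have hmt' : (m : ℂ) * a = 1 + p * t := by exact_mod_cast hmt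
      rw [hc]
      apply mul_left_cancel₀ hpC
      push_cast
      field_simp
      linear_combination -(m : ℂ) * hab + (τ₀ : ℂ) * hmt'
    · refine (jFun_eq_iff.mpr ⟨⟨!![0, -1; 1, (m : ℤ) * b], by simp [Matrix.det_fin_two]⟩, ?_⟩).symm
      apply UpperHalfPlane.ext
      refine (coe_specialLinearGroup_apply _ τ₀).trans ?_
      show _ = -1 / c
      simp [hc]

theorem jFun_eq_latticeCurve_j (τ : ℍ) [(latticeCurve (periodPairOf τ 1 one_ne_zero)).IsElliptic] :
    (latticeCurve (periodPairOf τ 1 one_ne_zero)).j = jFun τ := by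
  rw [WeierstrassCurve.j, Units.val_inv_eq_inv_val, WeierstrassCurve.coe_Δ', latticeCurve_Δ,
    latticeDisc_periodPairOf, jFun]
  simp only [WeierstrassCurve.c₄, WeierstrassCurve.b₂, WeierstrassCurve.b₄, latticeCurve,
    g₂_periodPairOf]
  have hΔ := ModularForm.discriminant_ne_zero τ
  have hpi : (π : ℂ) ≠ 0 := Complex.ofReal_ne_zero.mpr Real.pi_ne_zero
  field_simp
  ring

open Classical in
/-- The moduli point of a curve with a point of order `p`: the value of `Δ(τ)/Δ(pτ)`. -/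
theorem exists_moduli_point (W : WeierstrassCurve ℂ) [W.IsElliptic] {p : ℕ} (hp : p.Prime)
    (hp2 : p ≠ 2) (P : W.toAffine.Point) (hP : addOrderOf P = p) :
    ∃ τ : ℍ, jFun τ = W.j ∧
      ModularForm.discriminant τ * W.Δ ^ (p - 1) =
        (p : ℂ) ^ 12 * (∏ k ∈ Finset.Ico 1 p, psi2 W (k • P)) ^ 4 *
          ModularForm.discriminant (ModularForm.heckeDiagMatrix p • τ) := by
  obtain ⟨τ₀, hτ₀⟩ := jFun_surjective W.j
  set L₀ := periodPairOf τ₀ 1 one_ne_zero with hL₀
  have hell : (latticeCurve L₀).IsElliptic := by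
    refine ⟨?_⟩
    rw [latticeCurve_Δ]
    exact isUnit_iff_ne_zero.mpr (halfTriple_periods L₀).disc_ne_zero
  obtain ⟨D, hD⟩ := WeierstrassCurve.exists_variableChange_of_j_eq W (latticeCurve L₀)
    (by rw [jFun_eq_latticeCurve_j, hτ₀])
  obtain ⟨φ, hinj, hsurj, hpsi, hΔ⟩ := exists_pointHom hD
  obtain ⟨P₀, rfl⟩ := hsurj P
  obtain ⟨z, rfl⟩ := toPoint_surjective L₀ P₀
  rw [addOrderOf_injective φ hinj] at hP
  have hpz : (p : ℂ) * z ∈ L₀.lattice := by
    rw [← mem_ker_uniformization, AddMonoidHom.mem_ker, ← nsmul_eq_mul, map_nsmul,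
      uniformization_apply, ← hP]
    exact addOrderOf_nsmul_eq_zero _
  have hz : z ∉ L₀.lattice := fun h => hp.ne_one (by
    rw [← hP, toPoint_of_mem L₀ h, addOrderOf_zero])
  obtain ⟨τ, c, hc, m, m', hmm, hlat, hw, hj⟩ := exists_torsion_normal hp τ₀ hpz hz
  refine ⟨τ, hj.trans hτ₀, ?_⟩
  have hk : ∀ k : ℕ, psi2 W (k • φ (toPoint L₀ z)) =
      (D.u : ℂ) ^ 3 * L₀.derivWeierstrassP ((k : ℂ) * z) := fun k => by
    rw [← map_nsmul, hpsi, ← uniformization_apply, ← map_nsmul, uniformization_apply,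
      psi2_toPoint, nsmul_eq_mul]
  have hD0 : latticeDisc (periodPairOf τ 1 one_ne_zero) = c ^ 12 * latticeDisc L₀ := by
    rw [← latticeDisc_congr hlat, latticeDisc_periodPairOf, latticeDisc_periodPairOf, one_pow,
      div_one, mul_div_cancel₀ _ (pow_ne_zero _ hc)]
  have hPi : ∏ k ∈ Finset.Ico 1 p, (periodPairOf τ 1 one_ne_zero).derivWeierstrassP ((k : ℂ) / p) =
      (c ^ 3) ^ (p - 1) * ∏ k ∈ Finset.Ico 1 p, L₀.derivWeierstrassP ((k : ℂ) * z) := by
    rw [← prod_derivWeierstrassP_congr hmm hpz hw]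
    calc _ = ∏ k ∈ Finset.Ico 1 p, c ^ 3 * L₀.derivWeierstrassP ((k : ℂ) * (c / p)) :=
          Finset.prod_congr rfl fun k _ => by
            rw [← derivWeierstrassP_congr hlat, show (k : ℂ) * (c / p) = c * (k / p) by ring,
              derivWeierstrassP_periodPairOf τ hc, mul_inv_cancel_left₀ (pow_ne_zero 3 hc)]
      _ = _ := by rw [Finset.prod_mul_distrib, Finset.prod_const, Nat.card_Ico]
  have h := discriminant_div_scale hp hp2 τ
  change _ * latticeDisc _ ^ (p - 1) = _ at h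
  rw [hD0, hPi, mul_pow, mul_pow] at h
  simp only [hk, Finset.prod_mul_distrib, Finset.prod_const, Nat.card_Ico]
  rw [hΔ, latticeCurve_Δ, mul_pow, mul_pow]
  have e1 : (c ^ 12) ^ (p - 1) = ((c ^ 3) ^ (p - 1)) ^ 4 := by ring
  have e2 : ((D.u : ℂ) ^ 12) ^ (p - 1) = (((D.u : ℂ) ^ 3) ^ (p - 1)) ^ 4 := by ring
  rw [e1] at h
  rw [e2]
  apply mul_left_cancel₀ (pow_ne_zero 4 (pow_ne_zero (p - 1) (pow_ne_zero 3 hc)))
  linear_combination (((D.u : ℂ) ^ 3) ^ (p - 1)) ^ 4 * h

end FermatLib.Mazur.Classes
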