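import Fermat.Agent.Modular.PlaceEmbeddings
import Fermat.Agent.Curve.PoleDegree
import Fermat.Prelude.Def_ModularCurve_X0ModL

/-!
# Divisors pushed along a map of places, and the `q`-place of a field of series
-/

set_option autoImplicit false

noncomputable section

open AlgebraicCurve FermatLib.Curve

namespace FermatLib.Mazur.Classes

section MapDomain

variable {α β : Type*} (r : α → β) (D : α →₀ ℤ) (Q : β)

open Classical in
theorem mapDomain_apply_eq_sum_filter :
    Finsupp.mapDomain r D Q = ∑ P ∈ D.support with r P = Q, D P := by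
  rw [Finsupp.mapDomain, Finsupp.sum, Finsupp.finsetSum_apply, Finset.sum_filter]
  refine Finset.sum_congr rfl fun P _ => ?_
  rw [Finsupp.single_apply]

variable {r D Q}

theorem le_mapDomain_apply (h : ∀ P, r P = Q → 0 ≤ D P) {a : α} (ha : r a = Q) :
    D a ≤ Finsupp.mapDomain r D Q := by
  classical
  rw [mapDomain_apply_eq_sum_filter]
  by_cases hmem : a ∈ D.support
  · exact Finset.single_le_sum (fun P hP => h P (Finset.mem_filter.mp hP).2)
      (Finset.mem_filter.mpr ⟨hmem, ha⟩)
  · rw [Finsupp.notMem_support_iff.mp hmem]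
    exact Finset.sum_nonneg fun P hP => h P (Finset.mem_filter.mp hP).2

theorem add_le_mapDomain_apply (h : ∀ P, r P = Q → 0 ≤ D P) {a b : α} (hab : a ≠ b)
    (ha : r a = Q) (hb : r b = Q) : D a + D b ≤ Finsupp.mapDomain r D Q := by
  classical
  have h0 : 0 ≤ D a := h a ha
  have h1 : 0 ≤ D b := h b hb
  rw [mapDomain_apply_eq_sum_filter]
  by_cases hA : a ∈ D.support <;> by_cases hB : b ∈ D.support
  · rw [← Finset.sum_pair hab]
    refine Finset.sum_le_sum_of_subset_of_nonneg ?_ fun P hP _ => h P (Finset.mem_filter.mp hP).2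
    simp [Finset.insert_subset_iff, Finset.mem_filter, hA, hB, ha, hb]
  · rw [Finsupp.notMem_support_iff.mp hB, add_zero]
    exact Finset.single_le_sum (fun P hP => h P (Finset.mem_filter.mp hP).2)
      (Finset.mem_filter.mpr ⟨hA, ha⟩)
  · rw [Finsupp.notMem_support_iff.mp hA, zero_add]
    exact Finset.single_le_sum (fun P hP => h P (Finset.mem_filter.mp hP).2)
      (Finset.mem_filter.mpr ⟨hB, hb⟩)
  · rw [Finsupp.notMem_support_iff.mp hA, Finsupp.notMem_support_iff.mp hB, add_zero]
    exact Finset.sum_nonneg fun P hP => h P (Finset.mem_filter.mp hP).2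

end MapDomain

section Ord

variable {K F : Type*} [Field K] [Field F] [Algebra K F] (v : Place K F)

theorem ord_sub_algebraMap_of_neg {x : F} (hx : v.ord x < 0) (c : K) :
    v.ord (x - algebraMap K F c) = v.ord x := by
  have hx0 : x ≠ 0 := fun h => by rw [h, v.ord_zero] at hx; omega
  rw [sub_eq_add_neg]
  refine ord_add_eq_left v hx0 ?_
  rcases eq_or_ne c 0 with rfl | hc
  · simp
  · exact Or.inr (by rwa [ord_neg, ord_algebraMap])

theorem ord_sub_algebraMap_of_pos {x : F} (hx : 0 < v.ord x) {c : K} (hc : c ≠ 0) :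
    v.ord (x - algebraMap K F c) = 0 := by
  have hc' : algebraMap K F c ≠ 0 := (map_ne_zero _).mpr hc
  rw [← ord_neg, neg_sub, sub_eq_add_neg]
  rw [ord_add_eq_left v hc' (Or.inr (by rwa [ord_neg, ord_algebraMap])), ord_algebraMap]

theorem ord_sub_algebraMap_nonneg {x : F} (hx : 0 ≤ v.ord x) (c : K) :
    0 ≤ v.ord (x - algebraMap K F c) := by
  rcases eq_or_ne (x - algebraMap K F c) 0 with h | h
  · rw [h, v.ord_zero]
  refine le_ord_of_mem ?_ h
  exact Submodule.sub_mem _ (mem_ordGE_of_le hx) (mem_ordGE_of_le (ord_algebraMap v c).ge)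

end Ord

section QPlace

variable {K : Type*} [Field K] (F : IntermediateField K (LaurentSeries K))

theorem zero_le_addVal_algebraMap (a : K) :
    0 ≤ HahnSeries.addVal ℤ K (F.val.toRingHom (algebraMap K F a)) := by
  show 0 ≤ HahnSeries.addVal ℤ K (algebraMap K (LaurentSeries K) a)
  rw [ModularCurve.algebraMap_laurentSeries_eq_single]
  rcases eq_or_ne a 0 with rfl | ha
  · simp
  · rw [HahnSeries.addVal_apply, HahnSeries.orderTop_single ha]
    rfl

/-- The place of a field of series given by the order in `q`, when some element has order `-1`. -/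
theorem exists_qPlace {z : F} (hz : (z : LaurentSeries K).order = -1) :
    ∃ v : Place K F, ∀ x : F, v.ord x = (x : LaurentSeries K).order := by
  have hz0 : (z : LaurentSeries K) ≠ 0 := fun h => by rw [h] at hz; simp at hz
  obtain ⟨v, hv⟩ := FermatLib.Modular.exists_inducesPlace (HahnSeries.addVal ℤ K) F.val.toRingHom
    (zero_le_addVal_algebraMap F) ⟨z, by
      show HahnSeries.addVal ℤ K (z : LaurentSeries K) < 0
      rw [HahnSeries.addVal_apply_of_ne hz0, hz]
      exact WithTop.coe_lt_coe.mpr (by norm_num)⟩
  obtain ⟨m, hm, hs⟩ := hv.exists_scale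
  have key : ∀ x : F, x ≠ 0 → m * v.ord x = (x : LaurentSeries K).order := fun x hx => by
    have h := hs x hx
    change HahnSeries.addVal ℤ K (x : LaurentSeries K) = _ at h
    rw [HahnSeries.addVal_apply_of_ne (fun h0 => hx (Subtype.ext h0)), WithTop.coe_inj] at h
    exact h.symm
  have hz' : z ≠ 0 := fun h => hz0 (congrArg Subtype.val h)
  have hm1 : m = 1 := by
    have h := key z hz'
    rw [hz] at h
    exact Int.eq_one_of_mul_eq_one_right hm.le (b := -v.ord z) (by linarith)
  refine ⟨v, fun x => ?_⟩
  rcases eq_or_ne x 0 with rfl | hx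
  · simp
  · simpa [hm1] using key x hx

end QPlace

section Constant

variable {K F : Type*} [Field K] [Field F] [Algebra K F] [IsAlgClosed K] [IsFunctionFieldOne K F]

theorem transcendental_of_notMem_range {x : F} (hx : x ∉ Set.range (algebraMap K F)) :
    Transcendental K x := fun h => by
  have hi : IsIntegral K x := h.isIntegral
  exact hx (minpoly.degree_eq_one_iff.mp
    (IsAlgClosed.degree_eq_one_of_irreducible K (minpoly.irreducible hi)))

/-- A function without zeros or poles is constant. -/
theorem exists_eq_algebraMap_of_ord_eq_zero {x : F} (h : ∀ v : Place K F, v.ord x = 0) :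
    ∃ c : K, x = algebraMap K F c := by
  by_contra hne
  push Not at hne
  have ht : Transcendental K x := transcendental_of_notMem_range fun ⟨c, hc⟩ => hne c hc.symm
  haveI := finiteDimensional_adjoin_of_transcendental ht
  have hs := sum_poles_ord_mul_deg ht
  rw [Finset.sum_eq_zero (fun v _ => by rw [h v]; simp)] at hs
  have : 0 < Module.finrank (IntermediateField.adjoin K ({x} : Set F)) F := Module.finrank_pos
  omega

end Constant

end FermatLib.Mazur.Classes
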