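import Fermat.Agent.Mazur.Classes.GaloisPlaces
import Fermat.Agent.Mazur.Classes.Reduction

/-!
# The reductions of `(x) - (0)` and of `(∞) - (0)`
-/

set_option autoImplicit false

noncomputable section

open ModularCurve AlgebraicCurve FermatLib.Modular

namespace FermatLib.Mazur.Classes

/-- The algebra structure of a field of Laurent series, to shorten instance searches. -/
@[reducible] private def laurentFieldAlgebra {k : Type*} [Field k]
    (E : IntermediateField k (LaurentSeries k)) : Algebra k E :=
  inferInstance

attribute [local instance 100000] laurentFieldAlgebra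

local notation "Qbar" => AlgebraicClosure ℚ
local notation "Γℚ" => (AlgebraicClosure ℚ ≃ₐ[ℚ] AlgebraicClosure ℚ)

variable (ι : Qbar →+* ℂ) {p : ℕ} [NeZero p] (A : ValuationSubring Qbar)

theorem reductionModL_pointClass (h : ReductionInputsModL A p)
    (x : Place Qbar (modularFunctionFieldBar p)) :
    reductionModL A p (pointClass p ι x) =
      Pic0.mk (reductionDegZeroAlong (placeReductionModL h)
        (isPlaceReductionModL_placeReductionModL h).1
        ⟨pointDivisor p ι x, pointDivisor_mem_degZero ι x⟩) :=
  reductionModL_mk h _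

variable {A}

theorem reductionModL_pointClass_eq_zero (h : ReductionInputsModL A p)
    {x : Place Qbar (modularFunctionFieldBar p)}
    (hx : placeReductionModL h x = placeReductionModL h (cZero ι p)) :
    reductionModL A p (pointClass p ι x) = 0 := by
  rw [reductionModL_pointClass ι A h x]
  refine (congrArg Pic0.mk (Subtype.ext ?_)).trans Pic0.mk_zero
  show Finsupp.mapDomain (placeReductionModL h) (pointDivisor p ι x) = 0
  rw [pointDivisor, Finsupp.mapDomain_sub, Finsupp.mapDomain_single, Finsupp.mapDomain_single, hx,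
    sub_self]

theorem reductionModL_pointClass_eq_cuspClass (h : ReductionInputsModL A p)
    {x : Place Qbar (modularFunctionFieldBar p)}
    (hx : placeReductionModL h x = placeReductionModL h (cInf ι p)) :
    reductionModL A p (pointClass p ι x) = reductionModL A p (cuspClass ι p) := by
  rw [reductionModL_pointClass ι A h x, cuspClass, reductionModL_mk h]
  refine congrArg Pic0.mk (Subtype.ext ?_)
  show Finsupp.mapDomain (placeReductionModL h) (pointDivisor p ι x)
    = Finsupp.mapDomain (placeReductionModL h) (cuspDivisor ι p)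
  rw [pointDivisor, cuspDivisor, Finsupp.mapDomain_sub, Finsupp.mapDomain_sub,
    Finsupp.mapDomain_single, Finsupp.mapDomain_single, Finsupp.mapDomain_single, hx]

variable (hp : p.Prime) {j₀ β : Qbar} (hj₀ : j₀ ∉ A)
  {x : Place Qbar (modularFunctionFieldBar p)}
  (hxj : 0 < x.ord ((jB p Qbar)⁻¹ - algebraMap Qbar _ j₀⁻¹))

include hp hj₀ hxj

/-- Where `β` is non-integral, `(x) - (0)` reduces as `(∞) - (0)`. -/
theorem red_eq_cuspClass (hβ : β ∉ A)
    (hxu : 0 < x.ord (uB p hp - algebraMap Qbar _ β)) :
    reductionModL A p (pointClass p ι x) = reductionModL A p (cuspClass ι p) := by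
  have := isFunctionFieldOne_modularFunctionFieldOver (L := Qbar) p
  by_cases h : ReductionInputsModL A p
  · exact reductionModL_pointClass_eq_cuspClass ι h
      ((isCuspData ι p hp).r_eq_c hp.two_le (isPlaceReductionModL_placeReductionModL h)
        h.choose_spec.2 hj₀ hxj hβ hxu)
  · rw [reductionModL_of_not h]
    rfl

/-- Where `β / j ^ (p - 1)` has positive valuation, `(x) - (0)` reduces to zero. -/
theorem red_eq_zero (hβ : β * j₀⁻¹ ^ (p - 1) ∈ A.nonunits)
    (hxu : 0 < x.ord (uB p hp * (jB p Qbar)⁻¹ ^ (p - 1)
      - algebraMap Qbar _ (β * j₀⁻¹ ^ (p - 1)))) :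
    reductionModL A p (pointClass p ι x) = 0 := by
  have := isFunctionFieldOne_modularFunctionFieldOver (L := Qbar) p
  by_cases h : ReductionInputsModL A p
  · exact reductionModL_pointClass_eq_zero ι h
      ((isCuspData ι p hp).r_eq_c' hp.two_le (isPlaceReductionModL_placeReductionModL h)
        h.choose_spec.2 hj₀ hxj hβ hxu)
  · rw [reductionModL_of_not h]
    rfl

/-- If `x` is moved by `σ` then no reduction is available where `β` is non-integral. -/
theorem not_reductionInputs_of_moved (hβ : β ∉ A)
    (hxu : 0 < x.ord (uB p hp - algebraMap Qbar _ β)) (σ : Γℚ) (hσj : σ j₀ = j₀) (hσβ : σ β = β)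
    (hσ : arithmeticGalois (modularFunctionFieldFull p) σ • x ≠ x) :
    ¬ ReductionInputsModL A p := by
  intro h
  have := isFunctionFieldOne_modularFunctionFieldOver (L := Qbar) p
  obtain ⟨ι⟩ := exists_embedding_Qbar
  have hxj' : 0 < (arithmeticGalois (modularFunctionFieldFull p) σ • x).ord
      ((jB p Qbar)⁻¹ - algebraMap Qbar _ j₀⁻¹) := by
    exact hxj.trans_eq (ord_galois_smul_sub (f := (jB p Qbar)⁻¹) (β := j₀⁻¹) σ x
      (galois_smul_jB_inv σ) (by rw [map_inv₀, hσj])).symm
  have hxu' : 0 < (arithmeticGalois (modularFunctionFieldFull p) σ • x).ord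
      (uB p hp - algebraMap Qbar _ β) := by
    exact hxu.trans_eq (ord_galois_smul_sub (f := uB p hp) (β := β) σ x
      (galois_smul_uB hp σ) hσβ).symm
  have hd := isCuspData ι p hp
  have hr := isPlaceReductionModL_placeReductionModL h
  exact hσ (hd.eq_of_r_eq_c hp.two_le hr h.choose_spec.2 hj₀ hxj' hxj
    (hd.r_eq_c hp.two_le hr h.choose_spec.2 hj₀ hxj' hβ hxu')
    (hd.r_eq_c hp.two_le hr h.choose_spec.2 hj₀ hxj hβ hxu))

end FermatLib.Mazur.Classes
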