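import Fermat.Agent.Mazur.Classes.UnitSeries
import Fermat.Agent.Mazur.Classes.PlaceTools
import Fermat.Prelude.Def_ModularCurve_ReductionModL

/-!
# Functions with an integral series, and their reductions
-/

set_option autoImplicit false

noncomputable section

open HahnSeries ModularCurve AlgebraicCurve

namespace FermatLib.Mazur.Classes

/-- The algebra structure of a field of Laurent series, to shorten instance searches. -/
@[reducible] private def laurentFieldAlgebra {k : Type*} [Field k]
    (E : IntermediateField k (LaurentSeries k)) : Algebra k E :=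
  inferInstance

attribute [local instance 100000] laurentFieldAlgebra

local notation "Qbar" => AlgebraicClosure ℚ

variable (A : ValuationSubring (AlgebraicClosure ℚ))


/-- `g` is the reduction of an integral series equal to `f`. -/
def Reduces (f : LaurentSeries Qbar) (g : LaurentSeries (IsLocalRing.ResidueField A)) : Prop :=
  ∃ y : LaurentSeries A, coeffMap A.subtype y = f ∧ coeffMap (IsLocalRing.residue A) y = g

variable {A}

namespace Reduces

variable {f f' : LaurentSeries Qbar} {g g' : LaurentSeries (IsLocalRing.ResidueField A)}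

theorem mul (h : Reduces A f g) (h' : Reduces A f' g') : Reduces A (f * f') (g * g') := by
  obtain ⟨y, rfl, rfl⟩ := h
  obtain ⟨y', rfl, rfl⟩ := h'
  exact ⟨y * y', map_mul _ _ _, map_mul _ _ _⟩

theorem sub (h : Reduces A f g) (h' : Reduces A f' g') : Reduces A (f - f') (g - g') := by
  obtain ⟨y, rfl, rfl⟩ := h
  obtain ⟨y', rfl, rfl⟩ := h'
  exact ⟨y - y', map_sub _ _ _, map_sub _ _ _⟩

theorem pow (h : Reduces A f g) (n : ℕ) : Reduces A (f ^ n) (g ^ n) := by
  obtain ⟨y, rfl, rfl⟩ := h
  exact ⟨y ^ n, map_pow _ _ _, map_pow _ _ _⟩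

theorem const (a : A) : Reduces A (algebraMap Qbar (LaurentSeries Qbar) (a : Qbar))
    (algebraMap (IsLocalRing.ResidueField A) (LaurentSeries (IsLocalRing.ResidueField A)) (IsLocalRing.residue A a)) :=
  ⟨HahnSeries.single 0 a,
    by rw [coeffMap_single, algebraMap_laurentSeries_eq_single]; rfl,
    by rw [coeffMap_single, algebraMap_laurentSeries_eq_single]⟩

theorem jq : Reduces A (jqModC Qbar) (jqModC (IsLocalRing.ResidueField A)) :=
  ⟨jqModC A, coeffMap_jqModC _, coeffMap_jqModC _⟩

theorem jqInv : Reduces A (jqInvC Qbar) (jqInvC (IsLocalRing.ResidueField A)) :=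
  ⟨jqInvC A, coeffMap_jqInvC _, coeffMap_jqInvC _⟩

theorem uMod (p : ℕ) [NeZero p] : Reduces A (uModC Qbar p) (uModC (IsLocalRing.ResidueField A) p) :=
  ⟨uModC A p, coeffMap_uModC p _, coeffMap_uModC p _⟩

theorem vMod (p : ℕ) [NeZero p] : Reduces A (vModC Qbar p) (vModC (IsLocalRing.ResidueField A) p) :=
  ⟨vModC A p, coeffMap_vModC p _, coeffMap_vModC p _⟩

theorem subtype_injective {y y' : LaurentSeries A}
    (h : coeffMap A.subtype y = coeffMap A.subtype y') : y = y' :=
  HahnSeries.ext (funext fun k => Subtype.ext (by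
    simpa using congrArg (fun z : LaurentSeries Qbar => z.coeff k) h))

theorem ne_zero (h : Reduces A f g) (hg : g ≠ 0) : f ≠ 0 := by
  obtain ⟨y, rfl, rfl⟩ := h
  intro h0
  refine hg ?_
  have hy : y = 0 := HahnSeries.ext (funext fun k => Subtype.ext (by
    simpa using congrArg (fun z : LaurentSeries Qbar => z.coeff k) h0))
  rw [hy, map_zero]

end Reduces

section Field

variable {p : ℕ} [NeZero p]


/-- Reductions respect divisors. -/
theorem mapDomain_eq_ord {r : Place Qbar (modularFunctionFieldBar p) → Place (IsLocalRing.ResidueField A) (modularFunctionFieldFullC (IsLocalRing.ResidueField A) p)}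
    (hr : IsPlaceReductionModL A p r) {f : (modularFunctionFieldBar p)} {g : (modularFunctionFieldFullC (IsLocalRing.ResidueField A) p)}
    (h : Reduces A (f : LaurentSeries Qbar) g) (hg : g ≠ 0) {D : Divisor Qbar (modularFunctionFieldBar p)}
    (hD : ∀ P, D P = P.ord f) (Q : Place (IsLocalRing.ResidueField A) (modularFunctionFieldFullC (IsLocalRing.ResidueField A) p)) :
    Finsupp.mapDomain r D Q = Q.ord g := by
  obtain ⟨y, hyf, hyg⟩ := h
  obtain ⟨f, hf⟩ := f
  obtain ⟨g, hgmem⟩ := g
  subst hyf hyg
  exact hr.2 y hf hgmem (fun h0 => hg (Subtype.ext h0)) D hD Q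

/-- If principal divisors are generated by integral functions, the reduction of an integral
function lies in the reduced function field. -/
theorem mem_of_reduces [FermatLib.Curve.IsFunctionFieldOne Qbar (modularFunctionFieldBar p)]
    (hgen : PrincipalGeneratedByIntegral A (IsLocalRing.residue A) p) {f : (modularFunctionFieldBar p)}
    {g : LaurentSeries (IsLocalRing.ResidueField A)} (h : Reduces A (f : LaurentSeries Qbar) g) (hg : g ≠ 0) :
    g ∈ modularFunctionFieldFullC (IsLocalRing.ResidueField A) p := by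
  have hf : f ≠ 0 := fun h0 => h.ne_zero hg (congrArg Subtype.val h0)
  obtain ⟨D, hD, -⟩ := HasPrincipalDivisors.exists_divisor (K := Qbar) f hf
  have hmem : D ∈ AddSubgroup.closure (integralPrincipalDivisors A (IsLocalRing.residue A) p) :=
    hgen ⟨f, hf, hD⟩
  have key : ∀ E : Divisor Qbar (modularFunctionFieldBar p),
      E ∈ AddSubgroup.closure (integralPrincipalDivisors A (IsLocalRing.residue A) p) →
      ∃ (a b : (modularFunctionFieldBar p)) (ga gb : (modularFunctionFieldFullC (IsLocalRing.ResidueField A) p)), a ≠ 0 ∧ b ≠ 0 ∧ ga ≠ 0 ∧ gb ≠ 0 ∧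
        Reduces A (a : LaurentSeries Qbar) ga ∧ Reduces A (b : LaurentSeries Qbar) gb ∧
          ∀ P, E P = P.ord a - P.ord b := by
    intro E hE
    induction hE using AddSubgroup.closure_induction with
    | mem E hE =>
      obtain ⟨y, hy, hyk, hne, hord⟩ := hE
      have hr : Reduces A (coeffMap A.subtype y) (coeffMap (IsLocalRing.residue A) y) :=
        ⟨y, rfl, rfl⟩
      refine ⟨⟨_, hy⟩, 1, ⟨_, hyk⟩, 1, fun h0 => hr.ne_zero hne (congrArg Subtype.val h0),
        one_ne_zero, fun h0 => hne (congrArg Subtype.val h0), one_ne_zero, hr,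
        ⟨1, map_one _, map_one _⟩, fun P => ?_⟩
      rw [hord P, P.ord_one, sub_zero]
    | zero =>
      exact ⟨1, 1, 1, 1, one_ne_zero, one_ne_zero, one_ne_zero, one_ne_zero,
        ⟨1, map_one _, map_one _⟩, ⟨1, map_one _, map_one _⟩, fun P => by simp⟩
    | add E E' _ _ hE hE' =>
      obtain ⟨a, b, ga, gb, ha, hb, hga, hgb, ra, rb, hab⟩ := hE
      obtain ⟨a', b', ga', gb', ha', hb', hga', hgb', ra', rb', hab'⟩ := hE'
      refine ⟨a * a', b * b', ga * ga', gb * gb', mul_ne_zero ha ha', mul_ne_zero hb hb',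
        mul_ne_zero hga hga', mul_ne_zero hgb hgb', ra.mul ra', rb.mul rb', fun P => ?_⟩
      rw [Finsupp.add_apply, hab, hab', P.ord_mul ha ha', P.ord_mul hb hb']
      ring
    | neg E _ hE =>
      obtain ⟨a, b, ga, gb, ha, hb, hga, hgb, ra, rb, hab⟩ := hE
      exact ⟨b, a, gb, ga, hb, ha, hgb, hga, rb, ra, fun P => by
        rw [Finsupp.neg_apply, hab]; ring⟩
  obtain ⟨a, b, ga, gb, ha, hb, hga, hgb, ra, rb, hab⟩ := key D hmem
  obtain ⟨c, hc⟩ := exists_eq_algebraMap_of_ord_eq_zero (K := Qbar) (x := f * b * a⁻¹)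
    fun P => by
      rw [P.ord_mul (mul_ne_zero hf hb) (inv_ne_zero ha), P.ord_mul hf hb, P.ord_inv, ← hD P,
        hab P]
      ring
  have hc' : f * b = algebraMap Qbar (modularFunctionFieldBar p) c * a := by
    rw [← hc, inv_mul_cancel_right₀ ha]
  have hser : (f : LaurentSeries Qbar) * b = algebraMap Qbar (LaurentSeries Qbar) c * a :=
    congrArg Subtype.val hc'
  have hgb' : g * (gb : LaurentSeries (IsLocalRing.ResidueField A)) ≠ 0 :=
    mul_ne_zero hg fun h0 => hgb (Subtype.ext h0)
  obtain ⟨z, hz, hzg⟩ := h.mul rb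
  obtain ⟨y, hy, hyg⟩ := ra
  rcases A.mem_or_inv_mem c with hcA | hcA
  · have he : z = HahnSeries.single 0 ⟨c, hcA⟩ * y := by
      refine Reduces.subtype_injective ?_
      rw [map_mul, coeffMap_single, hy, hz, hser, algebraMap_laurentSeries_eq_single]
      rfl
    have hg' : g * (gb : LaurentSeries (IsLocalRing.ResidueField A)) =
        algebraMap (IsLocalRing.ResidueField A) (LaurentSeries (IsLocalRing.ResidueField A)) (IsLocalRing.residue A ⟨c, hcA⟩) * ga := by
      rw [← hzg, he, map_mul, coeffMap_single, hyg, algebraMap_laurentSeries_eq_single]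
    rw [show g = g * (gb : LaurentSeries (IsLocalRing.ResidueField A)) * (gb : LaurentSeries (IsLocalRing.ResidueField A))⁻¹ from
      (mul_inv_cancel_right₀ (fun h0 => hgb (Subtype.ext h0)) g).symm, hg']
    exact mul_mem (mul_mem (IntermediateField.algebraMap_mem _ _) ga.2) (inv_mem gb.2)
  · have hc0 : c ≠ 0 := by
      rintro rfl
      rw [map_zero, zero_mul] at hc'
      exact mul_ne_zero hf hb hc'
    have he : HahnSeries.single 0 ⟨c⁻¹, hcA⟩ * z = y := by
      refine Reduces.subtype_injective ?_
      rw [map_mul, coeffMap_single, hy, hz, hser, algebraMap_laurentSeries_eq_single, ← mul_assoc,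
        HahnSeries.single_mul_single, add_zero]
      simp [hc0]
    have hg' : algebraMap (IsLocalRing.ResidueField A) (LaurentSeries (IsLocalRing.ResidueField A)) (IsLocalRing.residue A ⟨c⁻¹, hcA⟩) *
        (g * (gb : LaurentSeries (IsLocalRing.ResidueField A))) = ga := by
      rw [← hyg, ← he, map_mul, coeffMap_single, hzg, algebraMap_laurentSeries_eq_single]
    have hne : algebraMap (IsLocalRing.ResidueField A) (LaurentSeries (IsLocalRing.ResidueField A)) (IsLocalRing.residue A ⟨c⁻¹, hcA⟩) ≠ 0 := fun h0 =>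
      hga (Subtype.ext (by rw [← hg', h0, zero_mul]; rfl))
    rw [show g = (algebraMap (IsLocalRing.ResidueField A) (LaurentSeries (IsLocalRing.ResidueField A)) (IsLocalRing.residue A ⟨c⁻¹, hcA⟩))⁻¹ *
        (ga : LaurentSeries (IsLocalRing.ResidueField A)) * (gb : LaurentSeries (IsLocalRing.ResidueField A))⁻¹ by
      rw [← hg', inv_mul_cancel_left₀ hne, mul_inv_cancel_right₀ fun h0 => hgb (Subtype.ext h0)]]
    exact mul_mem (mul_mem (inv_mem (IntermediateField.algebraMap_mem _ _)) ga.2) (inv_mem gb.2)

end Field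

end FermatLib.Mazur.Classes
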