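import Fermat.Agent.Mazur.Classes.IsogenyDiscriminant
import Fermat.Agent.Modular.JInvariant

/-! The value `Δ(τ)/Δ(pτ)` as a product over the cyclotomic torsion points. -/

set_option autoImplicit false

noncomputable section

open UpperHalfPlane hiding I
open Complex ModularForm EisensteinSeries FermatLib.Modular
open scoped MatrixGroups Real

namespace FermatLib.Mazur.Classes

theorem g₂_periodPairOf (τ : ℍ) {c : ℂ} (hc : c ≠ 0) :
    (periodPairOf τ c hc).g₂ = 4 * (π : ℂ) ^ 4 / 3 * E₄ τ / c ^ 4 := by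
  rw [PeriodPair.g₂, G_periodPairOf τ hc (show 3 ≤ 4 by norm_num), Nat.cast_ofNat, riemannZeta_four]
  ring

theorem g₃_periodPairOf (τ : ℍ) {c : ℂ} (hc : c ≠ 0) :
    (periodPairOf τ c hc).g₃ = 8 * (π : ℂ) ^ 6 / 27 * E₆ τ / c ^ 6 := by
  have h6 : riemannZeta (6 : ℂ) = (π : ℂ) ^ 6 / 945 := by
    have h := riemannZeta_two_mul_nat (k := 3) (by norm_num)
    norm_num [Nat.factorial, show bernoulli 6 = 1 / 42 by decide +kernel] at h
    rw [h]
    ring
  rw [PeriodPair.g₃, G_periodPairOf τ hc (show 3 ≤ 6 by norm_num), Nat.cast_ofNat, h6]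
  ring

theorem latticeDisc_periodPairOf (τ : ℍ) {c : ℂ} (hc : c ≠ 0) :
    latticeDisc (periodPairOf τ c hc) =
      (2 * (π : ℂ)) ^ 12 * ModularForm.discriminant τ / c ^ 12 := by
  rw [latticeDisc, g₂_periodPairOf, g₃_periodPairOf, discriminant_eq_E₄_cube_sub_E₆_sq]
  ring

theorem mem_lattice_periodPairOf {τ : ℍ} {c : ℂ} (hc : c ≠ 0) {z : ℂ} :
    z ∈ (periodPairOf τ c hc).lattice ↔ ∃ m n : ℤ, c * (m * τ + n) = z := by
  rw [PeriodPair.mem_lattice]
  refine exists₂_congr fun m n => ?_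
  simp only [periodPairOf]
  ring_nf

theorem natCast_div_notMem {p : ℕ} (τ : ℍ) {k : ℕ} (h0 : 0 < k) (hk : k < p) :
    (k : ℂ) * (p : ℂ)⁻¹ ∉ (periodPairOf τ 1 one_ne_zero).lattice := by
  rw [mem_lattice_periodPairOf]
  rintro ⟨m, n, h⟩
  have hp : (p : ℂ) ≠ 0 := by
    simp only [ne_eq, Nat.cast_eq_zero]
    omega
  rw [one_mul] at h
  have him := congrArg Complex.im h
  simp [Complex.inv_im, τ.im_ne_zero] at him
  subst him
  field_simp at h
  simp only [Int.cast_zero, zero_mul, zero_add] at h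
  have h' : n * (p : ℤ) = k := by exact_mod_cast h
  rcases le_or_gt n 0 with hn | hn
  · nlinarith
  · nlinarith

theorem isCyclicExtension_diag {p : ℕ} (hp : p.Prime) (hp2 : p ≠ 2) (τ : ℍ) :
    IsCyclicExtension (periodPairOf τ 1 one_ne_zero)
      (periodPairOf (ModularForm.heckeDiagMatrix p • τ) (p : ℂ)⁻¹
        (inv_ne_zero (Nat.cast_ne_zero.mpr hp.ne_zero))) (p : ℂ)⁻¹ p where
  prime := hp
  ne_two := hp2
  mem_iff z := by
    have hp0 : (p : ℂ) ≠ 0 := Nat.cast_ne_zero.mpr hp.ne_zero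
    simp only [mem_lattice_periodPairOf, ModularForm.coe_heckeDiagMatrix_smul hp.ne_zero, one_mul]
    constructor
    · rintro ⟨m, n, h⟩
      refine ⟨((-n) % p).toNat, ?_, m, -((-n) / p), ?_⟩
      · have := Int.emod_lt_of_pos (-n) (Int.natCast_pos.mpr hp.pos)
        have := Int.emod_nonneg (-n) (Int.natCast_ne_zero.mpr hp.ne_zero)
        omega
      · have e : ((((-n) % p).toNat : ℕ) : ℂ) = (((-n) % p : ℤ) : ℂ) := by
          exact_mod_cast Int.toNat_of_nonneg (Int.emod_nonneg (-n) (Int.natCast_ne_zero.mpr hp.ne_zero))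
        rw [← h, e]
        have h2 : (((-n) % p : ℤ) : ℂ) = -(n : ℂ) - (p : ℂ) * (((-n) / p : ℤ) : ℂ) := by
          rw [Int.emod_def]
          push_cast
          ring
        rw [h2]
        push_cast
        field_simp
        ring
    · rintro ⟨k, -, m, n, h⟩
      refine ⟨m, p * n - k, ?_⟩
      rw [eq_sub_of_add_eq h.symm]
      push_cast
      field_simp
      ring
  mul_mem := by
    rw [mem_lattice_periodPairOf, mul_inv_cancel₀ (Nat.cast_ne_zero.mpr hp.ne_zero)]
    exact ⟨0, 1, by simp⟩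
  notMem k h0 hk := natCast_div_notMem τ h0 hk

/-- `Δ(τ) / Δ(pτ)` expressed by the discriminant of `[τ, 1]` and the values `℘'(k/p)`. -/
theorem discriminant_div_scale {p : ℕ} (hp : p.Prime) (hp2 : p ≠ 2) (τ : ℍ) :
    ModularForm.discriminant τ *
        ((periodPairOf τ 1 one_ne_zero).g₂ ^ 3 - 27 * (periodPairOf τ 1 one_ne_zero).g₃ ^ 2) ^
          (p - 1) =
      (p : ℂ) ^ 12 *
          (∏ k ∈ Finset.Ico 1 p,
            (periodPairOf τ 1 one_ne_zero).derivWeierstrassP ((k : ℂ) / p)) ^ 4 *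
        ModularForm.discriminant (ModularForm.heckeDiagMatrix p • τ) := by
  have h := (isCyclicExtension_diag hp hp2 τ).disc_mul_pow
  have hP : translateProd (periodPairOf τ 1 one_ne_zero) (p : ℂ)⁻¹ p 0 =
      ∏ k ∈ Finset.Ico 1 p,
        (periodPairOf τ 1 one_ne_zero).derivWeierstrassP ((k : ℂ) / p) := by
    simp [translateProd, div_eq_mul_inv]
  have hD := latticeDisc_periodPairOf τ one_ne_zero
  rw [← pow_sub_one_mul hp.ne_zero, latticeDisc_periodPairOf, hP] at h
  nth_rewrite 2 [hD] at h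
  change ModularForm.discriminant τ * latticeDisc (periodPairOf τ 1 one_ne_zero) ^ (p - 1) = _
  simp only [inv_pow, div_inv_eq_mul, one_pow, div_one] at h
  have hpi : (2 * (π : ℂ)) ^ 12 ≠ 0 := by simp [Real.pi_ne_zero]
  apply mul_left_cancel₀ hpi
  linear_combination -h

end FermatLib.Mazur.Classes
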